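import Fermat.Agent.Smooth.LocalizedBase
import Mathlib.RingTheory.Henselian
import Mathlib.RingTheory.PowerSeries.Inverse
import Mathlib.RingTheory.PowerSeries.Order
import Mathlib.RingTheory.AdicCompletion.Basic
import Mathlib.FieldTheory.IsAlgClosed.Basic

/-!
# Power series over a henselian ring
-/

set_option autoImplicit false

noncomputable section

open IsLocalRing Polynomial

namespace FLTA.Carayol.Chart

section Series

variable {W : Type} [CommRing W]

theorem mem_span_X_pow {n : ℕ} {f : PowerSeries W} :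
    f ∈ (Ideal.span {(PowerSeries.X : PowerSeries W)} ^ n • ⊤ : Submodule (PowerSeries W) (PowerSeries W))
      ↔ ∀ m < n, PowerSeries.coeff m f = 0 := by
  rw [smul_eq_mul, Ideal.mul_top, Ideal.span_singleton_pow, Ideal.mem_span_singleton,
    PowerSeries.X_pow_dvd_iff]

theorem isAdicComplete_span_X :
    IsAdicComplete (Ideal.span {(PowerSeries.X : PowerSeries W)}) (PowerSeries W) := by
  refine { haus' := fun f hf => ?_, prec' := fun f hf => ?_ }
  · ext m
    have := SModEq.sub_mem.mp (hf (m + 1))
    rw [sub_zero, mem_span_X_pow] at this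
    simpa using this m m.lt_succ_self
  · refine ⟨PowerSeries.mk fun m => PowerSeries.coeff m (f (m + 1)), fun n => ?_⟩
    rw [SModEq.sub_mem, mem_span_X_pow]
    intro m hm
    have h1 := SModEq.sub_mem.mp (hf (Nat.succ_le_of_lt hm))
    rw [mem_span_X_pow] at h1
    have h2 := h1 m m.lt_succ_self
    rw [map_sub, sub_eq_zero] at h2
    rw [map_sub, PowerSeries.coeff_mk, sub_eq_zero]
    exact h2.symm

variable [HenselianLocalRing W]

theorem henselianLocalRing_powerSeries : HenselianLocalRing (PowerSeries W) := by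
  have : IsLocalRing (PowerSeries W) := inferInstance
  have := isAdicComplete_span_X (W := W)
  refine ⟨fun f hf a₀ ha hd => ?_⟩
  set φ := PowerSeries.constantCoeff (R := W) with hφ
  have hmem : ∀ {p : PowerSeries W}, p ∈ maximalIdeal (PowerSeries W) ↔ φ p ∈ maximalIdeal W := by
    intro p
    rw [mem_maximalIdeal, mem_maximalIdeal, mem_nonunits_iff, mem_nonunits_iff,
      PowerSeries.isUnit_iff_constantCoeff]
  obtain ⟨c, hc, hca⟩ := HenselianLocalRing.is_henselian (f.map φ) (hf.map φ) (φ a₀)
    (by rw [eval_map, eval₂_at_apply]; exact hmem.mp ha)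
    (by rw [derivative_map, eval_map, eval₂_at_apply]; exact hd.map φ)
  set b := a₀ + PowerSeries.C (c - φ a₀)
  have hb : φ b = c := by simp [b, hφ]
  have hbm : b - a₀ ∈ maximalIdeal (PowerSeries W) := hmem.mpr (by simpa [b, hφ] using hca)
  obtain ⟨a, ha1, ha2⟩ := HenselianRing.is_henselian (I := Ideal.span {(PowerSeries.X : PowerSeries W)})
    f hf b
    (by
      rw [Ideal.mem_span_singleton, PowerSeries.X_dvd_iff, ← eval₂_at_apply, ← eval_map, hb]
      exact hc)
    (by
      refine IsUnit.map _ ?_
      by_contra hnu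
      have h1 : f.derivative.eval b - f.derivative.eval a₀ ∈ maximalIdeal (PowerSeries W) :=
        Ideal.mem_of_dvd _ (sub_dvd_eval_sub b a₀ _) hbm
      have h2 := sub_mem ((mem_maximalIdeal _).mpr hnu) h1
      rw [sub_sub_cancel, mem_maximalIdeal] at h2
      exact h2 hd)
  refine ⟨a, ha1, ?_⟩
  rw [show a - a₀ = (a - b) + (b - a₀) by ring]
  refine add_mem ?_ hbm
  refine hmem.mpr ?_
  rw [Ideal.mem_span_singleton, PowerSeries.X_dvd_iff] at ha2
  rw [ha2]
  exact zero_mem _

theorem isAlgClosed_residueField_powerSeries [IsAlgClosed (ResidueField W)]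
    [HenselianLocalRing (PowerSeries W)] :
    IsAlgClosed (ResidueField (PowerSeries W)) := by
  let φ : PowerSeries W →+* ResidueField W := (residue W).comp PowerSeries.constantCoeff
  have hker : ∀ p, φ p = 0 ↔ residue (PowerSeries W) p = 0 := by
    intro p
    simp only [φ, RingHom.comp_apply, residue_eq_zero_iff, mem_maximalIdeal, mem_nonunits_iff,
      PowerSeries.isUnit_iff_constantCoeff]
  let e : ResidueField (PowerSeries W) →+* ResidueField W :=
    Ideal.Quotient.lift _ φ fun p hp => (hker p).mpr ((residue_eq_zero_iff p).mpr hp)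
  have he : Function.Bijective e := by
    refine ⟨e.injective, fun y => ?_⟩
    obtain ⟨w, rfl⟩ := residue_surjective y
    exact ⟨residue _ (PowerSeries.C w), (Ideal.Quotient.lift_mk _ _ _).trans (by simp [φ])⟩
  exact IsAlgClosed.of_ringEquiv _ _ (RingEquiv.ofBijective e he).symm

/-- A unit of a henselian local ring with algebraically closed residue field has roots of every
order prime to the residue characteristic. -/
theorem exists_unit_root {S : Type} [CommRing S] [HenselianLocalRing S]
    [IsAlgClosed (ResidueField S)] {n : ℕ} (hn : IsUnit (n : S)) (U : Sˣ) :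
    ∃ r : Sˣ, r ^ n = U := by
  have hn0 : n ≠ 0 := by
    rintro rfl
    rw [Nat.cast_zero] at hn
    exact not_isUnit_zero hn
  obtain ⟨z, hz⟩ := IsAlgClosed.exists_pow_nat_eq (residue S (U : S)) (Nat.pos_of_ne_zero hn0)
  obtain ⟨a₀, rfl⟩ := residue_surjective z
  have ha₀ : IsUnit a₀ := by
    refine (isUnit_map_iff (residue S) a₀).mp (isUnit_iff_ne_zero.mpr fun h => ?_)
    rw [h, zero_pow hn0] at hz
    exact ((U.isUnit).map (residue S)).ne_zero hz.symm
  obtain ⟨a, ha, -⟩ := HenselianLocalRing.is_henselian (X ^ n - C (U : S))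
    (monic_X_pow_sub_C _ hn0) a₀
    (by
      rw [← residue_eq_zero_iff]
      simp [hz])
    (by simpa [derivative_X_pow] using hn.mul (ha₀.pow _))
  have ha' : a ^ n = (U : S) := by simpa [IsRoot, sub_eq_zero] using ha
  have hau : IsUnit a := (isUnit_pow_iff hn0).mp (ha' ▸ U.isUnit)
  exact ⟨hau.unit, Units.ext (by simpa using ha')⟩

end Series

section Zloc

variable (q : ℕ) (S : Type) [CommRing S] [IsDomain S] [CharZero S]

theorem exists_zlocHom (h : ∀ m : ℕ, m.Coprime q → IsUnit (m : S)) :
    ∃ f : Smooth.Zloc q →+* S, Function.Injective f := by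
  classical
  set Ω := FractionRing S
  have : CharZero Ω := charZero_of_injective_algebraMap (IsFractionRing.injective S Ω)
  let g : Smooth.Zloc q →+* Ω := (Rat.castHom Ω).comp (GaloisRep.ratLocalizedAt q).subtype
  have hg : ∀ r, g r ∈ (algebraMap S Ω).range := by
    intro r
    obtain ⟨u, hu⟩ := h (r : ℚ).den r.2
    refine ⟨((r : ℚ).num : S) * ↑u⁻¹, ?_⟩
    have hden : algebraMap S Ω ↑u = ((r : ℚ).den : Ω) := by rw [hu, map_natCast]
    show _ = ((r : ℚ) : Ω)
    rw [Rat.cast_def, eq_div_iff (Nat.cast_ne_zero.mpr (r : ℚ).den_nz), ← hden, ← map_mul,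
      mul_assoc, Units.inv_mul, mul_one, map_intCast]
  let e := RingEquiv.ofBijective (algebraMap S Ω).rangeRestrict
    ⟨fun a b hab => IsFractionRing.injective S Ω (congrArg Subtype.val hab),
      (algebraMap S Ω).rangeRestrict_surjective⟩
  refine ⟨e.symm.toRingHom.comp (g.codRestrict _ hg), e.symm.injective.comp fun a b hab => ?_⟩
  exact Subtype.ext ((Rat.castHom Ω).injective (congrArg Subtype.val hab))

omit [IsDomain S] [CharZero S] in
theorem isUnit_natCast_of_coprime [IsLocalRing S] [Fact q.Prime] [CharP (ResidueField S) q] {m : ℕ}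
    (hm : m.Coprime q) : IsUnit (m : S) := by
  refine (isUnit_map_iff (residue S) _).mp (isUnit_iff_ne_zero.mpr fun h => ?_)
  rw [map_natCast, CharP.cast_eq_zero_iff (ResidueField S) q] at h
  exact (Fact.out : q.Prime).coprime_iff_not_dvd.mp hm.symm h

end Zloc

end FLTA.Carayol.Chart
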