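import Mathlib.FieldTheory.IntermediateField.Adjoin.Basic
import Mathlib.LinearAlgebra.Matrix.NonsingularInverse
import Mathlib.Algebra.Algebra.Rat
import Mathlib.LinearAlgebra.Matrix.ToLinearEquiv
import Mathlib.LinearAlgebra.LinearIndependent.Lemmas

/-!
# Split points of an extension of `ℚ(t)`
-/

set_option autoImplicit false

noncomputable section

namespace FLTA.Carayol.Chart

variable {F Ω : Type} [Field F] [Field Ω] [CharZero F] [CharZero Ω]

/-- All conjugates of `F` over `ℚ(t)` are rational in `Ω` at the value `T` of `t`. -/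
def SplitsAt (t : F) (T : Ω) : Prop :=
  ∃ φ : Fin (Module.finrank (IntermediateField.adjoin ℚ ({t} : Set F)) F) → (F →+* Ω),
    Function.Injective φ ∧ ∀ i, φ i t = T

/-- A split point identifies `F ⊗ Ω` with a power of `Ω`. -/
theorem SplitsAt.exists_det_ne_zero {t : F} {T : Ω} (h : SplitsAt t T)
    (b : Module.Basis (Fin (Module.finrank (IntermediateField.adjoin ℚ ({t} : Set F)) F))
      (IntermediateField.adjoin ℚ ({t} : Set F)) F) :
    ∃ φ : Fin (Module.finrank (IntermediateField.adjoin ℚ ({t} : Set F)) F) → (F →+* Ω),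
      Function.Injective φ ∧ (∀ i, φ i t = T) ∧
        (Matrix.of fun i j => φ i (b j)).det ≠ 0 := by
  obtain ⟨φ, hinj, hφ⟩ := h
  refine ⟨φ, hinj, hφ, fun hdet => ?_⟩
  obtain ⟨v, hv, hvM⟩ := Matrix.exists_vecMul_eq_zero_iff.mpr hdet
  apply hv
  have hagree : ∀ i k, ∀ c : IntermediateField.adjoin ℚ ({t} : Set F), φ i c = φ k c := by
    intro i k c
    obtain ⟨c, hc⟩ := c
    change φ i c = φ k c
    induction hc using IntermediateField.adjoin_induction with
    | mem x hx => rw [Set.mem_singleton_iff.mp hx, hφ i, hφ k]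
    | algebraMap q => rw [eq_ratCast, map_ratCast, map_ratCast]
    | add x y _ _ hx hy => rw [map_add, map_add, hx, hy]
    | inv x _ hx => rw [map_inv₀, map_inv₀, hx]
    | mul x y _ _ hx hy => rw [map_mul, map_mul, hx, hy]
  have hind := (linearIndependent_monoidHom F Ω).comp (fun i => (φ i).toMonoidHom)
    (fun i k hik => hinj (RingHom.ext fun x => DFunLike.congr_fun hik x))
  funext i
  refine Fintype.linearIndependent_iff.mp hind v (funext fun x => ?_) i
  simp only [Finset.sum_apply, Pi.smul_apply, Function.comp_apply, smul_eq_mul, Pi.zero_apply]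
  change ∑ k, v k * φ k x = 0
  conv_lhs =>
    enter [2, k]
    rw [← b.sum_repr x, map_sum, Finset.mul_sum]
  rw [Finset.sum_comm]
  refine Finset.sum_eq_zero fun j _ => ?_
  have hj : ∑ k, v k * φ k (b j) = 0 := congrFun hvM j
  calc ∑ k, v k * φ k (b.repr x j • b j)
      = φ i (b.repr x j : F) * ∑ k, v k * φ k (b j) := by
        rw [Finset.mul_sum]
        refine Finset.sum_congr rfl fun k _ => ?_
        rw [IntermediateField.smul_def, smul_eq_mul, map_mul, hagree k i]
        ring
    _ = 0 := by rw [hj, mul_zero]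

/-- Split points push forward along field extensions. -/
theorem SplitsAt.map {Ω' : Type} [Field Ω'] [CharZero Ω'] {t : F} {T : Ω} (h : SplitsAt t T)
    (f : Ω →+* Ω') : SplitsAt t (f T) := by
  obtain ⟨φ, hφ, hT⟩ := h
  refine ⟨fun i => f.comp (φ i), fun i j hij => hφ ?_, fun i => congrArg f (hT i)⟩
  exact RingHom.ext fun x => f.injective (RingHom.congr_fun hij x)

end FLTA.Carayol.Chart
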