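import Fermat.Agent.Carayol.Chart.Model
import Fermat.Agent.Carayol.GlueLine
import Mathlib.FieldTheory.PrimitiveElement
import Fermat.Agent.Carayol.Chart.Splits
import Fermat.Agent.Carayol.Chart.SeriesRing
import Fermat.Agent.Smooth.CoverInstances

/-!
# Splitting near the cusps of the Hauptmodul line
-/

set_option autoImplicit false

noncomputable section

open Polynomial IsLocalRing ModularCurve ModularCurve.IgusaScheme

namespace FLTA.Carayol.Chart

open FLTA.Smooth

variable {M N q : ℕ} [NeZero M] [NeZero N] [hq : Fact q.Prime]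
  {t : ↥(modularFunctionFieldFull N)}
variable {W : Type} [CommRing W] [IsDomain W] [CharZero W]

omit [CharZero W] in
/-- Substitution of a nonzero series without constant term is injective. -/
theorem substAlgHom_injective {S : PowerSeries W} (hS : PowerSeries.HasSubst S)
    (hS0 : PowerSeries.constantCoeff S = 0) (hne : S ≠ 0) :
    Function.Injective (PowerSeries.substAlgHom hS : PowerSeries W →ₐ[W] PowerSeries W) := by
  rw [injective_iff_map_eq_zero]
  intro f hf
  by_contra hf0
  rw [← PowerSeries.X_pow_order_mul_divXPowOrder (f := f), map_mul, map_pow,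
    PowerSeries.substAlgHom_X] at hf
  rcases mul_eq_zero.mp hf with h | h
  · exact pow_ne_zero _ hne h
  · obtain ⟨g', hg'⟩ : PowerSeries.X ∣ f.divXPowOrder - PowerSeries.C
        (PowerSeries.constantCoeff f.divXPowOrder) := PowerSeries.X_dvd_iff.mpr (by simp)
    rw [eq_add_of_sub_eq hg', map_add, map_mul, PowerSeries.substAlgHom_X,
      ← PowerSeries.algebraMap_eq, AlgHom.commutes] at h
    have h1 := congrArg PowerSeries.constantCoeff h
    rw [map_add, map_mul, hS0, zero_mul, zero_add, map_zero, PowerSeries.algebraMap_eq,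
      PowerSeries.constantCoeff_C] at h1
    exact hf0 (PowerSeries.constantCoeff_divXPowOrder_eq_zero_iff.mp h1)

section CuspCover

variable {k A L K' : Type} [Field k] [CommRing A] [IsDomain A] [IsIntegrallyClosed A]
  [Algebra A ↥(modularFunctionFieldFull N)] [IsFractionRing A ↥(modularFunctionFieldFull N)]
  [Field L] [CharZero L] [Algebra ↥(modularFunctionFieldFull N) L] [Algebra A L]
  [IsScalarTower A ↥(modularFunctionFieldFull N) L] [Field K'] [Algebra k K'] [IsAlgClosed k]
  [CharP k q] {π : Zloc q →+* k} {sA : (Zloc q)[X] →+* A} {θ : A} {Q : ((Zloc q)[X])[X]}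
  {num den hh : (Zloc q)[X]} {g : A[X]} {x : L} {red : A →+* K'} {t' : K'}

omit [NeZero N] in
/-- A cover with unit-discriminant model splits at every point where `h` is a unit. -/
theorem exists_homs_cover {S' : Type} [CommRing S'] [IsDomain S'] [HenselianLocalRing S']
    [IsAlgClosed (ResidueField S')] {Ω : Type} [Field Ω] [Algebra S' Ω] [FaithfulSMul S' Ω]
    (S : CoverSetting (F := ↥(modularFunctionFieldFull N)) π sA θ Q num den hh g x red t')
    (hemb : HasEmbeddings sA x hh
      (Module.finrank (IntermediateField.adjoin ℚ ({x} : Set L)) L))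
    [FiniteDimensional (IntermediateField.adjoin ℚ ({x} : Set L)) L]
    (ev : (Zloc q)[X] →+* S') (hev : Function.Injective ev)
    (hunit : ∀ y : Purity.fibreSubmonoid (q : Zloc q) hh, IsUnit (ev y)) :
    ∃ φ : Fin (Module.finrank (IntermediateField.adjoin ℚ ({x} : Set L)) L) → (L →+* Ω),
      Function.Injective φ ∧ ∀ i, φ i x = algebraMap S' Ω (ev X) := by
  classical
  obtain ⟨Q', -, -, hQ'⟩ := S.exists_minimal_equation
  obtain ⟨n, e, he, -⟩ := S.exists_basis hemb Q' hQ'
  let iR := S.baseToField.toAlgebra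
  have hi₀X : evalX sA x X = x := by simp [evalX]
  have hMle : Purity.fibreSubmonoid (q : Zloc q) hh ≤ nonZeroDivisors (Zloc q)[X] := by
    refine Purity.fibreSubmonoid_le_nonZeroDivisors (prime_natCast_zloc π) ?_
    rintro ⟨u, hu⟩
    exact S.hbar (by
      rw [hu, Polynomial.map_mul, map_C, map_natCast, CharP.cast_eq_zero, map_zero, zero_mul])
  have : IsDomain (CoverBaseRing q hh) := IsLocalization.isDomain_localization hMle
  have := isPrincipalIdealRing_zloc q
  have : IsIntegrallyClosed (CoverBaseRing q hh) := isIntegrallyClosed_of_isLocalization _ _ hMle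
  have hmem : ∀ r, S.baseToField r ∈ IntermediateField.adjoin ℚ ({x} : Set L) := by
    intro r
    obtain ⟨p, y, rfl⟩ := IsLocalization.exists_mk'_eq (Purity.fibreSubmonoid (q : Zloc q) hh) r
    have h1 : S.baseToField (IsLocalization.mk' _ p y) * evalX sA x y = evalX sA x p := by
      rw [← S.baseToField_algebraMap, ← S.baseToField_algebraMap, ← map_mul,
        IsLocalization.mk'_spec]
    rw [eq_div_iff (S.isUnit_evalX y).ne_zero |>.mpr h1]
    have hp : ∀ p, evalX sA x p ∈ IntermediateField.adjoin ℚ ({x} : Set L) := fun p => by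
      simpa only [hi₀X] using polyHom_mem_adjoin (evalX sA x) p
    exact div_mem (hp _) (hp _)
  let iK := (S.baseToField.codRestrict _ hmem).toAlgebra
  have : IsScalarTower (CoverBaseRing q hh) (IntermediateField.adjoin ℚ ({x} : Set L)) L :=
    IsScalarTower.of_algebraMap_eq (R := CoverBaseRing q hh)
      (S := IntermediateField.adjoin ℚ ({x} : Set L)) (A := L) fun _ => rfl
  have : IsFractionRing (CoverBaseRing q hh) (IntermediateField.adjoin ℚ ({x} : Set L)) :=
    isFractionRing_baseRing _ S.evalX_injective hi₀X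
      (Purity.fibreSubmonoid (q : Zloc q) hh) (S.baseToField.codRestrict _ hmem)
      (fun p => S.baseToField_algebraMap p)
  have hn := (finrank_eq_card_of_model (IntermediateField.adjoin ℚ ({x} : Set L)) e).trans
    (Fintype.card_fin n)
  have : Algebra.IsAlgebraic (CoverBaseRing q hh) L :=
    (IsFractionRing.comap_isAlgebraic_iff (K := IntermediateField.adjoin ℚ ({x} : Set L))).mpr
      inferInstance
  have : FaithfulSMul (CoverBaseRing q hh) L := (faithfulSMul_iff_algebraMap_injective _ _).mpr
    fun a b hab => IsFractionRing.injective (CoverBaseRing q hh)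
      (IntermediateField.adjoin ℚ ({x} : Set L)) (Subtype.ext hab)
  let ψ : CoverBaseRing q hh →+* S' :=
    IsLocalization.lift (M := Purity.fibreSubmonoid (q : Zloc q) hh) hunit
  have hψ : Function.Injective ψ :=
    (IsLocalization.lift_injective_iff (S := CoverBaseRing q hh) hunit).mpr fun a b =>
      ⟨fun h => congrArg ev (IsLocalization.injective (CoverBaseRing q hh) hMle h),
        fun h => congrArg _ (hev h)⟩
  obtain ⟨φ, hφ, hφR⟩ := exists_fieldHoms e he (Ω := Ω) ψ hψ
  refine ⟨φ ∘ Fin.cast hn, hφ.comp (Fin.cast_injective _), fun i => ?_⟩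
  have h1 := hφR (Fin.cast hn i) (algebraMap (Zloc q)[X] (CoverBaseRing q hh) X)
  rwa [RingHom.algebraMap_toAlgebra, S.baseToField_algebraMap, hi₀X, IsLocalization.lift_eq] at h1

end CuspCover

set_option maxHeartbeats 1600000 in
/-- All embeddings at the cusps of the `j`-line, after `1 / j = x ^ N`. -/
theorem exists_cusp_homs (hqN : ¬ q ∣ N) [HenselianLocalRing W] [IsAlgClosed (ResidueField W)]
    [CharP (ResidueField W) q] :
    ∃ φ : Fin (Module.finrank (IntermediateField.adjoin ℚ
        ({(jFull N)⁻¹} : Set ↥(modularFunctionFieldFull N))) ↥(modularFunctionFieldFull N)) →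
        (↥(modularFunctionFieldFull N) →+* FractionRing (PowerSeries W)),
      Function.Injective φ ∧
        ∀ i, φ i (jFull N)⁻¹ = algebraMap (PowerSeries W) _ (PowerSeries.X ^ N) := by
  classical
  obtain ⟨ζ, hζ⟩ := exists_zlocHom q W fun _ => isUnit_natCast_of_coprime q W
  have := isIntegrallyClosed_chart (ℓ := q) (isChartParam_inv_jFull N)
  have := isFractionRing_chartAlg (ℓ := q) (isChartParam_inv_jFull N)
  obtain ⟨L, _, _, iF, θ, Q, num, den, hh, g, x, S, hemb, rfl, hg⟩ :=
    hasCover_inf ((residue W).comp ζ) hqN (N := N)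
  let s : ↥(modularFunctionFieldFull N) := (jFull N)⁻¹
  have hx : x ^ N = algebraMap ↥(modularFunctionFieldFull N) L s := by
    have h := S.root.aeval_eq
    rw [hg, map_sub, map_pow, aeval_X, aeval_C, sub_eq_zero] at h
    rw [h, IsScalarTower.algebraMap_apply _ ↥(modularFunctionFieldFull N) L]
    rfl
  let K₀ := IntermediateField.adjoin ℚ ({s} : Set ↥(modularFunctionFieldFull N))
  let K := IntermediateField.adjoin ℚ ({x} : Set L)
  have hK₀ : ∀ c : K₀, algebraMap ↥(modularFunctionFieldFull N) L c ∈ K := by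
    rintro ⟨c, hc⟩
    rw [← IntermediateField.mem_toSubfield, IntermediateField.adjoin_toSubfield] at hc
    refine (Subfield.closure_le (t := K.toSubfield.comap
      (algebraMap ↥(modularFunctionFieldFull N) L))).mpr ?_ hc
    rintro y (⟨r, rfl⟩ | hy)
    · show algebraMap ↥(modularFunctionFieldFull N) L _ ∈ K
      rw [eq_ratCast, map_ratCast]
      exact SubfieldClass.ratCast_mem _ r
    · obtain rfl := Set.mem_singleton_iff.mp hy
      show algebraMap ↥(modularFunctionFieldFull N) L _ ∈ K
      rw [← hx]
      exact pow_mem (IntermediateField.mem_adjoin_simple_self ℚ x) N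
  let : Algebra K₀ K :=
    (((algebraMap ↥(modularFunctionFieldFull N) L).comp
      (algebraMap K₀ ↥(modularFunctionFieldFull N))).codRestrict K hK₀).toAlgebra
  have : IsScalarTower K₀ K L := IsScalarTower.of_algebraMap_eq fun c =>
    IsScalarTower.algebraMap_apply K₀ ↥(modularFunctionFieldFull N) L c
  have := finiteDimensional_adjoin_param (isChartParam_inv_jFull N)
  have hLN : Module.finrank ↥(modularFunctionFieldFull N) L = N := by
    rw [Module.finrank_eq_card_basis (fieldBasis S.root), Fintype.card_fin, hg,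
      natDegree_X_pow_sub_C]
  have : FiniteDimensional ↥(modularFunctionFieldFull N) L := Module.Finite.of_basis (fieldBasis S.root)
  have : FiniteDimensional K₀ L := Module.Finite.trans ↥(modularFunctionFieldFull N) L
  have : FiniteDimensional K₀ K := FiniteDimensional.left K₀ K L
  have : FiniteDimensional K L := FiniteDimensional.right K₀ K L
  let xK : K := ⟨x, IntermediateField.mem_adjoin_simple_self ℚ x⟩
  have hdim : Module.finrank K₀ K ≤ N := by
    have htop : IntermediateField.adjoin K₀ ({xK} : Set K) = ⊤ := by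
      rw [eq_top_iff]
      rintro ⟨z, hz⟩ -
      have hz' := hz
      rw [← IntermediateField.mem_toSubfield, IntermediateField.adjoin_toSubfield] at hz'
      obtain ⟨w, hw, hwz⟩ := (Subfield.closure_le (t := (IntermediateField.adjoin K₀
          ({xK} : Set K)).toSubfield.map (algebraMap K L))).mpr (by
        rintro y (⟨r, rfl⟩ | hy)
        · exact ⟨(r : K), SubfieldClass.ratCast_mem
            (IntermediateField.adjoin K₀ ({xK} : Set K)).toSubfield r, by rw [map_ratCast, eq_ratCast]⟩
        · obtain rfl := Set.mem_singleton_iff.mp hy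
          exact ⟨xK, IntermediateField.mem_adjoin_simple_self K₀ xK, rfl⟩) hz'
      exact (Subtype.ext hwz : w = ⟨z, hz⟩) ▸ hw
    let sK : K₀ := ⟨s, IntermediateField.mem_adjoin_simple_self ℚ s⟩
    have hroot : aeval xK (X ^ N - C sK) = 0 := by
      rw [map_sub, map_pow, aeval_X, aeval_C, sub_eq_zero]
      exact Subtype.ext hx
    have hint : IsIntegral K₀ xK := Algebra.IsIntegral.isIntegral xK
    rw [← IntermediateField.finrank_top', ← htop, IntermediateField.adjoin.finrank hint]
    exact (natDegree_le_of_dvd (minpoly.dvd K₀ xK hroot) (X_pow_sub_C_ne_zero (NeZero.pos N) _)).trans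
      (natDegree_X_pow_sub_C).le
  have hle : Module.finrank K₀ ↥(modularFunctionFieldFull N) ≤ Module.finrank K L := by
    refine Nat.le_of_mul_le_mul_right ?_ (NeZero.pos N)
    calc Module.finrank K₀ ↥(modularFunctionFieldFull N) * N
        = Module.finrank K₀ L := by
          rw [← Module.finrank_mul_finrank K₀ ↥(modularFunctionFieldFull N) L, hLN]
      _ = Module.finrank K L * Module.finrank K₀ K := by
          rw [← Module.finrank_mul_finrank K₀ K L, mul_comm]
      _ ≤ Module.finrank K L * N := Nat.mul_le_mul_left _ hdim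
  have := henselianLocalRing_powerSeries (W := W)
  have := isAlgClosed_residueField_powerSeries (W := W)
  have hev : Function.Injective ((evPt (0 : W) 1).comp (mapRingHom ζ)) :=
    (evPt_injective 0 one_pos).comp (map_injective ζ hζ)
  obtain ⟨φ, hφ, hφx⟩ := exists_homs_cover (Ω := FractionRing (PowerSeries W)) S hemb
    ((evPt (0 : W) 1).comp (mapRingHom ζ)) hev (fun y => by
      obtain ⟨c, i, hc, u, hu⟩ := y.2
      have h1 : (y : (Zloc q)[X]) = C c * Purity.cuspH (Zloc q) N ^ i + C (q : Zloc q) * u := by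
        rw [← hu]; ring
      rw [PowerSeries.isUnit_iff_constantCoeff, RingHom.comp_apply, coe_mapRingHom,
        constantCoeff_evPt _ one_pos, h1]
      simp only [Polynomial.map_add, Polynomial.map_mul, Polynomial.map_pow, map_C, eval_add,
        eval_mul, eval_pow, eval_C, Purity.map_cuspH, Polynomial.map_natCast, eval_natCast,
        map_natCast]
      refine (isUnit_map_iff (residue W) _).mp (isUnit_iff_ne_zero.mpr ?_)
      rw [map_add, map_mul, map_mul, map_natCast, CharP.cast_eq_zero, zero_mul, add_zero]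
      refine mul_ne_zero ((hc.map ζ).map (residue W)).ne_zero ?_
      simp [Purity.cuspH, zero_pow (NeZero.ne N)])
  refine ⟨fun i => (φ (Fin.castLE hle i)).comp (algebraMap ↥(modularFunctionFieldFull N) L),
    fun i j hij => Fin.castLE_injective hle (hφ ?_), fun i => ?_⟩
  · refine RingHom.ext fun z => ?_
    have hz : z ∈ IntermediateField.adjoin ↥(modularFunctionFieldFull N) ({x} : Set L) :=
      S.root.adjoin_eq.symm ▸ IntermediateField.mem_top
    rw [← IntermediateField.mem_toSubfield, IntermediateField.adjoin_toSubfield] at hz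
    refine (Subfield.closure_le (t := (φ (Fin.castLE hle i)).eqLocusField
      (φ (Fin.castLE hle j)))).mpr ?_ hz
    rintro w (⟨v, rfl⟩ | hw)
    · exact RingHom.congr_fun hij v
    · obtain rfl := Set.mem_singleton_iff.mp hw
      exact (hφx _).trans (hφx _).symm
  · show φ _ (algebraMap ↥(modularFunctionFieldFull N) L s) = _
    rw [← hx, map_pow, hφx, ← map_pow]
    simp [evPt_X]

omit [IsDomain W] in
theorem transcendental_X_pow_mul [IsDomain W] {Ω : Type} [Field Ω] [CharZero Ω]
    [Algebra (PowerSeries W) Ω] [IsFractionRing (PowerSeries W) Ω] {m : ℕ} (hm : 0 < m)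
    (U : (PowerSeries W)ˣ) :
    Transcendental ℚ (algebraMap (PowerSeries W) Ω (PowerSeries.X ^ m * (U : PowerSeries W))) := by
  intro halg
  set V := PowerSeries.X ^ m * (U : PowerSeries W)
  have hV : V ≠ 0 := mul_ne_zero (pow_ne_zero _ PowerSeries.X_ne_zero) U.ne_zero
  have halg' : IsAlgebraic ℤ (algebraMap (PowerSeries W) Ω V) :=
    (IsFractionRing.isAlgebraic_iff ℤ ℚ Ω).mpr halg
  obtain ⟨p, hp0, hp⟩ := halg'
  obtain ⟨r, hr, hrX⟩ := exists_eq_pow_rootMultiplicity_mul_and_not_dvd p hp0 0
  rw [map_zero, sub_zero] at hr hrX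
  rw [hr, map_mul, map_pow, aeval_X] at hp
  have hr0 : aeval (algebraMap (PowerSeries W) Ω V) r = 0 :=
    (mul_eq_zero.mp hp).resolve_left (pow_ne_zero _
      ((map_ne_zero_iff _ (IsFractionRing.injective (PowerSeries W) Ω)).mpr hV))
  rw [aeval_def, Subsingleton.elim (algebraMap ℤ Ω)
      ((algebraMap (PowerSeries W) Ω).comp (algebraMap ℤ (PowerSeries W))),
    ← hom_eval₂, map_eq_zero_iff _ (IsFractionRing.injective (PowerSeries W) Ω)] at hr0
  have h1 := congrArg PowerSeries.constantCoeff hr0
  rw [hom_eval₂, map_zero] at h1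
  simp only [V, map_mul, map_pow, PowerSeries.constantCoeff_X, zero_pow hm.ne', zero_mul,
    eval₂_at_zero] at h1
  exact hrX (X_dvd_iff.mpr (RingHom.injective_int (algebraMap ℤ W) (by
    rw [map_zero, ← h1]
    exact RingHom.congr_fun (Subsingleton.elim _ _) _)))

omit [IsDomain W] [CharZero W] in
theorem transcendental_of_ratio {Ω : Type} [Field Ω] [CharZero Ω] {T v : Ω} (hv : Transcendental ℚ v)
    {p p' : ℤ[X]} (h : aeval T p = v * aeval T p') (h0 : aeval T p' ≠ 0) : Transcendental ℚ T := by
  intro hT
  have halg := IntermediateField.isAlgebraic_adjoin_simple (K := ℚ) hT.isIntegral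
  have hmem : ∀ r : ℤ[X], aeval T r ∈ IntermediateField.adjoin ℚ ({T} : Set Ω) := fun r => by
    rw [← aeval_map_algebraMap ℚ]
    exact IntermediateField.algebra_adjoin_le_adjoin ℚ _ (aeval_mem_adjoin_singleton ℚ T)
  have hvmem : v ∈ IntermediateField.adjoin ℚ ({T} : Set Ω) := by
    rw [eq_div_of_mul_eq h0 h.symm]
    exact div_mem (hmem _) (hmem _)
  exact hv ((IntermediateField.isAlgebraic_iff
    (x := (⟨v, hvmem⟩ : IntermediateField.adjoin ℚ ({T} : Set Ω)))).mp
    (halg.isAlgebraic _))

set_option maxHeartbeats 1600000 in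
/-- Parametrisations near a cusp of ramification divisible by `N`. -/
theorem splitsAt_of_cusp (hM : Haupt.IsHauptLevel M) (hMN : M ∣ N) (hqN : ¬ q ∣ N)
    (ht : IsTFull M N t) [HenselianLocalRing W] [IsAlgClosed (ResidueField W)]
    [CharP (ResidueField W) q] {Ω : Type} [Field Ω] [CharZero Ω] [Algebra (PowerSeries W) Ω]
    [IsFractionRing (PowerSeries W) Ω] (T : Ω) (U : (PowerSeries W)ˣ) {a : ℕ} (ha : 0 < a)
    (hT : aeval T (jDen M) =
      algebraMap (PowerSeries W) Ω (PowerSeries.X ^ (N * a) * (U : PowerSeries W)) *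
        aeval T (jNum M)) :
    SplitsAt t T := by
  classical
  have := hMN
  have := henselianLocalRing_powerSeries (W := W)
  have := isAlgClosed_residueField_powerSeries (W := W)
  have hNW : IsUnit (N : PowerSeries W) := by
    rw [← map_natCast (PowerSeries.C (R := W))]
    exact (isUnit_natCast_of_coprime q W
      ((hq.out.coprime_iff_not_dvd.mpr hqN).symm)).map PowerSeries.C
  obtain ⟨r, hr⟩ := exists_unit_root hNW U
  obtain ⟨φ, hφ, hφs⟩ := exists_cusp_homs (W := W) hqN
  let S := PowerSeries.X ^ a * (r : PowerSeries W)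
  have hS0 : PowerSeries.constantCoeff S = 0 := by simp [S, zero_pow ha.ne']
  have hS : PowerSeries.HasSubst S := PowerSeries.HasSubst.of_constantCoeff_zero' hS0
  have hSne : S ≠ 0 := mul_ne_zero (pow_ne_zero _ PowerSeries.X_ne_zero) r.ne_zero
  have hσinj : Function.Injective ((algebraMap (PowerSeries W) Ω).comp
      (PowerSeries.substAlgHom hS : PowerSeries W →ₐ[W] PowerSeries W).toRingHom) :=
    (IsFractionRing.injective (PowerSeries W) Ω).comp (substAlgHom_injective hS hS0 hSne)
  let σ : FractionRing (PowerSeries W) →+* Ω := IsFractionRing.lift hσinj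
  set V := algebraMap (PowerSeries W) Ω (PowerSeries.X ^ (N * a) * (U : PowerSeries W)) with hVdef
  let Φ := fun i => σ.comp (φ i)
  have hΦ : Function.Injective Φ := fun i j hij =>
    hφ (RingHom.ext fun z => σ.injective (RingHom.congr_fun hij z))
  have hΦs : ∀ i, Φ i (jFull N)⁻¹ = V := by
    intro i
    show σ (φ i _) = _
    rw [hφs, IsFractionRing.lift_algebraMap]
    show algebraMap (PowerSeries W) Ω (PowerSeries.substAlgHom hS (PowerSeries.X ^ N)) = _
    rw [map_pow, PowerSeries.substAlgHom_X, hVdef, ← hr, Units.val_pow_eq_pow_val, mul_pow,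
      ← pow_mul, mul_comm a N]
  have hVtr : Transcendental ℚ V := transcendental_X_pow_mul (Nat.mul_pos (NeZero.pos N) ha) U
  have hnum : aeval T (jNum M) ≠ 0 := fun h0 =>
    aeval_jNum_ne_zero_of_jDen_eq_zero hM (by rw [hT, h0, mul_zero]) h0
  have hTtr := transcendental_of_ratio hVtr hT hnum
  -- the line `ℚ(t)`
  have hj0 : jFull N ≠ 0 := jFull_ne_zero N
  have hst : aeval t (jDen M) = (jFull N)⁻¹ * aeval t (jNum M) := by
    rw [← ht.j_mul_den hM, ← mul_assoc, inv_mul_cancel₀ hj0, one_mul]
  have hnumt : aeval t (jNum M) ≠ 0 := fun h0 =>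
    aeval_jNum_ne_zero_of_jDen_eq_zero hM (by rw [hst, h0, mul_zero]) h0
  have httr := transcendental_of_ratio (transcendental_param (isChartParam_inv_jFull N)) hst hnumt
  let K₁ := IntermediateField.adjoin ℚ ({t} : Set ↥(modularFunctionFieldFull N))
  let f : (Zloc q)[X] →+* ↥(modularFunctionFieldFull N) :=
    (aeval t : ℚ[X] →ₐ[ℚ] _).toRingHom.comp (mapRingHom (GaloisRep.ratLocalizedAt q).subtype)
  have hfX : f X = t := by simp [f]
  have hf : Function.Injective f :=
    (transcendental_iff_injective.mp httr).comp (map_injective _ Subtype.val_injective)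
  have hfC : ∀ p, f p ∈ K₁ := fun p => by
    simpa only [hfX] using polyHom_mem_adjoin f p
  let iP := (f.codRestrict K₁ hfC).toAlgebra
  have : IsFractionRing (Zloc q)[X] K₁ := by
    have : FaithfulSMul (Zloc q)[X] K₁ :=
      (faithfulSMul_iff_algebraMap_injective _ _).mpr fun a b hab => hf (congrArg Subtype.val hab)
    refine IsFractionRing.of_field _ _ fun z => ?_
    obtain ⟨p, p', hz⟩ := exists_num_den f (z := (z : ↥(modularFunctionFieldFull N)))
      (by rw [hfX]; exact z.2)
    exact ⟨p, p', Subtype.ext hz⟩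
  have hg : Function.Injective ((aeval T : ℚ[X] →ₐ[ℚ] Ω).toRingHom.comp
      (mapRingHom (GaloisRep.ratLocalizedAt q).subtype)) :=
    (transcendental_iff_injective.mp hTtr).comp (map_injective _ Subtype.val_injective)
  let ιT : K₁ →+* Ω := IsFractionRing.lift (A := (Zloc q)[X]) hg
  have hιt : ιT ⟨t, IntermediateField.mem_adjoin_simple_self ℚ t⟩ = T := by
    have : (⟨t, IntermediateField.mem_adjoin_simple_self ℚ t⟩ : K₁) =
        algebraMap (Zloc q)[X] K₁ X := Subtype.ext hfX.symm
    rw [this, IsFractionRing.lift_algebraMap]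
    simp
  let Ωb := AlgebraicClosure Ω
  let a₁ : Algebra K₁ Ωb := ((algebraMap Ω Ωb).comp ιT).toAlgebra
  have hs₁ : (jFull N)⁻¹ ∈ K₁ := inv_mem (by
    have hmem : ∀ p : ℤ[X], aeval t p ∈ K₁ := fun p => by
      rw [← aeval_map_algebraMap ℚ]
      exact IntermediateField.algebra_adjoin_le_adjoin ℚ _ (aeval_mem_adjoin_singleton ℚ t)
    have hden : aeval t (jDen M) ≠ 0 := ht.aeval_jDen_ne_zero hM
    rw [eq_div_of_mul_eq hden (ht.j_mul_den hM)]
    exact div_mem (hmem _) (hmem _))
  let K₀ := IntermediateField.adjoin ℚ ({(jFull N)⁻¹} : Set ↥(modularFunctionFieldFull N))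
  have hle : K₀ ≤ K₁ := IntermediateField.adjoin_le_iff.mpr (Set.singleton_subset_iff.mpr hs₁)
  let a₀ : Algebra K₀ Ωb :=
    (((algebraMap Ω Ωb).comp ιT).comp (IntermediateField.inclusion hle).toRingHom).toAlgebra
  have := finiteDimensional_adjoin_param (isChartParam_inv_jFull N)
  have := ht.finiteDimensional hM
  have hβ : ∀ β : ↥(modularFunctionFieldFull N) →ₐ[K₁] Ωb, β t = algebraMap Ω Ωb T := fun β => by
    have h := β.commutes ⟨t, IntermediateField.mem_adjoin_simple_self ℚ t⟩
    rw [RingHom.algebraMap_toAlgebra, RingHom.comp_apply, hιt] at h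
    exact h
  have hΦc : ∀ i (c : K₀), algebraMap Ω Ωb (Φ i c) = algebraMap K₀ Ωb c := by
    intro i c
    rw [RingHom.algebraMap_toAlgebra]
    obtain ⟨c, hc⟩ := c
    show _ = algebraMap Ω Ωb (ιT _)
    congr 1
    have key : c ∈ Subfield.closure (Set.range (algebraMap ℚ ↥(modularFunctionFieldFull N)) ∪
        {(jFull N)⁻¹}) := by
      rw [← IntermediateField.adjoin_toSubfield, IntermediateField.mem_toSubfield]
      exact hc
    have hx : ∀ (h : c ∈ K₁), Φ i c = ιT ⟨c, h⟩ := by
      clear hc
      induction key using Subfield.closure_induction with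
      | mem y hy =>
        intro h
        rcases hy with ⟨r, rfl⟩ | hy
        · rw [show (⟨algebraMap ℚ _ r, h⟩ : K₁) = algebraMap ℚ K₁ r from Subtype.ext rfl,
            eq_ratCast, eq_ratCast, map_ratCast, map_ratCast]
        · obtain rfl := Set.mem_singleton_iff.mp hy
          rw [hΦs]
          refine mul_right_cancel₀ hnum (hT.symm.trans ?_)
          have e1 : ∀ p : ℤ[X], aeval T p =
              ιT (aeval (⟨t, IntermediateField.mem_adjoin_simple_self ℚ t⟩ : K₁) p) := fun p => by
            rw [aeval_def, aeval_def, hom_eval₂, hιt,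
              Subsingleton.elim (ιT.comp (algebraMap ℤ K₁)) (algebraMap ℤ Ω)]
          rw [e1, e1, ← map_mul]
          congr 1
          apply Subtype.ext
          rw [MulMemClass.coe_mul, aeval_def, aeval_def]
          show algebraMap K₁ ↥(modularFunctionFieldFull N) _ =
            _ * algebraMap K₁ ↥(modularFunctionFieldFull N) _
          rw [hom_eval₂, hom_eval₂, Subsingleton.elim ((algebraMap K₁ _).comp (algebraMap ℤ K₁))
            (algebraMap ℤ ↥(modularFunctionFieldFull N))]
          exact hst
      | one => intro h; rw [map_one, show (⟨1, h⟩ : K₁) = 1 from rfl, map_one]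
      | add y z hy' hz' hy hz =>
        intro h
        have hyK : y ∈ K₁ := hle (by
          rw [← IntermediateField.mem_toSubfield, IntermediateField.adjoin_toSubfield]; exact hy')
        have hzK : z ∈ K₁ := hle (by
          rw [← IntermediateField.mem_toSubfield, IntermediateField.adjoin_toSubfield]; exact hz')
        rw [map_add, hy hyK, hz hzK, show (⟨y + z, h⟩ : K₁) = ⟨y, hyK⟩ + ⟨z, hzK⟩ from rfl, map_add]
      | neg y _ hy =>
        intro h
        have hyK : y ∈ K₁ := neg_mem_iff.mp h
        rw [map_neg, hy hyK, show (⟨-y, h⟩ : K₁) = -⟨y, hyK⟩ from rfl, map_neg]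
      | inv y _ hy =>
        intro h
        have hyK : y ∈ K₁ := inv_mem_iff.mp h
        rw [map_inv₀, hy hyK, show (⟨y⁻¹, h⟩ : K₁) = (⟨y, hyK⟩ : K₁)⁻¹ from rfl, map_inv₀]
      | mul y z hy' hz' hy hz =>
        intro h
        have hyK : y ∈ K₁ := hle (by
          rw [← IntermediateField.mem_toSubfield, IntermediateField.adjoin_toSubfield]; exact hy')
        have hzK : z ∈ K₁ := hle (by
          rw [← IntermediateField.mem_toSubfield, IntermediateField.adjoin_toSubfield]; exact hz')
        rw [map_mul, hy hyK, hz hzK, show (⟨y * z, h⟩ : K₁) = ⟨y, hyK⟩ * ⟨z, hzK⟩ from rfl, map_mul]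
    exact hx _
  let Φ' := fun i => ({ (algebraMap Ω Ωb).comp (Φ i) with commutes' := hΦc i } :
    ↥(modularFunctionFieldFull N) →ₐ[K₀] Ωb)
  have hΦ' : Function.Injective Φ' := fun i j hij => hΦ (RingHom.ext fun z =>
    (algebraMap Ω Ωb).injective (DFunLike.congr_fun hij z))
  have : Algebra.IsSeparable K₀ ↥(modularFunctionFieldFull N) := inferInstance
  have : Algebra.IsSeparable K₁ ↥(modularFunctionFieldFull N) := inferInstance
  have hbij : Function.Bijective Φ' := (Fintype.bijective_iff_injective_and_card Φ').mpr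
    ⟨hΦ', by rw [Fintype.card_fin, AlgHom.card]⟩
  have hres : ∀ (β : ↥(modularFunctionFieldFull N) →ₐ[K₁] Ωb) (c : K₀),
      β c = algebraMap K₀ Ωb c := fun β c => β.commutes (IntermediateField.inclusion hle c)
  let res : (↥(modularFunctionFieldFull N) →ₐ[K₁] Ωb) → (↥(modularFunctionFieldFull N) →ₐ[K₀] Ωb) :=
    fun β => { β.toRingHom with commutes' := hres β }
  choose idx hidx using fun β => hbij.2 (res β)
  let e := (Fintype.equivFinOfCardEq (AlgHom.card K₁ ↥(modularFunctionFieldFull N) Ωb)).symm
  refine ⟨fun i => Φ (idx (e i)), fun i j hij => e.injective ?_, fun i => ?_⟩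
  · have h1 : res (e i) = res (e j) := by rw [← hidx, ← hidx, hΦ hij]
    exact AlgHom.ext fun z => DFunLike.congr_fun h1 z
  · exact (algebraMap Ω Ωb).injective ((DFunLike.congr_fun (hidx (e i)) t).trans (hβ (e i)))

end FLTA.Carayol.Chart
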