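import Fermat.Agent.Carayol.Chart.GaussModel
import Fermat.Agent.Carayol.Completion

/-!
# The completion at the Gauss point
-/

set_option autoImplicit false

noncomputable section

open Polynomial IsLocalRing ModularCurve ModularCurve.IgusaScheme

namespace FLTA.Carayol.Chart

variable {M N q : ℕ} [NeZero M] [NeZero N] [hq : Fact q.Prime]
  {t : ↥(modularFunctionFieldFull N)}
variable {W : Type} [CommRing W] [IsDomain W] [CharZero W]

/-- The completion at the Gauss point: one unramified complete discrete valuation ring. -/
theorem exists_gauss (hM : Haupt.IsHauptLevel M) (hMN : M ∣ N) (hqN : ¬ q ∣ N)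
    (ht : IsTFull M N t) [IsDiscreteValuationRing W] [IsAdicComplete (maximalIdeal W) W]
    [IsAlgClosed (ResidueField W)] (hmax : maximalIdeal W = Ideal.span {(q : W)})
    [Fact (Prime (C (q : W) : W[X]))] :
    ∃ (A : Type) (_ : CommRing A) (_ : IsDomain A) (_ : IsDiscreteValuationRing A)
      (_ : IsAdicComplete (maximalIdeal A) A) (_ : Algebra (HatAt (C (q : W) : W[X])) A)
      (φ : ↥(modularFunctionFieldFull N) →+* FractionRing A),
      maximalIdeal A = Ideal.span {(q : A)} ∧
      (∃ b : Module.Basis
          (Fin (Module.finrank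
            (IntermediateField.adjoin ℚ ({t} : Set ↥(modularFunctionFieldFull N)))
            ↥(modularFunctionFieldFull N))) (HatAt (C (q : W) : W[X])) A,
        IsUnit (Algebra.discr (HatAt (C (q : W) : W[X])) b)) ∧
      φ t = algebraMap A (FractionRing A)
        (algebraMap (HatAt (C (q : W) : W[X])) A (toHat _ X)) ∧
      (∀ b : Module.Basis
          (Fin (Module.finrank
            (IntermediateField.adjoin ℚ ({t} : Set ↥(modularFunctionFieldFull N)))
            ↥(modularFunctionFieldFull N)))
          (IntermediateField.adjoin ℚ ({t} : Set ↥(modularFunctionFieldFull N)))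
          ↥(modularFunctionFieldFull N),
        LinearIndependent (HatAt (C (q : W) : W[X])) fun i => φ (b i)) ∧
      ∀ c : ResidueField A,
        c ^ q ≠ residue A (algebraMap (HatAt (C (q : W) : W[X])) A (toHat _ X)) := by
  obtain ⟨m⟩ := nonempty_tModel hM ht
  obtain ⟨hdom, hdvr, hcomp, hA, hpow, hb, φ, hφt, -, hli⟩ := m.exists_gauss_model ht hqN hmax
  exact ⟨AdjoinRoot (m.gaussPoly q W), inferInstance, hdom, hdvr, hcomp, inferInstance, φ,
    hA, hb, hφt, hli, hpow⟩

end FLTA.Carayol.Chart
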