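import Fermat.Agent.Carayol.Chart.FinitePoint
import Fermat.Agent.Carayol.Chart.CuspPoint
import Fermat.Agent.Carayol.Chart.Gauss

/-!
# `X₀(N)` over the line of a Hauptmodul, near the special fibre

For `q ∤ N` the field of level `N` over `ℚ(t)` is split at every point of the special fibre that is
not a cusp (`splitsAt_of_not_cusp`), split after a pullback of ramification divisible by `N` at a
cusp (`splitsAt_of_cusp`), and inert at the Gauss point (`exists_gauss`).
-/
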