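import Fermat.Agent.Carayol.Chart.FinitePoint
import Fermat.Agent.Carayol.Chart.CuspPoint

/-!
# Splitting of the equation of a generator at the points of the Hauptmodul line
-/

set_option autoImplicit false

noncomputable section

open Polynomial IsLocalRing ModularCurve ModularCurve.IgusaScheme

namespace FLTA.Carayol.Chart

section Generic

variable {F Ω : Type} [Field F] [Field Ω] [CharZero F] [CharZero Ω]

omit [CharZero Ω] in
/-- The equation of a generator is a product of distinct linear factors at a split point. -/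
theorem SplitsAt.exists_prod_roots {t : F} {T : Ω} (h : SplitsAt t T) {R : Type} [CommRing R]
    (f : R →+* F) (g : R →+* Ω) (hfg : ∀ φ : F →+* Ω, φ t = T → φ.comp f = g) {Q : R[X]}
    (hQ : Q.Monic)
    (hdeg : Q.natDegree = Module.finrank (IntermediateField.adjoin ℚ ({t} : Set F)) F) {θ : F}
    (hθ : Q.eval₂ f θ = 0) (hgen : IntermediateField.adjoin ℚ ({t, θ} : Set F) = ⊤) :
    ∃ r : Fin Q.natDegree → Ω, Function.Injective r ∧ Q.map g = ∏ i, (X - C (r i)) := by
  obtain ⟨φ, hφ, hT⟩ := h
  let r : Fin Q.natDegree → Ω := fun i => φ (Fin.cast hdeg i) θ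
  have hr : Function.Injective r := fun i j hij => by
    refine Fin.cast_injective hdeg (hφ (RingHom.ext fun z => ?_))
    have hz : z ∈ IntermediateField.adjoin ℚ ({t, θ} : Set F) := by rw [hgen]; trivial
    induction hz using IntermediateField.adjoin_induction with
    | mem x hx =>
      rcases hx with rfl | rfl
      · exact (hT _).trans (hT _).symm
      · exact hij
    | algebraMap x => rw [eq_ratCast, map_ratCast, map_ratCast]
    | add x y _ _ hx hy => rw [map_add, map_add, hx, hy]
    | inv x _ hx => rw [map_inv₀, map_inv₀, hx]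
    | mul x y _ _ hx hy => rw [map_mul, map_mul, hx, hy]
  refine ⟨r, hr, ?_⟩
  have hroot : ∀ i, (Q.map g).IsRoot (r i) := fun i => by
    rw [IsRoot, eval_map, ← hfg _ (hT (Fin.cast hdeg i)), ← hom_eval₂, hθ, map_zero]
  have hdvd : (∏ i, (X - C (r i))) ∣ Q.map g :=
    Fintype.prod_dvd_of_coprime (pairwise_coprime_X_sub_C hr) fun i => dvd_iff_isRoot.mpr (hroot i)
  refine (eq_of_monic_of_dvd_of_natDegree_le (monic_prod_X_sub_C _ _) (hQ.map g) hdvd ?_)
  rw [natDegree_finsetProd_X_sub_C_eq_card, Finset.card_univ, Fintype.card_fin]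
  exact natDegree_map_le

end Generic

variable {M N q : ℕ} [NeZero M] [NeZero N] [hq : Fact q.Prime]
  {t : ↥(modularFunctionFieldFull N)}
variable {W : Type} [CommRing W] [IsDomain W] [CharZero W] [HenselianLocalRing W]
  [IsAlgClosed (ResidueField W)] [CharP (ResidueField W) q] {Ω : Type} [Field Ω] [CharZero Ω]
  [Algebra (PowerSeries W) Ω] [IsFractionRing (PowerSeries W) Ω]

/-- Splitting at a cusp value after `u = r ^ N`. -/
theorem splitsAt_cusp_value (hM : Haupt.IsHauptLevel M) (hMN : M ∣ N) (hqN : ¬ q ∣ N)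
    (ht : IsTFull M N t) (t₀ : W) (ht₀ : aeval t₀ (Haupt.cuspPoly M) = 0) :
    SplitsAt t (algebraMap (PowerSeries W) Ω (PowerSeries.C t₀ + PowerSeries.X ^ N)) := by
  have hqM : ¬ q ∣ M := fun h => hqN (h.trans hMN)
  set S := PowerSeries.C t₀ + (PowerSeries.X : PowerSeries W) ^ N with hS
  have hS0 : PowerSeries.constantCoeff S = t₀ := by simp [hS, zero_pow (NeZero.ne N)]
  have hcc : ∀ p : ℤ[X], PowerSeries.constantCoeff (aeval S p) = aeval t₀ p := fun p => by
    rw [aeval_def, hom_eval₂, hS0, aeval_def,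
      Subsingleton.elim (RingHom.comp _ _) (algebraMap ℤ W)]
  have hnum : IsUnit (aeval S (jNum M)) := by
    rw [PowerSeries.isUnit_iff_constantCoeff, hcc]
    refine (isUnit_map_iff (residue W) _).mp (isUnit_iff_ne_zero.mpr fun h0 => ?_)
    have hden : residue W (aeval t₀ (jDen M)) = 0 := by
      obtain ⟨c, hc⟩ := (jDen_cusp hM).2
      rw [hc, map_mul, ht₀, zero_mul, map_zero]
    rw [aeval_def, hom_eval₂,
      Subsingleton.elim ((residue W).comp (algebraMap ℤ W)) (algebraMap ℤ (ResidueField W))]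
      at h0 hden
    exact isCoprime_jNum_jDen_eval hM hqM h0 hden
  obtain ⟨a, U, ha, hden⟩ : ∃ (a : ℕ) (U : PowerSeries W), 0 < a ∧
      aeval S (jDen M) = PowerSeries.X ^ (N * a) * U ∧ IsUnit (PowerSeries.constantCoeff U) := by
    rcases isHauptLevel_cases hM with ⟨-, h1, h2, rfl⟩ | ⟨-, h1, h2, rfl⟩ <;>
      rw [h2] at ht₀ <;> rw [h1] <;>
      simp only [map_mul, map_pow, map_add, aeval_X, map_ofNat] at ht₀ ⊢
    · have hu : IsUnit (16 : W) := by
        have := isUnit_natCast_of_coprime q W (m := 4 ^ 2)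
          ((hq.out.coprime_iff_not_dvd.mpr hqM).symm.pow_left 2)
        norm_num at this
        exact this
      rcases mul_eq_zero.mp (show t₀ * (t₀ + 16) = 0 by linear_combination ht₀) with rfl | h0
      · refine ⟨4, S + 16, by norm_num, ?_, ?_⟩
        · rw [hS, map_zero, zero_add, pow_mul]
        · rw [map_add, hS0, map_ofNat, zero_add]; exact hu
      · obtain rfl : t₀ = -16 := eq_neg_of_add_eq_zero_left h0
        refine ⟨1, S ^ 4, by norm_num, ?_, ?_⟩
        · rw [mul_one, hS, map_neg, map_ofNat]; ring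
        · rw [map_pow, hS0]; exact hu.neg.pow 4
    · have hu : IsUnit (27 : W) := by
        have := isUnit_natCast_of_coprime q W (m := 3 ^ 3)
          (((hq.out.coprime_iff_not_dvd.mpr fun h => hqM (h.trans (by norm_num : 3 ∣ 9))).symm).pow_left 3)
        norm_num at this
        exact this
      rcases mul_eq_zero.mp (show t₀ * (t₀ ^ 2 + 9 * t₀ + 27) = 0 by linear_combination ht₀)
        with rfl | h0
      · refine ⟨9, S ^ 2 + 9 * S + 27, by norm_num, ?_, ?_⟩
        · rw [hS, map_zero, zero_add, pow_mul]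
        · simp only [map_add, map_mul, map_pow, hS0, map_ofNat]
          simpa using hu
      · refine ⟨1, S ^ 9 * (PowerSeries.X ^ N + (2 * PowerSeries.C t₀ + 9)), by norm_num, ?_, ?_⟩
        · have hC : (PowerSeries.C t₀) ^ 2 + 9 * PowerSeries.C t₀ + 27 = (0 : PowerSeries W) := by
            have h1 := congrArg (PowerSeries.C (R := W)) h0
            simpa [map_add, map_mul, map_pow, map_ofNat] using h1
          rw [mul_one, hS]
          linear_combination (PowerSeries.C t₀ + PowerSeries.X ^ N) ^ 9 * hC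
        · have ht : IsUnit t₀ := by
            refine isUnit_of_dvd_unit ⟨-(t₀ + 9), ?_⟩ hu
            linear_combination h0
          have h9 : IsUnit (2 * t₀ + 9) := by
            refine isUnit_of_dvd_unit ⟨-(2 * t₀ + 9), ?_⟩ hu
            linear_combination 4 * h0
          simp only [map_mul, map_add, map_pow, hS0, PowerSeries.constantCoeff_X,
            PowerSeries.constantCoeff_C, map_ofNat, zero_pow (NeZero.ne N), zero_add]
          exact (ht.pow 9).mul h9
  have hU : IsUnit U := PowerSeries.isUnit_iff_constantCoeff.mpr hden.2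
  refine splitsAt_of_cusp hM hMN hqN ht _ (hU.unit * hnum.unit⁻¹) ha ?_
  have hev : ∀ p : ℤ[X], aeval (algebraMap (PowerSeries W) Ω S) p =
      algebraMap (PowerSeries W) Ω (aeval S p) := fun p => by
    rw [aeval_def, aeval_def, hom_eval₂, Subsingleton.elim
      ((algebraMap (PowerSeries W) Ω).comp (algebraMap ℤ _)) (algebraMap ℤ Ω)]
  rw [hev, hev, ← map_mul, hden.1]
  congr 1
  rw [Units.val_mul, IsUnit.unit_spec, mul_assoc, mul_assoc, IsUnit.val_inv_mul, mul_one]

/-- Splitting at infinity after `1 / t = r ^ N`. -/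
theorem splitsAt_infty (hM : Haupt.IsHauptLevel M) (hMN : M ∣ N) (hqN : ¬ q ∣ N)
    (ht : IsTFull M N t) :
    SplitsAt t ((algebraMap (PowerSeries W) Ω PowerSeries.X)⁻¹ ^ N) := by
  set x := algebraMap (PowerSeries W) Ω PowerSeries.X
  have hx : x ≠ 0 :=
    (map_ne_zero_iff _ (IsFractionRing.injective (PowerSeries W) Ω)).mpr PowerSeries.X_ne_zero
  set y : PowerSeries W := PowerSeries.X ^ N with hy
  have hrev : ∀ p : ℤ[X], p.Monic → ∃ u : PowerSeries W, IsUnit u ∧
      aeval (x⁻¹ ^ N) p * x ^ (N * p.natDegree) = algebraMap (PowerSeries W) Ω u := by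
    intro p hp
    refine ⟨aeval y p.reverse, ?_, ?_⟩
    · rw [PowerSeries.isUnit_iff_constantCoeff, aeval_def, hom_eval₂, hy, map_pow,
        PowerSeries.constantCoeff_X, zero_pow (NeZero.ne N), eval₂_at_zero, coeff_zero_reverse,
        hp.leadingCoeff, map_one]
      exact isUnit_one
    · rw [aeval_def y, hom_eval₂, hy, map_pow, Subsingleton.elim
        ((algebraMap (PowerSeries W) Ω).comp (algebraMap ℤ _)) (algebraMap ℤ Ω)]
      have : Invertible (x⁻¹ ^ N) := invertibleOfNonzero (pow_ne_zero _ (inv_ne_zero hx))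
      have h := eval₂_reverse_mul_pow (algebraMap ℤ Ω) (x⁻¹ ^ N) p
      rw [invOf_eq_inv, inv_pow, inv_inv] at h
      rw [aeval_def, inv_pow, ← h, mul_assoc, pow_mul, inv_pow,
        inv_mul_cancel₀ (pow_ne_zero _ (pow_ne_zero _ hx)), mul_one]
  obtain ⟨u, hu, hnum⟩ := hrev _ (monic_jNum hM)
  obtain ⟨v, hv, hden⟩ := hrev _ (monic_jDen hM)
  refine splitsAt_of_cusp hM hMN hqN ht _ (hv.unit * hu.unit⁻¹) (a := 1) one_pos ?_
  rw [natDegree_jNum_eq hM, Nat.mul_succ, pow_add] at hnum
  refine mul_right_cancel₀ (pow_ne_zero (N * (jDen M).natDegree) hx) (hden.trans ?_)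
  rw [mul_one, map_mul, map_pow]
  calc algebraMap (PowerSeries W) Ω v
      = algebraMap (PowerSeries W) Ω ((hv.unit * hu.unit⁻¹ : (PowerSeries W)ˣ) : PowerSeries W) *
          algebraMap (PowerSeries W) Ω u := by
        rw [← map_mul, Units.val_mul, IsUnit.unit_spec, mul_assoc, IsUnit.val_inv_mul, mul_one]
    _ = _ := by rw [← hnum]; ring

end FLTA.Carayol.Chart
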