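import Fermat.Agent.Carayol.Chart.TDegree
import Mathlib.FieldTheory.Relrank
import Mathlib.FieldTheory.SeparableDegree

/-!
# An integral equation of the level-`N` field over the line of the Hauptmodul

`θ = jDen(t)^m j_N` satisfies a monic equation over `ℤ[t]` of degree `[F : ℚ(t)]`, which stays
irreducible and separable over `K(t)` in every characteristic not dividing `N`.
-/

set_option autoImplicit false

noncomputable section

open Polynomial ModularCurve ModularCurve.IgusaScheme IntermediateField

namespace FLTA.Carayol.Chart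

/-- Evaluation of `ℤ[T]` at an element. -/
def evalInt {A : Type*} [CommRing A] (x : A) : ℤ[X] →+* A :=
  eval₂RingHom (Int.castRingHom A) x

theorem evalInt_apply {A : Type*} [CommRing A] (x : A) (P : ℤ[X]) :
    evalInt x P = P.eval₂ (Int.castRingHom A) x := rfl

@[simp]
theorem evalInt_X {A : Type*} [CommRing A] (x : A) : evalInt x X = x := eval₂_X _ _

theorem comp_evalInt {A B : Type*} [CommRing A] [CommRing B] (f : A →+* B) (x : A) :
    f.comp (evalInt x) = evalInt (f x) :=
  ringHom_ext' (Subsingleton.elim _ _) (by simp)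

theorem intHom_ext {B : Type*} [CommRing B] {f g : ℤ[X] →+* B} (h : f X = g X) : f = g :=
  ringHom_ext' (Subsingleton.elim _ _) h

/-- If `j · d = n` in `ℤ[t]` then `c(j) dᴱ` lies in `ℤ[t]` for `deg c ≤ E`. -/
theorem exists_clear_den {A : Type*} [CommRing A] {j x : A} {n d : ℤ[X]}
    (h : j * evalInt x d = evalInt x n) (c : ℤ[X]) {E : ℕ} (hE : c.natDegree ≤ E) :
    ∃ R : ℤ[X], evalInt x R = evalInt j c * evalInt x d ^ E := by
  refine ⟨∑ k ∈ Finset.range (c.natDegree + 1), C (c.coeff k) * n ^ k * d ^ (E - k), ?_⟩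
  rw [map_sum, evalInt_apply j, eval₂_eq_sum_range, Finset.sum_mul]
  refine Finset.sum_congr rfl fun k hk => ?_
  have hkE : k ≤ E := by simp at hk; omega
  rw [map_mul, map_mul, map_pow, map_pow, evalInt_apply x (C _), eval₂_C, ← h, mul_pow]
  conv_rhs => rw [← Nat.add_sub_cancel' hkE, pow_add]
  ring

variable {M N : ℕ} [NeZero M] [NeZero N] {t : ↥(modularFunctionFieldFull N)}

/-- The equation of a scaled generator over the line of `t`. -/
structure TModel (M N : ℕ) [NeZero M] [NeZero N] (t : ↥(modularFunctionFieldFull N)) where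
  /-- the generator -/
  θ : ↥(modularFunctionFieldFull N)
  /-- its series -/
  τ : LaurentSeries ℤ
  /-- its equation -/
  Q : ℤ[X][X]
  coe_θ : (θ : LaurentSeries ℚ) = coeffMap (Int.castRingHom ℚ) τ
  monic : Q.Monic
  natDegree_eq : Q.natDegree =
    Module.finrank (IntermediateField.adjoin ℚ ({t} : Set ↥(modularFunctionFieldFull N)))
      ↥(modularFunctionFieldFull N)
  adjoin_eq : IntermediateField.adjoin ℚ {t, θ} = ⊤
  eval_eq_zero : Q.eval₂ (evalInt t) θ = 0
  eval_series : Q.eval₂ (evalInt (Haupt.tSeries M)) τ = 0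
  irreducible : Irreducible (Q.map (algebraMap ℤ[X] (FractionRing ℤ[X])))
  mod_q : ∀ (q : ℕ) [Fact q.Prime] (K : Type) [Field K] [CharP K q]
    [Algebra ↥(GaloisRep.ratLocalizedAt q) K], ¬ q ∣ N →
    Irreducible (Q.map (evalInt (AdjoinSimple.gen K (Haupt.tOf M K)))) ∧
      (Q.map (evalInt (AdjoinSimple.gen K (Haupt.tOf M K)))).Separable

theorem finrank_eq_relfinrank (ht : IsTFull M N t) :
    Module.finrank (IntermediateField.adjoin ℚ ({t} : Set ↥(modularFunctionFieldFull N)))
      ↥(modularFunctionFieldFull N) =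
    relfinrank (tField M ℚ) (modularFunctionFieldFullC ℚ N) := by
  let f : ↥(modularFunctionFieldFull N) →+* LaurentSeries ℚ := algebraMap _ _
  have hmap : (IntermediateField.adjoin ℚ ({t} : Set ↥(modularFunctionFieldFull N))).toSubfield.map f =
      (tField M ℚ).toSubfield := by
    rw [adjoin_toSubfield, tField, adjoin_toSubfield, RingHom.map_field_closure, Set.image_union,
      ← Set.range_comp, Set.image_singleton, show f t = Haupt.tOf M ℚ from ht]
    congr 2
    exact congrArg (fun g : ℚ →+* LaurentSeries ℚ => Set.range g)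
      (Subsingleton.elim (f.comp (algebraMap ℚ _)) (algebraMap ℚ (LaurentSeries ℚ)))
  have htop : (⊤ : Subfield ↥(modularFunctionFieldFull N)).map f =
      (modularFunctionFieldFullC ℚ N).toSubfield := by
    rw [← RingHom.fieldRange_eq_map]
    ext x
    refine ⟨fun h => ?_, fun hx => RingHom.mem_fieldRange.mpr ⟨⟨x, hx⟩, rfl⟩⟩
    obtain ⟨y, rfl⟩ := RingHom.mem_fieldRange.mp h
    exact y.2
  rw [IntermediateField.relfinrank, ← hmap, ← htop, Subfield.relfinrank_map_map,
    Subfield.relfinrank_top_right]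
  rfl

theorem IsTFull.evalInt_den_ne_zero (ht : IsTFull M N t) :
    evalInt t (jDen M) ≠ 0 := fun h => by
  have h2 := congrArg (algebraMap ↥(modularFunctionFieldFull N) (LaurentSeries ℚ)) h
  rw [← RingHom.comp_apply, comp_evalInt, map_zero, evalInt_apply] at h2
  exact eval₂_tOf_ne_zero (M := M) (jDen_monic M) (by rw [show Haupt.tOf M ℚ = _ from ht.symm]; exact h2)

theorem IsTFull.evalInt_mul_den (hM : Haupt.IsHauptLevel M) (ht : IsTFull M N t) :
    jFull N * evalInt t (jDen M) = evalInt t (jNum M) := by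
  have h : ∀ P : ℤ[X], aeval t P = evalInt t P := fun P => by
    rw [aeval_def, evalInt_apply]
    congr 1
  rw [← h, ← h]
  exact ht.j_mul_den hM

set_option maxHeartbeats 1600000 in
/-- Existence of the model. -/
theorem nonempty_tModel (hM : Haupt.IsHauptLevel M) (ht : IsTFull M N t) :
    Nonempty (TModel M N t) := by
  obtain ⟨d⟩ := FLTA.Smooth.nonempty_modularData N
  let e := FLTA.Smooth.chartEquationFin N d
  let den := evalInt t (jDen M)
  let m := e.Q.natDegree.succ * ∑ i ∈ Finset.range (e.Q.natDegree + 1), (e.Q.coeff i).natDegree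
  let θ := den ^ m * e.θ
  let τ := evalInt (Haupt.tSeries M) (jDen M) ^ m * jqNModC ℤ N
  have hden : den ≠ 0 := ht.evalInt_den_ne_zero
  have hcoeτ : (θ : LaurentSeries ℚ) = coeffMap (Int.castRingHom ℚ) τ := by
    show algebraMap ↥(modularFunctionFieldFull N) (LaurentSeries ℚ) (den ^ m * e.θ) = _
    rw [map_mul, map_pow, map_mul, map_pow, ← RingHom.comp_apply, comp_evalInt,
      ← RingHom.comp_apply (coeffMap (Int.castRingHom ℚ)), comp_evalInt]
    exact congrArg₂ (· * ·) (by rw [show (algebraMap ↥(modularFunctionFieldFull N)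
      (LaurentSeries ℚ)) t = _ from ht]) e.coe_θ
  letI : Algebra ℤ[X] ↥(modularFunctionFieldFull N) := (evalInt t).toAlgebra
  -- `θ` is integral over `ℤ[t]`
  have hQ0 : e.Q.eval₂ (evalInt (jFull N)) e.θ = 0 := by
    apply (algebraMap ↥(modularFunctionFieldFull N) (LaurentSeries ℚ)).injective
    rw [hom_eval₂, comp_evalInt, map_zero]
    have h := congrArg (FLTA.Smooth.seriesTo ℚ) e.eval_eq_zero
    rw [hom_eval₂, map_zero] at h
    refine Eq.trans ?_ h
    refine congrArg₂ (fun f x => eval₂ f x e.Q) (intHom_ext ?_) e.coe_θ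
    simp only [RingHom.comp_apply, evalInt_X]
    rw [show e.σ = jqModC ℤ from rfl]
    simp [FLTA.Smooth.seriesTo_jqModC, jqModC_rat]
  have hint : IsIntegral ℤ[X] θ := by
    let P := (e.Q.map (evalInt (jFull N))).scaleRoots (den ^ m)
    have hP : P.Monic := (monic_scaleRoots_iff _).mpr (e.monic.map _)
    have hl : P ∈ Polynomial.lifts (evalInt t) := (lifts_iff_coeff_lifts P).mpr fun i => by
      rw [coeff_scaleRoots, coeff_map, e.monic.natDegree_map]
      rcases lt_or_ge i e.Q.natDegree with hi | hi
      · rw [← pow_mul]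
        refine exists_clear_den (ht.evalInt_mul_den hM) _ ?_
        calc (e.Q.coeff i).natDegree
            ≤ ∑ k ∈ Finset.range (e.Q.natDegree + 1), (e.Q.coeff k).natDegree :=
              Finset.single_le_sum (f := fun k => (e.Q.coeff k).natDegree)
                (fun _ _ => Nat.zero_le _) (Finset.mem_range.mpr (by omega))
          _ ≤ m := Nat.le_mul_of_pos_left _ (Nat.succ_pos _)
          _ ≤ m * (e.Q.natDegree - i) := Nat.le_mul_of_pos_right _ (by omega)
      · rcases hi.lt_or_eq with hlt | rfl
        · exact ⟨0, by rw [coeff_eq_zero_of_natDegree_lt hlt]; simp⟩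
        · exact ⟨1, by rw [e.monic.coeff_natDegree]; simp⟩
    obtain ⟨R, hR, -, hRm⟩ := lifts_and_natDegree_eq_and_monic hl hP
    refine ⟨R, hRm, ?_⟩
    rw [RingHom.algebraMap_toAlgebra, eval₂_eq_eval_map, hR]
    show P.eval (den ^ m * e.θ) = 0
    rw [scaleRoots_eval_mul, eval_map, hQ0, mul_zero]
  let Q := minpoly ℤ[X] θ
  have hQm : Q.Monic := minpoly.monic hint
  have hQθ : Q.eval₂ (evalInt t) θ = 0 := minpoly.aeval ℤ[X] θ
  -- series
  have hinjQ : Function.Injective (coeffMap (Int.castRingHom ℚ)) :=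
    FLTA.Smooth.coeffMap_injective Int.cast_injective
  have hseries : Q.eval₂ (evalInt (Haupt.tSeries M)) τ = 0 := by
    apply hinjQ
    rw [hom_eval₂, comp_evalInt, map_zero, ← hcoeτ, show coeffMap (Int.castRingHom ℚ)
      (Haupt.tSeries M) = (t : LaurentSeries ℚ) from ht.symm]
    have h := congrArg (algebraMap ↥(modularFunctionFieldFull N) (LaurentSeries ℚ)) hQθ
    rwa [hom_eval₂, comp_evalInt, map_zero] at h
  -- degree
  have hadj : IntermediateField.adjoin ℚ {t, θ} = ⊤ := by
    have htmem : t ∈ IntermediateField.adjoin ℚ ({t, θ} : Set _) :=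
      subset_adjoin ℚ _ (Set.mem_insert _ _)
    have hden' : den ∈ IntermediateField.adjoin ℚ ({t, θ} : Set _) := by
      show evalInt t (jDen M) ∈ _
      rw [evalInt_apply, eval₂_eq_sum_range]
      exact sum_mem fun i _ => mul_mem (by simp) (pow_mem htmem i)
    have hjn : jFull N ∈ IntermediateField.adjoin ℚ ({t, θ} : Set _) := by
      rw [eq_div_of_mul_eq hden (ht.evalInt_mul_den hM)]
      refine div_mem ?_ hden'
      rw [evalInt_apply, eval₂_eq_sum_range]
      exact sum_mem fun i _ => mul_mem (by simp) (pow_mem htmem i)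
    have hθ' : e.θ ∈ IntermediateField.adjoin ℚ ({t, θ} : Set _) := by
      rw [show e.θ = θ / den ^ m from (mul_div_cancel_left₀ _ (pow_ne_zero m hden)).symm]
      exact div_mem (subset_adjoin ℚ _ (Set.mem_insert_of_mem _ rfl)) (pow_mem hden' m)
    refine eq_top_iff.mpr fun x hxt => ?_
    clear hxt
    let S := (IntermediateField.adjoin ℚ ({t, θ} : Set _)).toSubfield.map
      (algebraMap ↥(modularFunctionFieldFull N) (LaurentSeries ℚ))
    have hle : ∀ y ∈ modularFunctionFieldC ℚ N, y ∈ S := by
      intro y hy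
      induction hy using IntermediateField.adjoin_induction with
      | mem y hy =>
        rcases hy with rfl | rfl
        · exact ⟨jFull N, hjn, rfl⟩
        · exact ⟨e.θ, hθ', rfl⟩
      | algebraMap c => exact ⟨(c : ↥(modularFunctionFieldFull N)), by simp, by simp⟩
      | add a b _ _ ha hb => exact add_mem ha hb
      | inv a _ ha => exact inv_mem ha
      | mul a b _ _ ha hb => exact mul_mem ha hb
    obtain ⟨z, hz, hzx⟩ := hle (x : LaurentSeries ℚ)
      ((Igusa.modularFunctionFieldC_eq_full ℚ N (Nat.cast_ne_zero.mpr (NeZero.ne N))).symm ▸ x.2)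
    rwa [← Subtype.val_injective hzx]
  have hinj : Function.Injective (evalInt t) := by
    intro P P' h
    have h2 := congrArg (algebraMap ↥(modularFunctionFieldFull N) (LaurentSeries ℚ)) h
    rw [← RingHom.comp_apply, ← RingHom.comp_apply, comp_evalInt, evalInt_apply, evalInt_apply,
      show (algebraMap ↥(modularFunctionFieldFull N) (LaurentSeries ℚ)) t = Haupt.tOf M ℚ from ht,
      ← aeval_map_int, ← aeval_map_int] at h2
    exact map_injective _ Int.cast_injective (Haupt.aeval_tOf_injective M h2)
  haveI : FaithfulSMul ℤ[X] ↥(modularFunctionFieldFull N) :=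
    (faithfulSMul_iff_algebraMap_injective _ _).mpr hinj
  let K0 := FractionRing ℤ[X]
  letI : Algebra K0 ↥(modularFunctionFieldFull N) :=
    FractionRing.liftAlgebra ℤ[X] ↥(modularFunctionFieldFull N)
  let T0 := IntermediateField.adjoin ℚ ({t} : Set ↥(modularFunctionFieldFull N))
  let j0 : K0 →+* ↥(modularFunctionFieldFull N) := algebraMap K0 _
  have hj0 : ∀ P : ℤ[X], j0 (algebraMap ℤ[X] K0 P) = evalInt t P := fun P =>
    (IsScalarTower.algebraMap_apply ℤ[X] K0 ↥(modularFunctionFieldFull N) P).symm
  have hrange : ∀ x, x ∈ j0.fieldRange ↔ x ∈ T0 := by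
    intro x
    constructor
    · rintro ⟨z, rfl⟩
      obtain ⟨a, b, -, rfl⟩ := IsFractionRing.div_surjective ℤ[X] z
      rw [map_div₀, hj0, hj0, evalInt_apply, evalInt_apply, eval₂_eq_sum_range,
        eval₂_eq_sum_range]
      exact div_mem
        (sum_mem fun i _ => mul_mem (by simp) (pow_mem (mem_adjoin_simple_self ℚ t) i))
        (sum_mem fun i _ => mul_mem (by simp) (pow_mem (mem_adjoin_simple_self ℚ t) i))
    · intro hx
      induction hx using IntermediateField.adjoin_induction with
      | mem y hy =>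
        obtain rfl := hy
        exact ⟨algebraMap ℤ[X] K0 X, by rw [hj0, evalInt_X]⟩
      | algebraMap c => exact ⟨(c : K0), by rw [map_ratCast, eq_ratCast]⟩
      | add a b _ _ ha hb => exact add_mem ha hb
      | inv a _ ha => exact inv_mem ha
      | mul a b _ _ ha hb => exact mul_mem ha hb
  let σ : K0 ≃+* T0 :=
    RingEquiv.ofBijective (j0.codRestrict T0 fun z => (hrange _).mp ⟨z, rfl⟩)
      ⟨fun a b h => j0.injective (congrArg Subtype.val h), fun y => by
        obtain ⟨z, hz⟩ := (hrange _).mpr y.2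
        exact ⟨z, Subtype.ext hz⟩⟩
  have hfinrank : Module.finrank K0 ↥(modularFunctionFieldFull N) =
      Module.finrank T0 ↥(modularFunctionFieldFull N) :=
    Algebra.finrank_eq_of_equiv_equiv σ (RingEquiv.refl _) (RingHom.ext fun z => rfl)
  have hintK : IsIntegral K0 θ := hint.tower_top
  have htopK : IntermediateField.adjoin K0 {θ} = ⊤ := by
    refine eq_top_iff.mpr fun x hxt => ?_
    clear hxt
    have hx : x ∈ IntermediateField.adjoin ℚ ({t, θ} : Set _) := by rw [hadj]; trivial
    induction hx using IntermediateField.adjoin_induction with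
    | mem y hy =>
      rcases hy with rfl | rfl
      · obtain ⟨z, hz⟩ := (hrange y).mpr (mem_adjoin_simple_self ℚ y)
        exact hz ▸ (IntermediateField.adjoin K0 {θ}).algebraMap_mem z
      · exact mem_adjoin_simple_self K0 _
    | algebraMap c =>
      rw [eq_ratCast, ← map_ratCast (algebraMap K0 ↥(modularFunctionFieldFull N))]
      exact (IntermediateField.adjoin K0 {θ}).algebraMap_mem _
    | add a b _ _ ha hb => exact add_mem ha hb
    | inv a _ ha => exact inv_mem ha
    | mul a b _ _ ha hb => exact mul_mem ha hb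
  have hminK : minpoly K0 θ = Q.map (algebraMap ℤ[X] K0) :=
    minpoly.isIntegrallyClosed_eq_field_fractions' K0 hint
  have hdeg : Q.natDegree = Module.finrank T0 ↥(modularFunctionFieldFull N) := by
    rw [← hfinrank, ← hQm.natDegree_map (algebraMap ℤ[X] K0), ← hminK,
      ← adjoin.finrank hintK, htopK, finrank_top']
  refine ⟨⟨θ, τ, Q, hcoeτ, hQm, hdeg, hadj, hQθ, hseries,
    hminK ▸ minpoly.irreducible hintK, fun q _ K _ _ _ hqN => ?_⟩⟩
  -- reduction
  let T := tField M K
  have hNK : (N : K) ≠ 0 := FLTA.Smooth.natCast_ne_zero_of_not_dvd (ℓ := q) hqN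
  let τK := coeffMap (Int.castRingHom K) τ
  let Qb := Q.map (evalInt (AdjoinSimple.gen K (Haupt.tOf M K)))
  have hroot : aeval τK Qb = 0 := by
    rw [aeval_def, eval₂_map]
    have h := congrArg (coeffMap (Int.castRingHom K)) hseries
    rw [hom_eval₂, map_zero] at h
    refine Eq.trans ?_ h
    refine congrArg (fun f => eval₂ f τK Q) (intHom_ext ?_)
    simp only [RingHom.comp_apply, evalInt_X]
    rfl
  have hτK : τK = (jDen M).eval₂ (Int.castRingHom _) (Haupt.tOf M K) ^ m * jqNModC K N := by
    show coeffMap _ (_ * _) = _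
    rw [map_mul, map_pow, ← RingHom.comp_apply, comp_evalInt, coeffMap_jqNModC]
    rfl
  have hdenT : (jDen M).eval₂ (Int.castRingHom _) (Haupt.tOf M K) ∈ T := by
    rw [← aeval_map_int]
    exact algebra_adjoin_le_adjoin K _ (aeval_mem_adjoin_singleton K _)
  have hτfull : τK ∈ modularFunctionFieldFullC K N := by
    rw [hτK]
    exact mul_mem (pow_mem (adjoin_le_iff.mpr (Set.singleton_subset_iff.mpr
      (ht.tOf_mem_full (K := K) hM hqN)) hdenT) m) (jqModCd_mem_full K N dvd_rfl)
  have hTle : T ≤ modularFunctionFieldFullC K N :=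
    adjoin_le_iff.mpr (Set.singleton_subset_iff.mpr (ht.tOf_mem_full (K := K) hM hqN))
  have hEfull : extendScalars hTle = IntermediateField.adjoin T {τK} := by
    refine le_antisymm (fun x hx => ?_) (adjoin_le_iff.mpr (Set.singleton_subset_iff.mpr hτfull))
    rw [mem_extendScalars, ← Igusa.modularFunctionFieldC_eq_full K N hNK,
      modularFunctionFieldC] at hx
    refine (adjoin_le_iff (T := (IntermediateField.adjoin T {τK}).restrictScalars K)).mpr ?_ hx
    rintro y (rfl | rfl)
    · exact IntermediateField.algebraMap_mem (IntermediateField.adjoin T {τK})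
        ⟨_, ht.jqModC_mem_tField hM⟩
    · have h1 : τK / (jDen M).eval₂ (Int.castRingHom _) (Haupt.tOf M K) ^ m = jqNModC K N := by
        rw [hτK, mul_div_cancel_left₀ _ (pow_ne_zero m (eval₂_tOf_ne_zero (jDen_monic M)))]
      rw [← h1]
      exact div_mem (mem_adjoin_simple_self T τK) (pow_mem
        (IntermediateField.algebraMap_mem (IntermediateField.adjoin T {τK}) (⟨_, hdenT⟩ : T)) m)
  have hintT : IsIntegral T τK := ⟨Qb, hQm.map _, hroot⟩
  have hmindeg : (minpoly T τK).natDegree =
      relfinrank T (modularFunctionFieldFullC K N) := by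
    rw [relfinrank_eq_finrank_of_le hTle, hEfull, adjoin.finrank hintT]
  have hmin : minpoly T τK = Qb := by
    refine (eq_of_monic_of_dvd_of_natDegree_le (minpoly.monic hintT) (hQm.map _)
      (minpoly.dvd T τK hroot) ?_).symm
    rw [hQm.natDegree_map, hdeg, finrank_eq_relfinrank ht, hmindeg]
    exact ht.relfinrank_le hM hqN
  show Irreducible Qb ∧ Qb.Separable
  rw [← hmin]
  refine ⟨minpoly.irreducible hintT, ?_⟩
  have hsep := FLTA.Igusa.isSeparable_qExpand T (ht.jqModC_mem_tField hM) N hNK
  show IsSeparable T τK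
  rw [hτK]
  exact Field.isSeparable_mul
    (isSeparable_algebraMap (⟨_, pow_mem hdenT m⟩ : T)) hsep

end FLTA.Carayol.Chart
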