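import Fermat.Agent.Carayol.Chart.JPoly
import Fermat.Agent.Smooth.CoverPurity
import Fermat.Agent.Smooth.CoverLine
import Fermat.Agent.Smooth.Purity.Embeddings

/-!
# The Hauptmodul line as a cover of the chart at finite `j`
-/

set_option autoImplicit false

noncomputable section

open Polynomial ModularCurve ModularCurve.IgusaScheme

namespace FLTA.Carayol.Chart

open FLTA.Smooth

variable {M N : ℕ} [NeZero M] [NeZero N] {t : ↥(modularFunctionFieldFull N)}

theorem IsTFull.aeval_jDen_ne_zero (hM : Haupt.IsHauptLevel M) (ht : IsTFull M N t) :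
    aeval t (jDen M) ≠ 0 := fun h =>
  aeval_jNum_ne_zero_of_jDen_eq_zero hM h (by rw [← ht.j_mul_den hM, h, mul_zero])

theorem IsTFull.jFull_mem_adjoin (hM : Haupt.IsHauptLevel M) (ht : IsTFull M N t) :
    jFull N ∈ IntermediateField.adjoin ℚ ({t} : Set ↥(modularFunctionFieldFull N)) := by
  have hmem : ∀ p : ℤ[X], aeval t p ∈
      IntermediateField.adjoin ℚ ({t} : Set ↥(modularFunctionFieldFull N)) := fun p => by
    rw [← aeval_map_algebraMap ℚ]
    exact IntermediateField.algebra_adjoin_le_adjoin ℚ _ (aeval_mem_adjoin_singleton ℚ t)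
  rw [eq_div_of_mul_eq (ht.aeval_jDen_ne_zero hM) (ht.j_mul_den hM)]
  exact div_mem (hmem _) (hmem _)

section Cover

variable {q : ℕ} [Fact q.Prime] {k : Type} [Field k] [IsAlgClosed k] [CharP k q]

/-- The numerator over `ℤ_(q)`. -/
def numZ (M q : ℕ) : (Zloc q)[X] := (jNum M).map (algebraMap ℤ (Zloc q))

/-- The denominator over `ℤ_(q)`. -/
def denZ (M q : ℕ) : (Zloc q)[X] := (jDen M).map (algebraMap ℤ (Zloc q))

omit [Fact q.Prime] in
theorem map_zloc (p : ℤ[X]) {S : Type} [CommRing S] (f : Zloc q →+* S) :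
    (p.map (algebraMap ℤ (Zloc q))).map f = p.map (algebraMap ℤ S) := by
  rw [Polynomial.map_map]
  exact congrArg (fun g => Polynomial.map g p) (Subsingleton.elim _ _)

variable (π : ↥(GaloisRep.ratLocalizedAt q) →+* k)

/-- The Hauptmodul line is a cover of the chart at finite `j`. -/
theorem exists_coverSetting_t (hM : Haupt.IsHauptLevel M) (hMN : M ∣ N)
    (hqN : ¬ q ∣ N) (ht : IsTFull M N t) :
    haveI := isIntegrallyClosed_chart (ℓ := q) (isChartParam_jFull N)
    haveI := isFractionRing_chartAlg (ℓ := q) (isChartParam_jFull N)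
    ∃ (θ tA : ↥(chartAlg N q {jFull N})) (Q : ((Zloc q)[X])[X]),
      (tA : ↥(modularFunctionFieldFull N)) = t ∧
      CoverSetting (F := ↥(modularFunctionFieldFull N)) (L := ↥(modularFunctionFieldFull N)) π
        (polyHom N q (jFull N)).toRingHom θ Q (numZ M q) (denZ M q) (denZ M q) (X - C tA) t
        (redHom π hqN (isChartParam_jFull N)) (redParam π hqN (isChartParam_jFull N)) := by
  have := isIntegrallyClosed_chart (ℓ := q) (isChartParam_jFull N)
  have := isFractionRing_chartAlg (ℓ := q) (isChartParam_jFull N)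
  set hs := isChartParam_jFull N
  set sA := (polyHom N q (jFull N)).toRingHom with hsA
  obtain ⟨θ, Q, hQm, -, hQroot, hgen, -, hgenk, hsep, hmin⟩ := exists_chartGenerator π hqN hs
  have hmem : t ∈ chartAlg N q {jFull N} := by
    let J : ↥(Algebra.adjoin ↥(GaloisRep.ratLocalizedAt q) ({jFull N} : Set ↥(modularFunctionFieldFull N))) :=
      ⟨jFull N, Algebra.subset_adjoin rfl⟩
    refine ⟨_, monic_jNum_sub hM J, ?_⟩
    rw [eval₂_sub, eval₂_mul, eval₂_C, eval₂_map, eval₂_map,
      Subsingleton.elim (RingHom.comp _ _) (algebraMap ℤ ↥(modularFunctionFieldFull N))]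
    exact sub_eq_zero.mpr (ht.j_mul_den hM).symm
  refine ⟨θ, ⟨t, hmem⟩, Q, rfl, ?_⟩
  set tA : ↥(chartAlg N q {jFull N}) := ⟨t, hmem⟩
  have hval : algebraMap ↥(chartAlg N q {jFull N}) ↥(modularFunctionFieldFull N) tA = t := rfl
  have hev : ∀ p : ℤ[X], evalX sA t (p.map (algebraMap ℤ (Zloc q))) = aeval t p := fun p => by
    rw [polyHom_eq_aeval (evalX sA t), map_zloc, aeval_map_algebraMap]
    simp [evalX]
  have hred : redHom π hqN hs tA ∉ Set.range (algebraMap k ↥(modularFunctionFieldFullC k N)) := by
    rintro ⟨c, hc⟩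
    have hrel : (jNum M).eval₂ (algebraMap ℤ ↥(chartAlg N q {jFull N})) tA
        = paramElem N q (jFull N) *
          (jDen M).eval₂ (algebraMap ℤ ↥(chartAlg N q {jFull N})) tA := by
      apply IsFractionRing.injective ↥(chartAlg N q {jFull N}) ↥(modularFunctionFieldFull N)
      rw [map_mul, hom_eval₂, hom_eval₂, hval,
        Subsingleton.elim (RingHom.comp _ _) (algebraMap ℤ ↥(modularFunctionFieldFull N))]
      exact (ht.j_mul_den hM).symm
    have h1 := congrArg (redHom π hqN hs) hrel
    rw [map_mul, hom_eval₂, hom_eval₂, ← hc,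
      Subsingleton.elim (RingHom.comp _ _) ((algebraMap k ↥(modularFunctionFieldFullC k N)).comp
        (algebraMap ℤ k)), ← hom_eval₂, ← hom_eval₂] at h1
    have hcop : (jNum M).eval₂ (algebraMap ℤ k) c = 0 → (jDen M).eval₂ (algebraMap ℤ k) c ≠ 0 := by
      intro h2 h3
      exact isCoprime_jNum_jDen_eval hM (fun hqM => hqN (hqM.trans hMN)) h2 h3
    refine redParam_transcendental π hqN hs ⟨C ((jNum M).eval₂ (algebraMap ℤ k) c) -
      C ((jDen M).eval₂ (algebraMap ℤ k) c) * X, ?_, ?_⟩
    · intro h0
      have h2 := congrArg (fun p : k[X] => p.coeff 0) h0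
      have h3 := congrArg (fun p : k[X] => p.coeff 1) h0
      simp only [coeff_sub, coeff_C_zero, coeff_C_mul, coeff_X_zero, coeff_zero, mul_zero,
        sub_zero, coeff_C_succ, coeff_X_one, mul_one, zero_sub, neg_eq_zero] at h2 h3
      exact hcop h2 h3
    · rw [map_sub, map_mul, aeval_C, aeval_C, aeval_X, h1, mul_comm]
      exact sub_self _
  refine
    { root := ⟨monic_X_sub_C _, by simp [hval], ?_, ?_, separable_X_sub_C.map⟩
      trans := redParam_transcendental π hqN hs
      finite := RingHom.IsIntegral.of_finite (polyHom_finite hs)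
      red_sA := redHom_polyHom π hqN hs
      Q_monic := hQm
      Q_root := hQroot
      gen_zero := ?_
      gen_k := hgenk
      li := ?_
      sep := ?_
      rel := ?_
      coprime := ?_
      den_pow := ⟨1, (pow_one _).symm⟩
      hbar := ?_ }
  · rw [Polynomial.map_sub, map_X, map_C, hval, minpoly.eq_X_sub_C']
  · rw [eq_top_iff]
    intro x _
    exact IntermediateField.algebraMap_mem _ x
  · rw [eq_top_iff]
    intro z _
    have hz : z ∈ IntermediateField.adjoin ℚ {jFull N, (θ : ↥(modularFunctionFieldFull N))} :=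
      hgen.symm ▸ IntermediateField.mem_top
    rw [← IntermediateField.mem_toSubfield, IntermediateField.adjoin_toSubfield] at hz
    refine (Subfield.closure_le.mpr ?_) hz
    rintro y (⟨r, rfl⟩ | hy)
    · rw [eq_ratCast]
      exact SubfieldClass.ratCast_mem _ r
    · refine Subfield.subset_closure ?_
      rw [hsA, polyHom_X]
      exact hy
  · intro c hc
    set E := IntermediateField.adjoin k {redParam π hqN hs}
    have hli := linearIndependent_pow (K := ↥E) (redHom π hqN hs θ)
    rw [hmin, hQm.natDegree_map] at hli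
    let φ := (Polynomial.aeval (IntermediateField.AdjoinSimple.gen k (redParam π hqN hs)) :
      k[X] →ₐ[k] ↥E)
    have hφ : ∀ p : k[X], ((φ p : ↥E) : ↥(modularFunctionFieldFullC k N))
        = aeval (redParam π hqN hs) p := fun p => by
      rw [← IntermediateField.coe_val, ← aeval_algHom_apply]
      rfl
    funext l
    have h0 := Fintype.linearIndependent_iff.mp hli (fun l => φ (c l)) (by
      simp only [Algebra.smul_def, IntermediateField.algebraMap_apply, hφ]
      exact hc) l
    apply (transcendental_iff_injective.mp (redParam_transcendental π hqN hs))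
    rw [Pi.zero_apply, map_zero, ← hφ, h0]
    rfl
  · let φ := (Polynomial.aeval (IntermediateField.AdjoinSimple.gen k (redParam π hqN hs)) :
      k[X] →ₐ[k] ↥(IntermediateField.adjoin k {redParam π hqN hs})).toRingHom
    have hφinj : Function.Injective φ := by
      intro a b hab
      apply transcendental_iff_injective.mp (redParam_transcendental π hqN hs)
      have h2 := congrArg (IntermediateField.val _) hab
      simpa [φ, ← aeval_algHom_apply] using h2
    rw [← separable_map (IsFractionRing.lift hφinj), Polynomial.map_map, ← RingHom.comp_assoc]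
    have hcomp : ((IsFractionRing.lift (K := FractionRing k[X]) hφinj).comp
          (algebraMap k[X] (FractionRing k[X]))).comp (mapRingHom π) = redPolyHom π hqN hs := by
      refine RingHom.ext fun a => ?_
      simp [φ, redPolyHom, IsFractionRing.lift_algebraMap]
    rw [hcomp]
    exact hsep
  · rw [numZ, denZ, hev, hev, hsA, polyHom_X]
    exact (ht.j_mul_den hM).symm
  · intro c h0
    rw [Polynomial.map_sub, map_X, map_C, eval_sub, eval_X, eval_C, sub_eq_zero] at h0
    exact hred ⟨c, h0⟩
  · rw [denZ, map_zloc]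
    exact ((monic_jDen hM).map _).ne_zero

/-- The cover has all embeddings at every complex point which is not a cusp. -/
theorem hasEmbeddings_t (hM : Haupt.IsHauptLevel M) {hqN : ¬ q ∣ N}
    {θ tA : ↥(chartAlg N q {jFull N})} {Q : ((Zloc q)[X])[X]}
    [IsIntegrallyClosed ↥(chartAlg N q {jFull N})]
    [IsFractionRing ↥(chartAlg N q {jFull N}) ↥(modularFunctionFieldFull N)]
    (S : CoverSetting (F := ↥(modularFunctionFieldFull N)) (L := ↥(modularFunctionFieldFull N)) π
        (polyHom N q (jFull N)).toRingHom θ Q (numZ M q) (denZ M q) (denZ M q) (X - C tA) t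
        (redHom π hqN (isChartParam_jFull N)) (redParam π hqN (isChartParam_jFull N))) :
    HasEmbeddings (polyHom N q (jFull N)).toRingHom t (denZ M q)
      (Module.finrank (IntermediateField.adjoin ℚ ({t} : Set ↥(modularFunctionFieldFull N)))
        ↥(modularFunctionFieldFull N)) := by
  refine hasEmbeddings_of_line S ?_
  intro _ _ hgen hrel x₀ hx₀
  simp only [numZ, denZ, map_zloc] at hrel hx₀
  obtain ⟨a, ha⟩ := exists_jNum_eq_cube hM
  obtain ⟨b, hb⟩ := exists_jNum_sub_eq_sq hM
  refine Purity.exists_embeddings (algebraMap ↥(modularFunctionFieldFull N) _) hgen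
    ((jNum M).map (algebraMap ℤ ℚ)) ((jDen M).map (algebraMap ℤ ℚ)) hrel
    ((monic_jNum hM).map _).ne_zero ?_ x₀ hx₀ ?_ ?_
  · rw [(monic_jNum hM).natDegree_map, (monic_jDen hM).natDegree_map, natDegree_jNum_eq hM]
    exact Nat.succ_ne_self _
  · exact fun _ => ⟨1, a.map (algebraMap ℤ ℚ), by rw [map_one, one_mul, ha, Polynomial.map_pow]⟩
  · intro _
    refine ⟨1, b.map (algebraMap ℤ ℚ), ?_⟩
    rw [map_one, one_mul, ← Polynomial.map_pow, ← hb, Polynomial.map_sub, Polynomial.map_mul,
      map_C, map_ofNat, map_ofNat]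

end Cover

end FLTA.Carayol.Chart
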