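import Fermat.Agent.Carayol.EtaleSplit
import Mathlib.RingTheory.IntegralClosure.IntegralRestrict
import Mathlib.RingTheory.Localization.Module

/-!
# Homomorphisms out of a field with an étale model
-/

set_option autoImplicit false

noncomputable section

open IsLocalRing

namespace FLTA.Carayol.Chart

variable {R F : Type} [CommRing R] [IsDomain R] [Field F] [Algebra R F] [FaithfulSMul R F]
  {ι : Type} [Fintype ι] [DecidableEq ι]

/-- An étale model splits at every strictly henselian point. -/
theorem exists_fieldHoms [Algebra.IsAlgebraic R F]
    (e : Module.Basis ι R (integralClosure R F)) (he : IsUnit (Algebra.discr R e))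
    {S Ω : Type} [CommRing S] [IsDomain S] [HenselianLocalRing S] [IsAlgClosed (ResidueField S)]
    [Field Ω] [Algebra S Ω] [FaithfulSMul S Ω] (ψ : R →+* S) (hψ : Function.Injective ψ) :
    ∃ φ : ι → (F →+* Ω), Function.Injective φ ∧
      ∀ i r, φ i (algebraMap R F r) = algebraMap S Ω (ψ r) := by
  have : FaithfulSMul R (integralClosure R F) := (faithfulSMul_iff_algebraMap_injective _ _).mpr
    fun a b hab => FaithfulSMul.algebraMap_injective R F (congrArg Subtype.val hab)
  have : IsFractionRing (integralClosure R F) F := integralClosure.isFractionRing_of_algebraic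
    (fun x hx => FaithfulSMul.algebraMap_injective R F (hx.trans (map_zero _).symm))
  have : Algebra.IsIntegral R (integralClosure R F) := integralClosure.AlgebraIsIntegral
  obtain ⟨χ, hχ, hdet⟩ := exists_homs_of_isUnit_discr e he ψ
  have hinj : ∀ i, Function.Injective ((algebraMap S Ω).comp (χ i)) := by
    intro i
    refine (FaithfulSMul.algebraMap_injective S Ω).comp ?_
    rw [RingHom.injective_iff_ker_eq_bot]
    refine Ideal.eq_bot_of_comap_eq_bot (R := R) ?_
    rw [RingHom.comap_ker, hχ i]
    exact (RingHom.injective_iff_ker_eq_bot ψ).mp hψ
  refine ⟨fun i => IsFractionRing.lift (hinj i), fun i j hij => ?_, fun i r => ?_⟩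
  · by_contra hne
    refine hdet.ne_zero (Matrix.det_zero_of_row_eq hne (funext fun l => ?_))
    have h1 := RingHom.congr_fun hij (algebraMap (integralClosure R F) F (e l))
    rw [IsFractionRing.lift_algebraMap, IsFractionRing.lift_algebraMap] at h1
    exact FaithfulSMul.algebraMap_injective S Ω h1
  · rw [IsScalarTower.algebraMap_apply R (integralClosure R F) F, IsFractionRing.lift_algebraMap]
    exact congrArg (algebraMap S Ω) (RingHom.congr_fun (hχ i) r)

omit [FaithfulSMul R F] [DecidableEq ι] in
/-- The cardinality of a basis of the model is the degree. -/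
theorem finrank_eq_card_of_model (K : Type) [Field K] [Algebra R K] [IsFractionRing R K]
    [Algebra K F] [IsScalarTower R K F] [FiniteDimensional K F] [Algebra.IsSeparable K F]
    [IsIntegrallyClosed R] (e : Module.Basis ι R (integralClosure R F)) :
    Module.finrank K F = Fintype.card ι := by
  have := IsIntegralClosure.isLocalization R K F (integralClosure R F)
  exact Module.finrank_eq_card_basis (e.localizationLocalization K (nonZeroDivisors R) F)

end FLTA.Carayol.Chart
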