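import Fermat.Agent.Carayol.Chart.Cover
import Fermat.Agent.Carayol.Chart.FieldHoms

/-!
# The étale model of the level-`N` field over the Hauptmodul line
-/

set_option autoImplicit false

noncomputable section

open Polynomial ModularCurve ModularCurve.IgusaScheme

namespace FLTA.Carayol.Chart

open FLTA.Smooth

variable {M N q : ℕ} [NeZero M] [NeZero N] [hq : Fact q.Prime]
  {t : ↥(modularFunctionFieldFull N)} {k : Type} [Field k] [IsAlgClosed k] [CharP k q]

theorem prime_natCast_zloc (π : Zloc q →+* k) : Prime (q : Zloc q) := by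
  refine ⟨Nat.cast_ne_zero.mpr hq.out.ne_zero, not_dvd_one_zloc q, fun a b hab => ?_⟩
  simp only [← map_zloc_eq_zero_iff q π, map_mul, mul_eq_zero] at hab ⊢
  exact hab

theorem fibreSubmonoid_denZ_le (hM : Haupt.IsHauptLevel M) (π : Zloc q →+* k) :
    Purity.fibreSubmonoid (q : Zloc q) (denZ M q) ≤ nonZeroDivisors (Zloc q)[X] := by
  refine Purity.fibreSubmonoid_le_nonZeroDivisors (prime_natCast_zloc π) ?_
  rintro ⟨u, hu⟩
  have h := congrArg (Polynomial.map π) hu
  rw [denZ, map_zloc, Polynomial.map_mul, map_C, map_natCast, CharP.cast_eq_zero, map_zero,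
    zero_mul] at h
  exact ((monic_jDen hM).map _).ne_zero h

set_option maxHeartbeats 800000 in
/-- The integral closure of the base ring of the line is free with unit discriminant. -/
theorem exists_model (hM : Haupt.IsHauptLevel M) (hMN : M ∣ N) (hqN : ¬ q ∣ N)
    (ht : IsTFull M N t) (π : Zloc q →+* k) :
    ∃ i : CoverBaseRing q (denZ M q) →+* ↥(modularFunctionFieldFull N), Function.Injective i ∧
      (∀ p, i (algebraMap (Zloc q)[X] (CoverBaseRing q (denZ M q)) p) =
        aeval t (p.map (GaloisRep.ratLocalizedAt q).subtype)) ∧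
      letI := i.toAlgebra
      Algebra.IsAlgebraic (CoverBaseRing q (denZ M q)) ↥(modularFunctionFieldFull N) ∧
      ∃ e : Module.Basis (Fin (Module.finrank
          (IntermediateField.adjoin ℚ ({t} : Set ↥(modularFunctionFieldFull N)))
          ↥(modularFunctionFieldFull N))) (CoverBaseRing q (denZ M q))
          (integralClosure (CoverBaseRing q (denZ M q)) ↥(modularFunctionFieldFull N)),
        IsUnit (Algebra.discr (CoverBaseRing q (denZ M q)) e) := by
  classical
  have := isIntegrallyClosed_chart (ℓ := q) (isChartParam_jFull N)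
  have := isFractionRing_chartAlg (ℓ := q) (isChartParam_jFull N)
  obtain ⟨θ, tA, Q, htA, S⟩ := exists_coverSetting_t π hM hMN hqN ht
  obtain ⟨Q', -, -, hQ'⟩ := S.exists_minimal_equation
  obtain ⟨n, e, he, -⟩ := S.exists_basis (hasEmbeddings_t π hM S) Q' hQ'
  let iR := S.baseToField.toAlgebra
  have hi₀X : evalX (polyHom N q (jFull N)).toRingHom t X = t := by simp [evalX]
  have hev : ∀ p, evalX (polyHom N q (jFull N)).toRingHom t p =
      aeval t (p.map (GaloisRep.ratLocalizedAt q).subtype) := fun p => by
    rw [polyHom_eq_aeval, hi₀X]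
  have hMle := fibreSubmonoid_denZ_le hM π
  have : IsDomain (CoverBaseRing q (denZ M q)) := IsLocalization.isDomain_localization hMle
  have := isPrincipalIdealRing_zloc q
  have : IsIntegrallyClosed (CoverBaseRing q (denZ M q)) :=
    isIntegrallyClosed_of_isLocalization _ _ hMle
  have hmem : ∀ r, S.baseToField r ∈
      IntermediateField.adjoin ℚ ({t} : Set ↥(modularFunctionFieldFull N)) := by
    intro r
    obtain ⟨p, y, rfl⟩ :=
      IsLocalization.exists_mk'_eq (Purity.fibreSubmonoid (q : Zloc q) (denZ M q)) r
    have h1 : S.baseToField (IsLocalization.mk' _ p y) *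
        evalX (polyHom N q (jFull N)).toRingHom t y = evalX (polyHom N q (jFull N)).toRingHom t p := by
      rw [← S.baseToField_algebraMap, ← S.baseToField_algebraMap, ← map_mul,
        IsLocalization.mk'_spec]
    rw [eq_div_iff (S.isUnit_evalX y).ne_zero |>.mpr h1]
    have hp : ∀ p, evalX (polyHom N q (jFull N)).toRingHom t p ∈
        IntermediateField.adjoin ℚ ({t} : Set ↥(modularFunctionFieldFull N)) := fun p => by
      simpa only [hi₀X] using polyHom_mem_adjoin (evalX (polyHom N q (jFull N)).toRingHom t) p
    exact div_mem (hp _) (hp _)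
  let iK := (S.baseToField.codRestrict _ hmem).toAlgebra
  have : IsScalarTower (CoverBaseRing q (denZ M q))
      (IntermediateField.adjoin ℚ ({t} : Set ↥(modularFunctionFieldFull N)))
      ↥(modularFunctionFieldFull N) :=
    IsScalarTower.of_algebraMap_eq (R := CoverBaseRing q (denZ M q))
      (S := IntermediateField.adjoin ℚ ({t} : Set ↥(modularFunctionFieldFull N)))
      (A := ↥(modularFunctionFieldFull N)) fun _ => rfl
  have : IsFractionRing (CoverBaseRing q (denZ M q))
      (IntermediateField.adjoin ℚ ({t} : Set ↥(modularFunctionFieldFull N))) :=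
    isFractionRing_baseRing _ S.evalX_injective hi₀X
      (Purity.fibreSubmonoid (q : Zloc q) (denZ M q)) (S.baseToField.codRestrict _ hmem)
      (fun p => S.baseToField_algebraMap p)
  have := ht.finiteDimensional hM
  have hn := (finrank_eq_card_of_model
    (IntermediateField.adjoin ℚ ({t} : Set ↥(modularFunctionFieldFull N))) e).trans
    (Fintype.card_fin n)
  refine ⟨S.baseToField, fun a b hab => ?_, fun p => by rw [S.baseToField_algebraMap, hev], ?_⟩
  · exact IsFractionRing.injective (CoverBaseRing q (denZ M q))
      (IntermediateField.adjoin ℚ ({t} : Set ↥(modularFunctionFieldFull N))) (Subtype.ext hab)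
  · refine ⟨(IsFractionRing.comap_isAlgebraic_iff
      (K := IntermediateField.adjoin ℚ ({t} : Set ↥(modularFunctionFieldFull N)))).mpr
      inferInstance, e.reindex (finCongr hn.symm), ?_⟩
    rw [Module.Basis.coe_reindex, Algebra.discr_reindex]
    exact he

end FLTA.Carayol.Chart
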