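import Fermat.Agent.Carayol.Chart.Cover
import Fermat.Agent.Carayol.Chart.Splits
import Fermat.Agent.Carayol.Chart.Model
import Fermat.Agent.Carayol.Chart.SeriesRing
import Fermat.Agent.Carayol.GlueLine

/-!
# Splitting over the Hauptmodul line away from the cusps
-/

set_option autoImplicit false

noncomputable section

open Polynomial IsLocalRing ModularCurve ModularCurve.IgusaScheme

namespace FLTA.Carayol.Chart

open FLTA.Smooth

variable {M N q : ℕ} [NeZero M] [NeZero N] [hq : Fact q.Prime]
  {t : ↥(modularFunctionFieldFull N)}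
variable {W : Type} [CommRing W] [IsDomain W] [CharZero W]

set_option maxHeartbeats 800000 in
theorem splitsAt_of_not_cusp (hM : Haupt.IsHauptLevel M) (hMN : M ∣ N) (hqN : ¬ q ∣ N)
    (ht : IsTFull M N t) [HenselianLocalRing W] [IsAlgClosed (ResidueField W)]
    [CharP (ResidueField W) q] {Ω : Type} [Field Ω] [CharZero Ω] [Algebra (PowerSeries W) Ω]
    [IsFractionRing (PowerSeries W) Ω] (t₀ : W) (ht₀ : IsUnit (aeval t₀ (Haupt.cuspPoly M))) :
    SplitsAt t (algebraMap (PowerSeries W) Ω (PowerSeries.X + PowerSeries.C t₀)) := by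
  classical
  obtain ⟨ζ, hζ⟩ := exists_zlocHom q W fun _ => isUnit_natCast_of_coprime q W
  set π : Zloc q →+* ResidueField W := (residue W).comp ζ with hπ
  obtain ⟨i₀, hi₀, hi₀p, halg, e, he⟩ := exists_model hM hMN hqN ht π
  let iR := i₀.toAlgebra
  have hMle := fibreSubmonoid_denZ_le hM π
  have : IsDomain (CoverBaseRing q (denZ M q)) := IsLocalization.isDomain_localization hMle
  have : FaithfulSMul (CoverBaseRing q (denZ M q)) ↥(modularFunctionFieldFull N) :=
    (faithfulSMul_iff_algebraMap_injective _ _).mpr hi₀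
  -- the point
  have := henselianLocalRing_powerSeries (W := W)
  have := isAlgClosed_residueField_powerSeries (W := W)
  let ev : (Zloc q)[X] →+* PowerSeries W := (evPt t₀ 1).comp (mapRingHom ζ)
  have hevu : ∀ y : Purity.fibreSubmonoid (q : Zloc q) (denZ M q), IsUnit (ev y) := by
    intro y
    obtain ⟨c, i, hc, u, hu⟩ := y.2
    have h1 : (y : (Zloc q)[X]) = C c * denZ M q ^ i + C (q : Zloc q) * u := by rw [← hu]; ring
    rw [PowerSeries.isUnit_iff_constantCoeff, RingHom.comp_apply, coe_mapRingHom,
      constantCoeff_evPt t₀ one_pos, h1]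
    simp only [Polynomial.map_add, Polynomial.map_mul, Polynomial.map_pow, map_C, eval_add,
      eval_mul, eval_pow, eval_C, denZ, map_zloc, map_natCast]
    rw [eval_map_algebraMap]
    refine (isUnit_map_iff (residue W) _).mp (isUnit_iff_ne_zero.mpr ?_)
    rw [map_add, map_mul, map_mul, map_pow, Polynomial.map_natCast, eval_natCast, map_natCast,
      CharP.cast_eq_zero, zero_mul, add_zero]
    exact mul_ne_zero ((hc.map ζ).map (residue W)).ne_zero
      (pow_ne_zero _ ((isUnit_aeval_jDen hM ht₀).map (residue W)).ne_zero)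
  let ψ : CoverBaseRing q (denZ M q) →+* PowerSeries W :=
    IsLocalization.lift (M := Purity.fibreSubmonoid (q : Zloc q) (denZ M q)) hevu
  have hψ : Function.Injective ψ := by
    have hinj : Function.Injective ev := (evPt_injective t₀ one_pos).comp (map_injective ζ hζ)
    refine (IsLocalization.lift_injective_iff (S := CoverBaseRing q (denZ M q)) hevu).mpr fun a b => ?_
    exact ⟨fun h => congrArg ev ((IsLocalization.injective (CoverBaseRing q (denZ M q)) hMle) h),
      fun h => congrArg _ (hinj h)⟩
  obtain ⟨φ, hφ, hφR⟩ := exists_fieldHoms e he (Ω := Ω) ψ hψ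
  refine ⟨φ, hφ, fun i => ?_⟩
  have h1 := hφR i (algebraMap (Zloc q)[X] (CoverBaseRing q (denZ M q)) X)
  rw [RingHom.algebraMap_toAlgebra, hi₀p, IsLocalization.lift_eq, Polynomial.map_X, aeval_X] at h1
  rw [h1]
  simp [ev, evPt_X, add_comm]

end FLTA.Carayol.Chart
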