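import Fermat.Agent.Carayol.Chart.TModel
import Fermat.Agent.Carayol.DVRExt
import Fermat.Agent.Carayol.Completion
import Fermat.Agent.Igusa.ZlocResidue
import Mathlib.RingTheory.AdicCompletion.Noetherian
import Mathlib.RingTheory.Discriminant
import Mathlib.RingTheory.Trace.Quotient
import Mathlib.RingTheory.AdjoinRoot

/-!
# The level-`N` field at the Gauss point of the line of the Hauptmodul

The equation of `FLTA.Carayol.Chart.TModel` over the completion of `W[T]` at `(q)` is irreducible
and separable modulo `q`: it defines one unramified complete discrete valuation ring, in whose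
residue field `T` is not a `q`-th power.
-/

set_option autoImplicit false

noncomputable section

open Polynomial IsLocalRing ModularCurve ModularCurve.IgusaScheme IntermediateField

namespace FLTA.Carayol.Chart

theorem evalInt_tOf_injective (M : ℕ) [NeZero M] (K : Type) [Field K] [CharZero K] :
    Function.Injective (evalInt (Haupt.tOf M K)) := fun P P' h => by
  rw [evalInt_apply, evalInt_apply, ← aeval_map_int, ← aeval_map_int] at h
  exact map_injective _ Int.cast_injective (Haupt.aeval_tOf_injective M h)

section Field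

variable {M N : ℕ} [NeZero M] [NeZero N] {t : ↥(modularFunctionFieldFull N)}

theorem IsTFull.evalInt_injective (ht : IsTFull M N t) : Function.Injective (evalInt t) := by
  refine Function.Injective.of_comp
    (f := algebraMap ↥(modularFunctionFieldFull N) (LaurentSeries ℚ)) ?_
  rw [← RingHom.coe_comp, comp_evalInt,
    show algebraMap ↥(modularFunctionFieldFull N) (LaurentSeries ℚ) t = Haupt.tOf M ℚ from ht]
  exact evalInt_tOf_injective M ℚ

/-- A root of the equation at a transcendental value of `t` gives an embedding of the field. -/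
theorem TModel.exists_hom (m : TModel M N t) (ht : IsTFull M N t) {L : Type*} [Field L]
    [CharZero L] {x y : L} (hx : Function.Injective (evalInt x))
    (hy : m.Q.eval₂ (evalInt x) y = 0) :
    ∃ φ : ↥(modularFunctionFieldFull N) →+* L, φ t = x ∧ φ m.θ = y := by
  let K0 := FractionRing ℤ[X]
  let j0 : K0 →+* ↥(modularFunctionFieldFull N) := IsFractionRing.lift ht.evalInt_injective
  have hj : ∀ P : ℤ[X], j0 (algebraMap ℤ[X] K0 P) = evalInt t P :=
    fun P => IsFractionRing.lift_algebraMap _ P
  let j1 : K0 →+* L := IsFractionRing.lift hx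
  have hj1 : ∀ P : ℤ[X], j1 (algebraMap ℤ[X] K0 P) = evalInt x P :=
    fun P => IsFractionRing.lift_algebraMap _ P
  let P0 := m.Q.map (algebraMap ℤ[X] K0)
  have : Fact (Irreducible P0) := ⟨m.irreducible⟩
  have h0 : P0.eval₂ j0 m.θ = 0 := by
    rw [eval₂_map, show j0.comp (algebraMap ℤ[X] K0) = evalInt t from RingHom.ext hj]
    exact m.eval_eq_zero
  have h1 : P0.eval₂ j1 y = 0 := by
    rw [eval₂_map, show j1.comp (algebraMap ℤ[X] K0) = evalInt x from RingHom.ext hj1]
    exact hy
  let e : AdjoinRoot P0 →+* ↥(modularFunctionFieldFull N) := AdjoinRoot.lift j0 m.θ h0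
  have het : e (AdjoinRoot.of P0 (algebraMap ℤ[X] K0 X)) = t := by
    rw [AdjoinRoot.lift_of, hj, evalInt_X]
  have heθ : e (AdjoinRoot.root P0) = m.θ := AdjoinRoot.lift_root _
  have hsurj : Function.Surjective e := by
    intro z
    have hz : z ∈ IntermediateField.adjoin ℚ ({t, m.θ} : Set _) := by rw [m.adjoin_eq]; trivial
    show z ∈ e.fieldRange
    induction hz using IntermediateField.adjoin_induction with
    | mem w hw =>
      rcases hw with rfl | rfl
      · exact RingHom.mem_fieldRange.mpr ⟨_, het⟩
      · exact RingHom.mem_fieldRange.mpr ⟨_, heθ⟩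
    | algebraMap c =>
      rw [eq_ratCast]
      exact SubfieldClass.ratCast_mem e.fieldRange c
    | add a b _ _ ha hb => exact add_mem ha hb
    | inv a _ ha => exact inv_mem ha
    | mul a b _ _ ha hb => exact mul_mem ha hb
  let e' := RingEquiv.ofBijective e ⟨e.injective, hsurj⟩
  refine ⟨(AdjoinRoot.lift j1 y h1).comp e'.symm.toRingHom, ?_, ?_⟩
  · show AdjoinRoot.lift j1 y h1 (e'.symm t) = x
    rw [show e'.symm t = AdjoinRoot.of P0 (algebraMap ℤ[X] K0 X) from
        e'.symm_apply_eq.mpr het.symm, AdjoinRoot.lift_of, hj1, evalInt_X]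
  · show AdjoinRoot.lift j1 y h1 (e'.symm m.θ) = y
    rw [show e'.symm m.θ = AdjoinRoot.root P0 from e'.symm_apply_eq.mpr heθ.symm,
      AdjoinRoot.lift_root]

/-- If the equation stays irreducible over a field `K`, bases of the field over `ℚ(t)` stay
independent. -/
theorem TModel.linearIndependent (m : TModel M N t) {K : Type*} [Field K] (x : K)
    (hirr : Irreducible (m.Q.map (evalInt x)))
    (ψ : ↥(modularFunctionFieldFull N) →+* AdjoinRoot (m.Q.map (evalInt x)))
    (hψt : ψ t = AdjoinRoot.of _ x) (hψθ : ψ m.θ = AdjoinRoot.root _)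
    (b : Module.Basis
      (Fin (Module.finrank
        (IntermediateField.adjoin ℚ ({t} : Set ↥(modularFunctionFieldFull N)))
        ↥(modularFunctionFieldFull N)))
      (IntermediateField.adjoin ℚ ({t} : Set ↥(modularFunctionFieldFull N)))
      ↥(modularFunctionFieldFull N)) :
    LinearIndependent K fun i => ψ (b i) := by
  have : Fact (Irreducible (m.Q.map (evalInt x))) := ⟨hirr⟩
  let pb := AdjoinRoot.powerBasis hirr.ne_zero
  have hrange : ∀ c : IntermediateField.adjoin ℚ ({t} : Set ↥(modularFunctionFieldFull N)),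
      ψ c ∈ (AdjoinRoot.of (m.Q.map (evalInt x))).fieldRange := by
    rintro ⟨c, hc⟩
    show ψ c ∈ (AdjoinRoot.of (m.Q.map (evalInt x))).fieldRange
    induction hc using IntermediateField.adjoin_induction with
    | mem w hw =>
      rw [Set.mem_singleton_iff.mp hw, hψt]
      exact RingHom.mem_fieldRange.mpr ⟨x, rfl⟩
    | algebraMap c =>
      rw [eq_ratCast, map_ratCast]
      exact SubfieldClass.ratCast_mem _ c
    | add a b _ _ ha hb => rw [map_add]; exact add_mem ha hb
    | inv a _ ha => rw [map_inv₀]; exact inv_mem ha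
    | mul a b _ _ ha hb => rw [map_mul]; exact mul_mem ha hb
  have hall : ∀ z, ψ z ∈ Submodule.span K (Set.range fun i => ψ (b i)) := by
    intro z
    rw [← b.sum_repr z, map_sum]
    refine Submodule.sum_mem _ fun i _ => ?_
    obtain ⟨c, hc⟩ := RingHom.mem_fieldRange.mp (hrange (b.repr z i))
    rw [IntermediateField.smul_def, smul_eq_mul, map_mul, ← hc, ← AdjoinRoot.algebraMap_eq,
      ← Algebra.smul_def]
    exact Submodule.smul_mem _ c (Submodule.subset_span ⟨i, rfl⟩)
  have hspan : ⊤ ≤ Submodule.span K (Set.range fun i => ψ (b i)) := by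
    rw [← pb.basis.span_eq, Submodule.span_le]
    rintro _ ⟨i, rfl⟩
    rw [pb.basis_eq_pow, AdjoinRoot.powerBasis_gen, ← hψθ, ← map_pow]
    exact hall _
  refine linearIndependent_of_top_le_span_of_card_eq_finrank hspan ?_
  rw [Fintype.card_fin, pb.finrank, AdjoinRoot.powerBasis_dim, m.monic.natDegree_map,
    m.natDegree_eq]

end Field

section Generic

variable {H : Type*} [CommRing H] [IsDomain H]

/-- The fraction field of `H[Y] / φ` is `Frac H [Y] / φ`. -/
theorem exists_adjoinRoot_fraction_equiv [IsIntegrallyClosed H] {φ : H[X]} (hφ : φ.Monic)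
    (hirr : Irreducible φ) [IsDomain (AdjoinRoot φ)] :
    ∃ g : AdjoinRoot (φ.map (algebraMap H (FractionRing H))) ≃+* FractionRing (AdjoinRoot φ),
      (∀ h : H, g (AdjoinRoot.of _ (algebraMap H (FractionRing H) h)) =
        algebraMap (AdjoinRoot φ) _ (AdjoinRoot.of φ h)) ∧
      g (AdjoinRoot.root _) = algebraMap (AdjoinRoot φ) _ (AdjoinRoot.root φ) := by
  have : Fact (Irreducible (φ.map (algebraMap H (FractionRing H)))) :=
    ⟨(hφ.irreducible_iff_irreducible_map_fraction_map).mp hirr⟩
  let a := algebraMap (AdjoinRoot φ) (FractionRing (AdjoinRoot φ))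
  have := hφ.free_adjoinRoot
  have hinj : Function.Injective (a.comp (AdjoinRoot.of φ)) :=
    (IsFractionRing.injective (AdjoinRoot φ) _).comp
      (FaithfulSMul.algebraMap_injective H (AdjoinRoot φ))
  let j : FractionRing H →+* FractionRing (AdjoinRoot φ) := IsFractionRing.lift hinj
  have hj : ∀ h, j (algebraMap H _ h) = a (AdjoinRoot.of φ h) :=
    fun h => IsFractionRing.lift_algebraMap _ h
  have h0 : (φ.map (algebraMap H (FractionRing H))).eval₂ j (a (AdjoinRoot.root φ)) = 0 := by
    rw [eval₂_map, show j.comp (algebraMap H _) = a.comp (AdjoinRoot.of φ) from RingHom.ext hj,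
      ← hom_eval₂, AdjoinRoot.eval₂_root, map_zero]
  let g0 := AdjoinRoot.lift j (a (AdjoinRoot.root φ)) h0
  have hA : ∀ z, a z ∈ g0.fieldRange := by
    intro z
    obtain ⟨p, rfl⟩ := AdjoinRoot.mk_surjective z
    rw [← AdjoinRoot.aeval_eq, aeval_def, hom_eval₂, eval₂_eq_sum_range]
    refine sum_mem fun i _ => mul_mem ?_ (pow_mem ?_ i)
    · exact RingHom.mem_fieldRange.mpr
        ⟨AdjoinRoot.of _ (algebraMap H _ (p.coeff i)), by rw [AdjoinRoot.lift_of, hj]; rfl⟩
    · exact RingHom.mem_fieldRange.mpr ⟨AdjoinRoot.root _, AdjoinRoot.lift_root _⟩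
  have hsurj : Function.Surjective g0 := by
    intro y
    obtain ⟨u, v, -, rfl⟩ := IsFractionRing.div_surjective (AdjoinRoot φ) y
    exact RingHom.mem_fieldRange.mp (div_mem (hA u) (hA v))
  refine ⟨RingEquiv.ofBijective g0 ⟨g0.injective, hsurj⟩, fun h => ?_, ?_⟩
  · exact Eq.trans (AdjoinRoot.lift_of h0) (hj h)
  · exact AdjoinRoot.lift_root h0

end Generic

section GenericField

variable {M N : ℕ} [NeZero M] [NeZero N] {t : ↥(modularFunctionFieldFull N)}

/-- If the equation stays irreducible over an integrally closed domain, the field embeds into the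
fraction field of the extension with independent bases. -/
theorem TModel.exists_hom_fraction (m : TModel M N t) (ht : IsTFull M N t) {H : Type*}
    [CommRing H] [IsDomain H] [IsIntegrallyClosed H] [CharZero H] (x : H)
    (hx : Function.Injective (evalInt x)) (P : H[X]) (hP : P = m.Q.map (evalInt x))
    (hirr : Irreducible P) [IsDomain (AdjoinRoot P)] :
    ∃ φ : ↥(modularFunctionFieldFull N) →+* FractionRing (AdjoinRoot P),
      φ t = algebraMap _ _ (AdjoinRoot.of P x) ∧
      φ m.θ = algebraMap _ _ (AdjoinRoot.root P) ∧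
      ∀ b : Module.Basis
        (Fin (Module.finrank
          (IntermediateField.adjoin ℚ ({t} : Set ↥(modularFunctionFieldFull N)))
          ↥(modularFunctionFieldFull N)))
        (IntermediateField.adjoin ℚ ({t} : Set ↥(modularFunctionFieldFull N)))
        ↥(modularFunctionFieldFull N),
        LinearIndependent H fun i => φ (b i) := by
  have hmon : P.Monic := hP ▸ m.monic.map _
  let K := FractionRing H
  have hPK : P.map (algebraMap H K) = m.Q.map (evalInt (algebraMap H K x)) := by
    rw [hP, Polynomial.map_map, comp_evalInt]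
  have hR : Irreducible (m.Q.map (evalInt (algebraMap H K x))) :=
    hPK ▸ (hmon.irreducible_iff_irreducible_map_fraction_map).mp hirr
  have hxinj : Function.Injective (evalInt (algebraMap H K x)) := by
    rw [← comp_evalInt, RingHom.coe_comp]
    exact (IsFractionRing.injective H K).comp hx
  obtain ⟨g0, hg0, hg0root⟩ := exists_adjoinRoot_fraction_equiv hmon hirr
  obtain ⟨g, hg, hgroot⟩ : ∃ g : AdjoinRoot (m.Q.map (evalInt (algebraMap H K x))) ≃+*
      FractionRing (AdjoinRoot P),
      (∀ h : H, g (AdjoinRoot.of _ (algebraMap H K h)) =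
        algebraMap _ _ (AdjoinRoot.of P h)) ∧
      g (AdjoinRoot.root _) = algebraMap _ _ (AdjoinRoot.root P) := by
    rw [← hPK]
    exact ⟨g0, hg0, hg0root⟩
  have := Fact.mk hR
  let ι := AdjoinRoot.of (m.Q.map (evalInt (algebraMap H K x)))
  have hι : Function.Injective ι := RingHom.injective ι
  have : CharZero (AdjoinRoot (m.Q.map (evalInt (algebraMap H K x)))) :=
    charZero_of_injective_ringHom (f := ι.comp (algebraMap H K))
      (hι.comp (IsFractionRing.injective H K))
  have hinj : Function.Injective
      (evalInt (AdjoinRoot.of (m.Q.map (evalInt (algebraMap H K x))) (algebraMap H K x))) := by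
    rw [← comp_evalInt (AdjoinRoot.of _) (algebraMap H K x), RingHom.coe_comp]
    exact hι.comp hxinj
  obtain ⟨ψ, hψt, hψθ⟩ := m.exists_hom ht hinj (y := AdjoinRoot.root _) (by
    rw [← comp_evalInt (AdjoinRoot.of _) (algebraMap H K x), ← eval₂_map]
    exact AdjoinRoot.eval₂_root _)
  refine ⟨g.toRingHom.comp ψ, ?_, ?_, fun b => ?_⟩
  · show g (ψ t) = _
    rw [hψt, hg]
  · show g (ψ m.θ) = _
    rw [hψθ, hgroot]
  · have hli := (m.linearIndependent _ hR ψ hψt hψθ b).restrict_scalars (R := H) (by
      intro a a' h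
      apply IsFractionRing.injective H K
      simpa [Algebra.smul_def] using h)
    let gl : AdjoinRoot (m.Q.map (evalInt (algebraMap H K x))) →ₗ[H]
        FractionRing (AdjoinRoot P) :=
      { toFun := g
        map_add' := map_add g
        map_smul' := fun h z => by
          rw [RingHom.id_apply, Algebra.smul_def, Algebra.smul_def, map_mul]
          refine congrArg (· * g z) ((hg h).trans ?_)
          rw [IsScalarTower.algebraMap_apply H (AdjoinRoot P) (FractionRing (AdjoinRoot P))]
          rfl }
    exact hli.map' gl (LinearMap.ker_eq_bot.mpr g.injective)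

end GenericField

section Generic

variable {H : Type*} [CommRing H] [IsDomain H]

variable [IsLocalRing H]

attribute [local instance] Ideal.Quotient.field in
/-- The discriminant of a residually separable inert extension is a unit. -/
theorem isUnit_discr_inert {π : H} {φ : H[X]} (hπ : maximalIdeal H = Ideal.span {π})
    (hφ : φ.Monic) (hirr : Irreducible (φ.map (residue H)))
    (hsep : (φ.map (residue H)).Separable) {ι : Type*} [Fintype ι] [DecidableEq ι]
    (b : Module.Basis ι H (AdjoinRoot φ)) : IsUnit (Algebra.discr H b) := by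
  have := hφ.finite_adjoinRoot
  have := hφ.free_adjoinRoot
  let p := maximalIdeal H
  let P : Ideal (AdjoinRoot φ) := p.map (algebraMap H (AdjoinRoot φ))
  have : P.IsMaximal := by
    show (p.map (algebraMap H (AdjoinRoot φ))).IsMaximal
    rw [show p = _ from hπ, Ideal.map_span, Set.image_singleton]
    exact isMaximal_span_inert hπ hφ hirr
  let r : AdjoinRoot φ ⧸ P := Ideal.Quotient.mk P (AdjoinRoot.root φ)
  have hr : aeval r (φ.map (Ideal.Quotient.mk p)) = 0 := by
    rw [aeval_def, eval₂_map, show (algebraMap (H ⧸ p) (AdjoinRoot φ ⧸ P)).comp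
      (Ideal.Quotient.mk p) = (Ideal.Quotient.mk P).comp (AdjoinRoot.of φ) from RingHom.ext
        fun _ => rfl, ← hom_eval₂, AdjoinRoot.eval₂_root, map_zero]
  have hrsep : IsSeparable (H ⧸ p) r :=
    Polynomial.Separable.of_dvd (show (φ.map (Ideal.Quotient.mk p)).Separable from hsep)
      (minpoly.dvd _ _ hr)
  have : Algebra.IsSeparable (H ⧸ p) (AdjoinRoot φ ⧸ P) := by
    have := IntermediateField.isSeparable_adjoin_simple_iff_isSeparable (H ⧸ p)
      (AdjoinRoot φ ⧸ P) |>.mpr hrsep
    refine ⟨fun z => ?_⟩
    have hz : z ∈ IntermediateField.adjoin (H ⧸ p) {r} := by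
      obtain ⟨z, rfl⟩ := Ideal.Quotient.mk_surjective z
      obtain ⟨f, rfl⟩ := AdjoinRoot.mk_surjective z
      rw [← AdjoinRoot.aeval_eq, aeval_def, hom_eval₂, eval₂_eq_sum_range]
      refine sum_mem fun i _ => mul_mem ?_ (pow_mem (mem_adjoin_simple_self _ r) i)
      exact IntermediateField.algebraMap_mem (IntermediateField.adjoin (H ⧸ p) {r})
        (Ideal.Quotient.mk p (f.coeff i))
    have h := Algebra.IsSeparable.isSeparable (H ⧸ p)
      (⟨z, hz⟩ : IntermediateField.adjoin (H ⧸ p) {r})
    rwa [IsSeparable, IntermediateField.minpoly_eq] at h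
  rw [← notMem_maximalIdeal, ← Ideal.Quotient.eq_zero_iff_mem, Algebra.discr_def,
    RingHom.map_det]
  have h : (Ideal.Quotient.mk p).mapMatrix (Algebra.traceMatrix H b) =
      Algebra.traceMatrix (H ⧸ p) (basisQuotient b) := by
    ext i j
    rw [RingHom.mapMatrix_apply, Matrix.map_apply, Algebra.traceMatrix_apply,
      Algebra.traceForm_apply, Algebra.traceMatrix_apply, Algebra.traceForm_apply,
      basisQuotient_apply, basisQuotient_apply, ← Algebra.trace_quotient_mk, map_mul]
  have := Module.Finite.of_basis (basisQuotient b)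
  rw [h, ← Algebra.discr_def]
  exact Algebra.discr_not_zero_of_basis (H ⧸ p) (basisQuotient b)

end Generic

section Gauss

variable {M N q : ℕ} [NeZero M] [NeZero N] [hq : Fact q.Prime]
  {t : ↥(modularFunctionFieldFull N)}
variable {W : Type} [CommRing W] [IsDomain W] [IsDiscreteValuationRing W]

theorem charP_residueField (hmax : maximalIdeal W = Ideal.span {(q : W)}) :
    CharP (ResidueField W) q := by
  refine (CharP.charP_iff_prime_eq_zero hq.out).mpr ?_
  rw [← map_natCast (residue W), residue_eq_zero_iff, hmax]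
  exact Ideal.mem_span_singleton_self _

variable [Fact (Prime (C (q : W) : W[X]))]

/-- The reduction at the Gauss point, with values in the field of the Hauptmodul. -/
theorem exists_gaussRes (hmax : maximalIdeal W = Ideal.span {(q : W)}) (M : ℕ) [NeZero M] :
    ∃ F : HatAt (C (q : W) : W[X]) →+* ↥(tField M (ResidueField W)), IsLocalHom F ∧
      F (toHat _ X) = AdjoinSimple.gen (ResidueField W) (Haupt.tOf M (ResidueField W)) := by
  let g := AdjoinSimple.gen (ResidueField W) (Haupt.tOf M (ResidueField W))
  let f : W[X] →+* ↥(tField M (ResidueField W)) :=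
    eval₂RingHom ((algebraMap (ResidueField W) _).comp (residue W)) g
  have hf0 : f (C (q : W)) = 0 := by
    show eval₂ _ g (C (q : W)) = 0
    rw [eval₂_C, RingHom.comp_apply, (residue_eq_zero_iff _).mpr
      (hmax ▸ Ideal.mem_span_singleton_self _), map_zero]
  have hu : ∀ r : W[X], ¬ C (q : W) ∣ r → IsUnit (f r) := by
    intro r hr
    refine Ne.isUnit fun h0 => hr ?_
    have h1 : aeval (Haupt.tOf M (ResidueField W)) (r.map (residue W)) = 0 := by
      have h2 := congrArg (algebraMap ↥(tField M (ResidueField W))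
        (LaurentSeries (ResidueField W))) (h0 : f r = 0)
      rw [show f r = r.eval₂ ((algebraMap (ResidueField W)
          ↥(tField M (ResidueField W))).comp (residue W)) g from rfl,
        hom_eval₂, map_zero] at h2
      rw [aeval_def, eval₂_map]
      exact h2
    have h3 : r.map (residue W) = 0 :=
      Haupt.aeval_tOf_injective M (h1.trans (map_zero _).symm)
    rw [C_dvd_iff_dvd_coeff]
    intro i
    rw [← Ideal.mem_span_singleton, ← hmax, ← residue_eq_zero_iff, ← coeff_map,
      h3, coeff_zero]
  have : IsAdicComplete (maximalIdeal ↥(tField M (ResidueField W)))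
      ↥(tField M (ResidueField W)) := by
    rw [maximalIdeal_eq_bot]
    infer_instance
  obtain ⟨F, hF⟩ := exists_hat_lift (C (q : W)) f (by rw [hf0]; exact zero_mem _) hu
  refine ⟨F, ⟨fun a ha => ?_⟩, ?_⟩
  · by_contra hna
    have ha' : a ∈ maximalIdeal _ := hna
    rw [maximalIdeal_hatAt, Ideal.mem_span_singleton] at ha'
    obtain ⟨c, rfl⟩ := ha'
    rw [map_mul, ← RingHom.comp_apply, hF, hf0, zero_mul] at ha
    exact not_isUnit_zero ha
  · rw [← RingHom.comp_apply, hF]
    exact eval₂_X _ _

/-- The equation at the Gauss point. -/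
def TModel.gaussPoly (m : TModel M N t) (q : ℕ) (W : Type) [CommRing W]
    [Fact (Prime (C (q : W) : W[X]))] : (HatAt (C (q : W) : W[X]))[X] :=
  m.Q.map (evalInt (toHat (C (q : W) : W[X]) X))

theorem TModel.monic_gaussPoly (m : TModel M N t) : (m.gaussPoly q W).Monic := m.monic.map _

theorem TModel.natDegree_gaussPoly (m : TModel M N t) :
    (m.gaussPoly q W).natDegree = m.Q.natDegree := m.monic.natDegree_map _

theorem TModel.gaussPoly_residue (m : TModel M N t)
    (hmax : maximalIdeal W = Ideal.span {(q : W)}) (hqN : ¬ q ∣ N) :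
    Irreducible ((m.gaussPoly q W).map (residue _)) ∧
      ((m.gaussPoly q W).map (residue _)).Separable := by
  have := charP_residueField hmax
  letI : Algebra (ZMod q) (ResidueField W) := ZMod.algebra _ q
  letI : Algebra ↥(GaloisRep.ratLocalizedAt q) (ResidueField W) :=
    ((algebraMap (ZMod q) (ResidueField W)).comp (FLTA.Igusa.zlocToZMod q)).toAlgebra
  obtain ⟨F, hloc, hF⟩ := exists_gaussRes hmax M
  have h := m.mod_q q (ResidueField W) hqN
  have e : ((m.gaussPoly q W).map (residue _)).map (ResidueField.lift F) =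
      m.Q.map (evalInt (AdjoinSimple.gen (ResidueField W) (Haupt.tOf M (ResidueField W)))) := by
    rw [TModel.gaussPoly, Polynomial.map_map, Polynomial.map_map, comp_evalInt, RingHom.comp_apply,
      ResidueField.lift_residue_apply, hF]
  rw [← e] at h
  exact ⟨Monic.irreducible_of_irreducible_map _ _ (m.monic_gaussPoly.map _) h.1,
    (separable_map _).mp h.2⟩

theorem TModel.irreducible_gaussPoly (m : TModel M N t)
    (hmax : maximalIdeal W = Ideal.span {(q : W)}) (hqN : ¬ q ∣ N) :
    Irreducible (m.gaussPoly q W) :=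
  Monic.irreducible_of_irreducible_map _ _ m.monic_gaussPoly (m.gaussPoly_residue hmax hqN).1

/-- `T` is not a `q`-th power in the residue field. -/
theorem TModel.residue_X_not_pow (m : TModel M N t)
    (hmax : maximalIdeal W = Ideal.span {(q : W)})
    [IsLocalRing (AdjoinRoot (m.gaussPoly q W))]
    (hA : maximalIdeal (AdjoinRoot (m.gaussPoly q W)) = Ideal.span {(q : AdjoinRoot _)})
    (c : ResidueField (AdjoinRoot (m.gaussPoly q W))) :
    c ^ q ≠ residue _ (AdjoinRoot.of (m.gaussPoly q W) (toHat _ X)) := by
  intro hc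
  have := charP_residueField hmax
  obtain ⟨F, -, hF⟩ := exists_gaussRes hmax M
  let τ := coeffMap (Int.castRingHom (ResidueField W)) m.τ
  let F' := (algebraMap ↥(tField M (ResidueField W)) (LaurentSeries (ResidueField W))).comp F
  have hF' : F' (toHat _ X) = Haupt.tOf M (ResidueField W) := by
    show algebraMap _ _ (F (toHat _ X)) = _
    rw [hF]
    rfl
  have h0 : (m.gaussPoly q W).eval₂ F' τ = 0 := by
    rw [TModel.gaussPoly, eval₂_map, comp_evalInt, hF']
    have h := congrArg (coeffMap (Int.castRingHom (ResidueField W))) m.eval_series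
    rw [hom_eval₂, comp_evalInt, map_zero] at h
    exact h
  let G := AdjoinRoot.lift F' τ h0
  obtain ⟨b, rfl⟩ := residue_surjective c
  rw [← map_pow, ← sub_eq_zero, ← map_sub, residue_eq_zero_iff, hA,
    Ideal.mem_span_singleton'] at hc
  obtain ⟨d, hd⟩ := hc
  have h1 := congrArg G hd
  have hq0 : G (q : AdjoinRoot (m.gaussPoly q W)) = 0 := (map_natCast G q).trans
    ((map_natCast (algebraMap (ResidueField W) (LaurentSeries (ResidueField W))) q).symm.trans
      (by rw [CharP.cast_eq_zero, map_zero]))
  rw [map_mul, hq0, mul_zero, map_sub, map_pow, AdjoinRoot.lift_of, hF'] at h1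
  have h2 : G b ^ q = Haupt.tOf M (ResidueField W) := sub_eq_zero.mp h1.symm
  have hne : G b ≠ 0 := by
    intro h
    rw [h, zero_pow hq.out.ne_zero] at h2
    have := Haupt.coeff_tOf_pow_self M (R := ResidueField W) 1
    rw [pow_one, ← h2] at this
    simp at this
  have h3 := congrArg HahnSeries.order h2
  rw [HahnSeries.order_pow, nsmul_eq_mul] at h3
  have h4 : (Haupt.tOf M (ResidueField W)).order = -1 := by
    have hc1 := Haupt.coeff_tOf_pow_self M (R := ResidueField W) 1
    rw [pow_one, Nat.cast_one] at hc1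
    refine le_antisymm (HahnSeries.order_le_of_coeff_ne_zero (by rw [hc1]; exact one_ne_zero)) ?_
    refine le_of_not_gt fun hlt => ?_
    have := Haupt.coeff_tOf_pow_of_lt M (R := ResidueField W) (m := 1) (by exact_mod_cast hlt)
    rw [pow_one] at this
    exact (h2 ▸ pow_ne_zero q hne) (HahnSeries.coeff_order_eq_zero.mp this)
  rw [h4] at h3
  have h5 : (q : ℤ) ∣ 1 := ⟨-(G b).order, by rw [mul_neg, h3, neg_neg]⟩
  exact hq.out.ne_one (Nat.dvd_one.mp (Int.natCast_dvd_natCast.mp h5))

variable [CharZero W] [IsAdicComplete (maximalIdeal W) W]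

theorem evalInt_toHat_injective :
    Function.Injective (evalInt (toHat (C (q : W) : W[X]) X)) := by
  rw [show evalInt (toHat (C (q : W) : W[X]) X) =
    (toHat _).comp (mapRingHom (Int.castRingHom W)) from intHom_ext (by simp), RingHom.coe_comp]
  exact (toHat_injective _).comp (map_injective _ Int.cast_injective)

/-- Inert extensions with separable residue polynomial. -/
theorem isDVR_complete_inert {H : Type} [CommRing H] [IsDomain H] [IsDiscreteValuationRing H]
    [IsAdicComplete (maximalIdeal H) H] (hπ : maximalIdeal H = Ideal.span {(q : H)}) {P : H[X]}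
    (hmon : P.Monic) (hres : Irreducible (P.map (residue H))) :
    ∃ (_ : IsDomain (AdjoinRoot P)) (_ : IsDiscreteValuationRing (AdjoinRoot P)),
      IsAdicComplete (maximalIdeal (AdjoinRoot P)) (AdjoinRoot P) ∧
      maximalIdeal (AdjoinRoot P) = Ideal.span {(q : AdjoinRoot P)} := by
  have hirr : Irreducible P := Monic.irreducible_of_irreducible_map _ _ hmon hres
  have hdom := isDomain_adjoinRoot_of_irreducible hirr
  have := isLocalRing_inert hπ hmon hres
  refine ⟨hdom, isDiscreteValuationRing_inert hπ hmon hres,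
    finite_adjoinRoot_complete hmon (hmon.natDegree_map (residue H) ▸ hres.natDegree_pos), ?_⟩
  rw [maximalIdeal_inert hπ hmon hres, map_natCast]

/-- The completion at the Gauss point. -/
theorem TModel.exists_gauss_model (m : TModel M N t) (ht : IsTFull M N t) (hqN : ¬ q ∣ N)
    (hmax : maximalIdeal W = Ideal.span {(q : W)}) :
    ∃ (_ : IsDomain (AdjoinRoot (m.gaussPoly q W)))
      (_ : IsDiscreteValuationRing (AdjoinRoot (m.gaussPoly q W))),
      IsAdicComplete (maximalIdeal (AdjoinRoot (m.gaussPoly q W)))
          (AdjoinRoot (m.gaussPoly q W)) ∧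
      maximalIdeal (AdjoinRoot (m.gaussPoly q W)) = Ideal.span {(q : AdjoinRoot _)} ∧
      (∀ c : ResidueField (AdjoinRoot (m.gaussPoly q W)),
        c ^ q ≠ residue _ (AdjoinRoot.of (m.gaussPoly q W) (toHat _ X))) ∧
      (∃ b : Module.Basis
          (Fin (Module.finrank
            (IntermediateField.adjoin ℚ ({t} : Set ↥(modularFunctionFieldFull N)))
            ↥(modularFunctionFieldFull N))) (HatAt (C (q : W) : W[X]))
            (AdjoinRoot (m.gaussPoly q W)),
        IsUnit (Algebra.discr (HatAt (C (q : W) : W[X])) b)) ∧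
      ∃ φ : ↥(modularFunctionFieldFull N) →+* FractionRing (AdjoinRoot (m.gaussPoly q W)),
        φ t = algebraMap _ _ (AdjoinRoot.of (m.gaussPoly q W) (toHat _ X)) ∧
        φ m.θ = algebraMap _ _ (AdjoinRoot.root (m.gaussPoly q W)) ∧
        ∀ b : Module.Basis
          (Fin (Module.finrank
            (IntermediateField.adjoin ℚ ({t} : Set ↥(modularFunctionFieldFull N)))
            ↥(modularFunctionFieldFull N)))
          (IntermediateField.adjoin ℚ ({t} : Set ↥(modularFunctionFieldFull N)))
          ↥(modularFunctionFieldFull N),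
          LinearIndependent (HatAt (C (q : W) : W[X])) fun i => φ (b i) := by
  have hcast : toHat (C (q : W) : W[X]) (C (q : W)) = (q : HatAt (C (q : W) : W[X])) :=
    map_natCast ((toHat (C (q : W) : W[X])).comp Polynomial.C) q
  have hπ : maximalIdeal (HatAt (C (q : W) : W[X])) =
      Ideal.span {(q : HatAt (C (q : W) : W[X]))} :=
    (maximalIdeal_hatAt _).trans (congrArg (fun a => Ideal.span {a}) hcast)
  obtain ⟨hres, hsep⟩ := m.gaussPoly_residue hmax hqN
  obtain ⟨hdom, hdvr, hcomp, hAmax⟩ := isDVR_complete_inert hπ m.monic_gaussPoly hres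
  have : CharZero (HatAt (C (q : W) : W[X])) := by
    refine ⟨fun a b h => ?_⟩
    refine Nat.cast_injective (R := W[X]) (toHat_injective (C (q : W) : W[X]) ?_)
    exact (map_natCast _ a).trans (h.trans (map_natCast _ b).symm)
  refine ⟨hdom, hdvr, hcomp, hAmax, m.residue_X_not_pow hmax hAmax, ⟨?_, ?_⟩,
    m.exists_hom_fraction ht (toHat _ X) evalInt_toHat_injective (m.gaussPoly q W) rfl
      (m.irreducible_gaussPoly hmax hqN)⟩
  · exact (AdjoinRoot.powerBasis' m.monic_gaussPoly).basis.reindex
      (finCongr (by rw [AdjoinRoot.powerBasis'_dim, m.natDegree_gaussPoly, m.natDegree_eq]))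
  · exact isUnit_discr_inert hπ m.monic_gaussPoly hres hsep _

end Gauss

end FLTA.Carayol.Chart
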