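import Fermat.Agent.Carayol.Haupt.CuspValues
import Fermat.Agent.Carayol.Haupt.Poly

/-!
# Rational functions of `t` equal to `j`

If `j D(t) - P(t)` has no terms in degrees `≤ 0` at `∞`, and `D` vanishes to the order of the
width at the finite cusps, then `j D(t) = P(t)`.
-/

set_option autoImplicit false

noncomputable section

open UpperHalfPlane Function CongruenceSubgroup FLTA.Bridge Filter
open scoped MatrixGroups Topology Manifold ModularForm

namespace FLTA.Carayol.Chart

open Haupt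

variable (L : ℕ) [NeZero L]

/-- `j` as a Laurent series over `ℤ`. -/
def jInt : LaurentSeries ℤ :=
  HahnSeries.single (-1 : ℤ) 1 * HahnSeries.ofPowerSeries ℤ ℤ ModularCurve.jNum

theorem coeffMap_jInt {R : Type*} [Field R] [Algebra ℚ R] :
    ModularCurve.coeffMap (Int.castRingHom R) jInt = ModularCurve.coeffEmb R ModularCurve.jq := by
  rw [jInt, ModularCurve.jq, ModularCurve.coeffEmb, map_mul, map_mul, ModularCurve.coeffMap_single,
    ModularCurve.coeffMap_single, (Int.castRingHom R).map_one, (algebraMap ℚ R).map_one,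
    ModularCurve.coeffMap_ofPowerSeries,
    ModularCurve.coeffMap_ofPowerSeries, ModularCurve.jNumQ, ← RingHom.comp_apply
      (PowerSeries.map (algebraMap ℚ R)), ← PowerSeries.map_comp,
    RingHom.ext_int ((algebraMap ℚ R).comp (Int.castRingHom ℚ)) (Int.castRingHom R)]

/-- `D(t)` is `O(q)` at a finite cusp. -/
theorem exists_tendsto_eval_div_qFun (hL : IsHauptLevel L) {D : Polynomial ℂ}
    (h0 : Polynomial.X ^ L ∣ D)
    (hmid : ∀ (ℓ : ℕ) (i : ℤ), L = ℓ * ℓ → i * i = 1 → D.IsRoot (midConst L ℓ i))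
    {g : SL(2, ℤ)} (hg : g ∉ Gamma0 L) :
    ∃ w, Tendsto (fun τ => D.eval (tFun L (g • τ)) / qFun τ) atImInfty (𝓝 w) := by
  obtain ⟨ℓ, hℓp, hℓ, hℓL⟩ := hL.exists_sq
  rcases exists_rep L hℓp hℓ hℓL g with h | ⟨γ, hγ, j, rfl⟩ | ⟨γ, hγ, i, hi, rfl⟩
  · exact absurd h hg
  · obtain ⟨Q, rfl⟩ := h0
    have hσ : Tendsto (fun τ => divTau L (ModularGroup.T ^ j • τ)) atImInfty atImInfty :=
      (tendsto_divTau L).comp (T_zpow_smul_tendsto j)
    have h1 := (((tendsto_qFun_mul_tFun L).comp hσ).inv₀ one_ne_zero).pow L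
    have h2 : Tendsto (fun τ => tFun L ((ModularGroup.S * ModularGroup.T ^ j) • τ)) atImInfty
        (𝓝 0) := by
      simpa only [mul_smul] using! (tendsto_tFun_S L hL).comp (T_zpow_smul_tendsto j)
    refine ⟨_, ((h1.const_mul (frickeConst L ^ L)).mul
      ((Q.continuous.tendsto 0).comp h2)).congr fun τ => ?_⟩
    have hq : qFun (divTau L (ModularGroup.T ^ j • τ)) ^ L = qFun τ := by
      rw [← qFun_scaleTau, scaleTau_divTau, T_zpow_smul_eq, qFun_vadd_int]
    have := tFun_ne_zero L (divTau L (ModularGroup.T ^ j • τ))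
    have := qFun_ne_zero τ
    simp only [comp_apply, mul_smul, tFun_smul L hL hγ, tFun_S_smul L hL, Polynomial.eval_mul,
      Polynomial.eval_pow, Polynomial.eval_X, mul_pow, inv_pow, hq]
    field_simp
  · obtain ⟨Q, rfl⟩ := Polynomial.dvd_iff_isRoot.mpr (hmid ℓ i hℓL hi)
    have h1 := (((tendsto_qFun_mul_tFun L).comp (tendsto_vadd_atImInfty ((i : ℝ) / ℓ))).inv₀
      one_ne_zero).const_mul (frickeConst L)
    have h2 := (Q.continuous.tendsto _).comp (tendsto_tFun_mid L hL hℓL hi)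
    refine ⟨_, (h1.mul h2).congr fun τ => ?_⟩
    have := tFun_ne_zero L (shiftBy ℓ i τ)
    have := qFun_ne_zero τ
    have := cuspRoot_ne_zero ℓ i
    simp only [comp_apply, show ((i : ℝ) / ℓ) +ᵥ τ = shiftBy ℓ i τ from rfl, qFun_shiftBy,
      mul_smul, tFun_smul L hL hγ, Polynomial.eval_mul, Polynomial.eval_sub, Polynomial.eval_X,
      Polynomial.eval_C]
    rw [tFun_mid_eq L hL hℓL hi τ, add_sub_cancel_left]
    field_simp

/-- The criterion. -/
theorem jInt_mul_aeval_eq (hL : IsHauptLevel L) {D P : Polynomial ℤ}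
    (h0 : Polynomial.X ^ L ∣ D)
    (hmid : ∀ (ℓ : ℕ) (i : ℤ), L = ℓ * ℓ → i * i = 1 →
      (D.map (Int.castRingHom ℂ)).IsRoot (midConst L ℓ i))
    (hcoeff : ∀ n : ℤ, n ≤ 0 →
      (jInt * Polynomial.aeval (tSeries L) D - Polynomial.aeval (tSeries L) P).coeff n = 0) :
    jInt * Polynomial.aeval (tSeries L) D = Polynomial.aeval (tSeries L) P := by
  set Dc := D.map (Int.castRingHom ℂ)
  set Pc := P.map (Int.castRingHom ℂ)
  set F : ModHol L := jMod L * Polynomial.aeval (tMod L hL) Dc - Polynomial.aeval (tMod L hL) Pc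
    with hF
  set x := jInt * Polynomial.aeval (tSeries L) D - Polynomial.aeval (tSeries L) P with hx
  have hqx : qexp L F = ModularCurve.coeffMap (Int.castRingHom ℂ) x := by
    rw [hF, hx, map_sub, map_sub, map_mul, map_mul, qexp_jMod, coeffMap_jInt, qexp_aeval,
      qexp_aeval, coeffMap_aeval_tSeries, coeffMap_aeval_tSeries, aeval_intMap, aeval_intMap]
  have heval : ∀ (A : Polynomial ℂ) (σ : ℍ),
      (Polynomial.aeval (tMod L hL) A : ℍ → ℂ) σ = A.eval (tFun L σ) := fun A σ => by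
    rw [Polynomial.aeval_subalgebra_coe, Polynomial.aeval_pi_apply₂,
      Polynomial.coe_aeval_eq_eval]
    rfl
  have hb : ∀ g : SL(2, ℤ), g ∉ Gamma0 L →
      IsBoundedAtImInfty (fun τ => (F : ℍ → ℂ) (g • τ)) := by
    intro g hg
    have h0' : Polynomial.X ^ L ∣ Dc := by
      simpa using map_dvd (Polynomial.mapRingHom (Int.castRingHom ℂ)) h0
    obtain ⟨w, hw⟩ := exists_tendsto_eval_div_qFun L hL h0' hmid hg
    obtain ⟨c, hc, -⟩ := exists_tendsto_tFun_smul L hL hg
    refine (((tendsto_qMulJ_atImInfty.mul hw).sub ((Pc.continuous.tendsto c).comp hc)).congr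
      fun τ => ?_).isBigO_one ℝ
    have := qFun_ne_zero τ
    have hj : (jMod L : ℍ → ℂ) (g • τ) = jInv τ := jInv_smul g τ
    simp only [comp_apply, hF, Subalgebra.coe_sub, Subalgebra.coe_mul, Pi.sub_apply, Pi.mul_apply,
      heval, hj, qMulJ, show Periodic.qParam 1 (τ : ℂ) = qFun τ from rfl]
    field_simp
  obtain ⟨A, -, hA⟩ := exists_int_eval_eq L hL F hb hqx
  have hlead := coeff_aeval_tOf_natDegree L (A.map (Int.castRingHom ℂ))
  rw [aeval_intMap, ← coeffMap_aeval_tSeries, ← hA, ModularCurve.coeffMap_coeff,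
    hcoeff _ (by omega), map_zero] at hlead
  have hA0 : A = 0 := Polynomial.map_injective _ (Int.castRingHom ℂ).injective_int
    (by rw [Polynomial.leadingCoeff_eq_zero.mp hlead.symm, Polynomial.map_zero])
  rw [← sub_eq_zero, ← hx, hA, hA0, map_zero]

end FLTA.Carayol.Chart
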