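import Fermat.Agent.Carayol.Haupt.SeriesLemmas
import Fermat.Agent.Igusa.EtaNorm

/-!
# Truncated power series for the relation between `j` and `t`

The congruences between the series which prove, with the valence argument, that `j` is the
expected rational function of the Hauptmoduln of levels 4 and 9.
-/

set_option autoImplicit false

noncomputable section

open PowerSeries

namespace FLTA.Carayol.Chart.JSeries

/-- A list of coefficients as a series. -/
def ofList : List ℤ → PowerSeries ℤ
  | [] => 0
  | a :: l => C a + X * ofList l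

/-- Sum of coefficient lists. -/
def addL : List ℤ → List ℤ → List ℤ
  | [], b => b
  | a, [] => a
  | x :: a, y :: b => (x + y) :: addL a b

/-- Multiple of a coefficient list. -/
def smulL (c : ℤ) (l : List ℤ) : List ℤ := l.map (c * ·)

/-- Product of coefficient lists up to degree `< n`. -/
def mulL : ℕ → List ℤ → List ℤ → List ℤ
  | 0, _, _ => []
  | _ + 1, [], _ => []
  | n + 1, x :: a, b => addL ((smulL x b).take (n + 1)) (0 :: mulL n a b)

/-- Substitution `X ↦ X ^ (k + 1)`. -/
def expandL (k : ℕ) : List ℤ → List ℤ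
  | [] => []
  | a :: l => a :: (List.replicate k 0 ++ expandL k l)

/-- Partial Euler product. -/
def eulerL (n : ℕ) : ℕ → List ℤ
  | 0 => [1]
  | M + 1 => mulL n (eulerL n M) (1 :: (List.replicate M 0 ++ [-1]))

theorem ofList_addL (a b : List ℤ) : ofList (addL a b) = ofList a + ofList b := by
  induction a generalizing b with
  | nil => simp [addL, ofList]
  | cons x a ih =>
    cases b with
    | nil => simp [addL, ofList]
    | cons y b => simp [addL, ofList, ih, map_add]; ring

theorem ofList_smulL (c : ℤ) (l : List ℤ) : ofList (smulL c l) = C c * ofList l := by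
  induction l with
  | nil => simp [smulL, ofList]
  | cons x l ih =>
    simp only [smulL] at ih ⊢
    simp [ofList, ih, map_mul]
    ring

theorem ofList_replicate (k : ℕ) (l : List ℤ) :
    ofList (List.replicate k 0 ++ l) = X ^ k * ofList l := by
  induction k with
  | zero => simp
  | succ k ih => simp [List.replicate_succ, ofList, ih, pow_succ]; ring

theorem ofList_take (n : ℕ) (l : List ℤ) :
    (X : PowerSeries ℤ) ^ n ∣ ofList l - ofList (l.take n) := by
  induction n generalizing l with
  | zero => simp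
  | succ n ih =>
    cases l with
    | nil => simp
    | cons x l =>
      simp only [List.take_succ_cons, ofList]
      rw [add_sub_add_left_eq_sub, ← mul_sub, pow_succ']
      exact mul_dvd_mul_left X (ih l)

theorem ofList_mulL (n : ℕ) (a b : List ℤ) :
    (X : PowerSeries ℤ) ^ n ∣ ofList a * ofList b - ofList (mulL n a b) := by
  induction n generalizing a with
  | zero => simp
  | succ n ih =>
    cases a with
    | nil => simp [mulL, ofList]
    | cons x a =>
      have h1 := ofList_take (n + 1) (smulL x b)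
      have h2 := mul_dvd_mul_left (X : PowerSeries ℤ) (ih a)
      rw [← pow_succ'] at h2
      have e : ofList (x :: a) * ofList b - ofList (mulL (n + 1) (x :: a) b) =
          (ofList (smulL x b) - ofList ((smulL x b).take (n + 1))) +
            X * (ofList a * ofList b - ofList (mulL n a b)) := by
        rw [mulL, ofList_addL, ofList_smulL]
        simp [ofList]
        ring
      rw [e]
      exact dvd_add h1 h2

theorem ofList_expandL (k : ℕ) (l : List ℤ) :
    expand (k + 1) (Nat.succ_ne_zero k) (ofList l) = ofList (expandL k l) := by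
  induction l with
  | nil => simp [expandL, ofList]
  | cons x l ih =>
    simp [expandL, ofList, ofList_replicate, ih, pow_succ]
    ring

theorem coeff_ofList (l : List ℤ) (i : ℕ) : coeff i (ofList l) = l.getD i 0 := by
  induction l generalizing i with
  | nil => simp [ofList]
  | cons x l ih =>
    cases i with
    | zero => simp [ofList]
    | succ i =>
      rw [ofList, map_add, coeff_succ_X_mul, ih, coeff_C, if_neg (Nat.succ_ne_zero i)]
      simp

/-- `f` agrees with the list `l` up to degree `< n`. -/
def Cong (n : ℕ) (f : PowerSeries ℤ) (l : List ℤ) : Prop :=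
  (X : PowerSeries ℤ) ^ n ∣ f - ofList l

variable {n : ℕ} {f g : PowerSeries ℤ} {a b : List ℤ}

theorem cong_C (c : ℤ) : Cong n (C c) [c] := by simp [Cong, ofList]

theorem cong_X : Cong n X [0, 1] := by simp [Cong, ofList]

theorem Cong.add (hf : Cong n f a) (hg : Cong n g b) : Cong n (f + g) (addL a b) := by
  rw [Cong, ofList_addL, add_sub_add_comm]
  exact dvd_add hf hg

theorem Cong.smul (c : ℤ) (hf : Cong n f a) : Cong n (C c * f) (smulL c a) := by
  rw [Cong, ofList_smulL, ← mul_sub]
  exact hf.mul_left _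

theorem Cong.mul (hf : Cong n f a) (hg : Cong n g b) : Cong n (f * g) (mulL n a b) := by
  have e : f * g - ofList (mulL n a b) = (f - ofList a) * g + ofList a * (g - ofList b) +
      (ofList a * ofList b - ofList (mulL n a b)) := by ring
  rw [Cong, e]
  exact dvd_add (dvd_add (hf.mul_right _) (hg.mul_left _)) (ofList_mulL n a b)

theorem Cong.pow3 (hf : Cong n f a) : Cong n (f ^ 3) (mulL n (mulL n a a) a) := by
  rw [pow_three']
  exact (hf.mul hf).mul hf

theorem Cong.expand (k : ℕ) (hf : Cong n f a) :
    Cong n (PowerSeries.expand (k + 1) (Nat.succ_ne_zero k) f) ((expandL k a).take n) := by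
  have h := map_dvd (PowerSeries.expand (k + 1) (Nat.succ_ne_zero k) (R := ℤ)) hf
  rw [map_pow, expand_X, ← pow_mul, map_sub, ofList_expandL] at h
  have e : ∀ u : PowerSeries ℤ, u - ofList ((expandL k a).take n) =
      (u - ofList (expandL k a)) + (ofList (expandL k a) - ofList ((expandL k a).take n)) :=
    fun u => by ring
  rw [Cong, e]
  exact dvd_add ((pow_dvd_pow X (Nat.le_mul_of_pos_left n (Nat.succ_pos k))).trans h)
    (ofList_take _ _)

theorem Cong.dvd_sub (hf : Cong n f a) (hg : Cong n g b)
    (h : ∀ i < n, a.getD i 0 = b.getD i 0) : (X : PowerSeries ℤ) ^ n ∣ f - g := by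
  have hab : (X : PowerSeries ℤ) ^ n ∣ ofList a - ofList b :=
    X_pow_dvd_iff.mpr fun i hi => by rw [map_sub, coeff_ofList, coeff_ofList, h i hi, sub_self]
  have e : f - g = (f - ofList a) - (g - ofList b) + (ofList a - ofList b) := by ring
  rw [e]
  exact dvd_add (_root_.dvd_sub hf hg) hab

theorem cong_eulerTrunc (n M : ℕ) : Cong n (Igusa.eulerTrunc ℤ M) (eulerL n M) := by
  induction M with
  | zero => simp [Cong, Igusa.eulerTrunc, eulerL, ofList]
  | succ M ih =>
    have h : Cong n (1 - X ^ (M + 1) : PowerSeries ℤ) (1 :: (List.replicate M 0 ++ [-1])) := by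
      simp [Cong, ofList, ofList_replicate, pow_succ']
      ring_nf
      exact dvd_zero _
    rw [Igusa.eulerTrunc, Finset.prod_range_succ]
    exact ih.mul h

theorem cong_etaProd (M : ℕ) : Cong (M + 1) ModularCurve.etaProd (eulerL (M + 1) M) := by
  have h := Igusa.eulerPS_dvd_sub ℤ M
  rw [show Igusa.eulerPS ℤ = ModularCurve.etaProd by
    ext i; simp [Igusa.eulerPS]] at h
  have e : ModularCurve.etaProd - ofList (eulerL (M + 1) M) =
      (ModularCurve.etaProd - Igusa.eulerTrunc ℤ M) +
        (Igusa.eulerTrunc ℤ M - ofList (eulerL (M + 1) M)) := by ring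
  rw [Cong, e]
  exact dvd_add h (cong_eulerTrunc _ M)

/-- The first coefficients of `E₄`. -/
def e4L : List ℤ :=
  [1, 240, 2160, 6720, 17520, 30240, 60480, 82560, 140400, 181680, 272160, 319680, 490560]

theorem cong_eisenstein4 {n : ℕ} (hn : n ≤ 13) : Cong n ModularCurve.eisenstein4 e4L := by
  refine X_pow_dvd_iff.mpr fun i hi => ?_
  rw [map_sub, coeff_ofList, ModularCurve.eisenstein4, coeff_mk, sub_eq_zero]
  have key : ∀ j : Fin 13,
      (if (j : ℕ) = 0 then 1 else 240 * ∑ d ∈ (j : ℕ).divisors, (d : ℤ) ^ 3) =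
        e4L.getD j 0 := by
    decide +kernel
  exact key ⟨i, by omega⟩

/-- `j = X⁻¹ jNum` and `t = X⁻¹ tUnit`, at level 4, up to `X⁶`. -/
theorem dvd_level_four :
    (X : PowerSeries ℤ) ^ 7 ∣
      ModularCurve.jNum * Haupt.tUnit 4 ^ 4 * (Haupt.tUnit 4 + C 16 * X) -
        (Haupt.tUnit 4 ^ 2 + C 256 * (X * Haupt.tUnit 4) + C 4096 * (X * X)) ^ 3 := by
  set U : PowerSeries ℤ := ModularCurve.etaProd ^ 8 with hUdef
  set W : PowerSeries ℤ := PowerSeries.expand 4 (NeZero.ne 4) U with hWdef
  set u := Haupt.tUnit 4 with hudef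
  set e4 : PowerSeries ℤ := ModularCurve.eisenstein4 ^ 3 with he4def
  have huW : u * W = U := by
    have h : PowerSeries.invOfUnit U 1 * U = 1 := by
      rw [mul_comm]
      simpa [Haupt.etaExp, hUdef] using Haupt.etaPow_mul_inv 4
    rw [hudef, hWdef, Haupt.tUnit, show Haupt.etaExp 4 = 8 from rfl, ← hUdef, mul_assoc, ← map_mul,
      h, map_one, mul_one]
  have hjU : ModularCurve.jNum * U ^ 3 = e4 := by
    rw [hUdef, ← pow_mul, show 8 * 3 = 24 from rfl, ModularCurve.jNum, mul_assoc,
      mul_comm ModularCurve.dedekindEtaUnitInv, ← ModularCurve.dedekindEtaUnit,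
      ModularCurve.dedekindEtaUnit_mul_inv, mul_one]
  have hE := cong_etaProd 6
  have h2 := hE.mul hE
  have h4 := h2.mul h2
  have hU := h4.mul h4
  rw [show ModularCurve.etaProd * ModularCurve.etaProd *
      (ModularCurve.etaProd * ModularCurve.etaProd) * (ModularCurve.etaProd * ModularCurve.etaProd *
        (ModularCurve.etaProd * ModularCurve.etaProd)) = U by rw [hUdef]; ring] at hU
  have hW : Cong 7 W _ := hU.expand 3
  have he := (cong_eisenstein4 (n := 7) (by norm_num)).pow3
  have hX : Cong 7 (X : PowerSeries ℤ) _ := cong_X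
  have hA := ((he.mul hU).mul (hU.add ((hX.mul hW).smul 16))).mul hW
  have hB := (((hU.mul hU).add (((hX.mul hU).mul hW).smul 256)).add
    (((hX.mul hX).mul (hW.mul hW)).smul 4096)).pow3
  have hQ := hA.dvd_sub hB (by decide +kernel)
  have hunit : IsUnit (W ^ 6) := by
    refine IsUnit.pow _ (isUnit_iff_constantCoeff.mpr ?_)
    simp [hWdef, hUdef, PowerSeries.constantCoeff_expand, ModularCurve.constantCoeff_etaProd]
  rw [← hunit.dvd_mul_right]
  convert hQ using 1
  rw [he4def] at hjU
  rw [sub_mul]
  rw [← hjU, ← huW]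
  ring

/-- The same at level 9, up to `X¹²`. -/
theorem dvd_level_nine :
    (X : PowerSeries ℤ) ^ 13 ∣
      ModularCurve.jNum * Haupt.tUnit 9 ^ 9 *
          (Haupt.tUnit 9 ^ 2 + C 9 * (X * Haupt.tUnit 9) + C 27 * (X * X)) -
        ((Haupt.tUnit 9 + C 9 * X) *
          (Haupt.tUnit 9 ^ 3 + C 243 * (X * Haupt.tUnit 9 ^ 2) +
            C 2187 * (X * X * Haupt.tUnit 9) + C 6561 * (X * X * X))) ^ 3 := by
  set U : PowerSeries ℤ := ModularCurve.etaProd ^ 3 with hUdef
  set W : PowerSeries ℤ := PowerSeries.expand 9 (NeZero.ne 9) U with hWdef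
  set u := Haupt.tUnit 9 with hudef
  set e4 : PowerSeries ℤ := ModularCurve.eisenstein4 ^ 3 with he4def
  have huW : u * W = U := by
    have h : PowerSeries.invOfUnit U 1 * U = 1 := by
      rw [mul_comm]
      simpa [Haupt.etaExp, hUdef] using Haupt.etaPow_mul_inv 9
    rw [hudef, hWdef, Haupt.tUnit, show Haupt.etaExp 9 = 3 from rfl, ← hUdef, mul_assoc, ← map_mul,
      h, map_one, mul_one]
  have hjU : ModularCurve.jNum * U ^ 8 = e4 := by
    rw [hUdef, ← pow_mul, show 3 * 8 = 24 from rfl, ModularCurve.jNum, mul_assoc,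
      mul_comm ModularCurve.dedekindEtaUnitInv, ← ModularCurve.dedekindEtaUnit,
      ModularCurve.dedekindEtaUnit_mul_inv, mul_one]
  have hE := cong_etaProd 12
  have hU : Cong 13 U _ := hE.pow3
  have hW : Cong 13 W _ := hU.expand 8
  have he := (cong_eisenstein4 (n := 13) le_rfl).pow3
  have hX : Cong 13 (X : PowerSeries ℤ) _ := cong_X
  have hXW := hX.mul hW
  have hA := ((he.mul hU).mul
    (((hU.mul hU).add (((hXW.mul hU)).smul 9)).add ((hXW.mul hXW).smul 27))).mul hW
  have hB := ((hU.add (hXW.smul 9)).mul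
    (((((hU.mul hU).mul hU).add (((hXW.mul hU).mul hU).smul 243)).add
      (((hXW.mul hXW).mul hU).smul 2187)).add (((hXW.mul hXW).mul hXW).smul 6561))).pow3
  have hQ := hA.dvd_sub hB (by decide +kernel)
  have hunit : IsUnit (W ^ 12) := by
    refine IsUnit.pow _ (isUnit_iff_constantCoeff.mpr ?_)
    simp [hWdef, hUdef, PowerSeries.constantCoeff_expand, ModularCurve.constantCoeff_etaProd]
  rw [← hunit.dvd_mul_right]
  convert hQ using 1
  rw [he4def] at hjU
  rw [sub_mul]
  rw [← hjU, ← huW]
  ring

end FLTA.Carayol.Chart.JSeries
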