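import Fermat.Agent.Carayol.Haupt.Series
import Fermat.Agent.Carayol.Chart.JIdentitySeries
import Fermat.Agent.Carayol.Chart.JIdentityCusps
import Fermat.Agent.Bridge.Degree
import Fermat.Prelude.Def_ModularCurve_IgusaScheme
import Fermat.Prelude.Def_ModularCurve_LaurentCoeff

/-!
# `j` as a rational function of the Hauptmoduln of levels 4 and 9

`M` is the Hauptmodul level, `N` a multiple of it.
-/

set_option autoImplicit false

noncomputable section

open Polynomial ModularCurve ModularCurve.IgusaScheme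

namespace FLTA.Carayol.Chart

/-- Numerator of `j` in the Hauptmodul of level `M`. -/
def jNum (M : ℕ) : ℤ[X] :=
  if M = 4 then (X ^ 2 + C 256 * X + C 4096) ^ 3
  else ((X + C 9) * (X ^ 3 + C 243 * X ^ 2 + C 2187 * X + C 6561)) ^ 3

/-- Denominator of `j` in the Hauptmodul of level `M`. -/
def jDen (M : ℕ) : ℤ[X] :=
  if M = 4 then X ^ 4 * (X + C 16) else X ^ 9 * (X ^ 2 + C 9 * X + C 27)

/-- The Hauptmodul of level `M` in the field of level `N`. -/
def IsTFull (M N : ℕ) [NeZero M] [NeZero N] (t : ↥(modularFunctionFieldFull N)) : Prop :=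
  (t : LaurentSeries ℚ) = coeffMap (Int.castRingHom ℚ) (Haupt.tSeries M)

private theorem finite_adjoin_congr {E : Type*} [Field E] {a₁ a₂ : Algebra ℚ E} (g : E)
    (h : letI := a₁; Module.Finite (IntermediateField.adjoin ℚ ({g} : Set E)) E) :
    letI := a₂; Module.Finite (IntermediateField.adjoin ℚ ({g} : Set E)) E := by
  obtain rfl := Subsingleton.elim a₁ a₂
  exact h

private theorem map_aeval_int {A B : Type*} [CommRing A] [CommRing B] [Algebra ℤ A] [Algebra ℤ B]
    (f : A →+* B) (x : A) (P : ℤ[X]) : f (aeval x P) = aeval (f x) P := by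
  rw [aeval_def, aeval_def, hom_eval₂]
  congr 1
  exact RingHom.ext_int _ _

theorem laurentBaseChange_rat (N : ℕ) :
    laurentBaseChange ℚ (modularFunctionFieldFull N) = modularFunctionFieldFull N := by
  have h : ⇑(coeffEmb ℚ) = id := funext fun x => by
    rw [coeffEmb, Subsingleton.elim (algebraMap ℚ ℚ) (RingHom.id ℚ), coeffMap_id, id]
  rw [laurentBaseChange, h, Set.image_id]
  exact IntermediateField.adjoin_self _ _

theorem exists_isTFull {M N : ℕ} [NeZero M] [NeZero N] (hM : Haupt.IsHauptLevel M) (hMN : M ∣ N) :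
    ∃ t, IsTFull M N t := by
  have h : coeffMap (algebraMap ℚ ℂ) (coeffMap (Int.castRingHom ℚ) (Haupt.tSeries M)) ∈
      FLTA.Bridge.fieldC M := by
    rw [coeffMap_coeffMap, RingHom.ext_int ((algebraMap ℚ ℂ).comp _) (Int.castRingHom ℂ),
      ← Haupt.qexp_tMod M hM]
    exact FLTA.Bridge.qexp_mem_fieldC M _
  rw [← FLTA.Bridge.mem_laurentBaseChange_iff_coeffMap_mem, laurentBaseChange_rat] at h
  exact ⟨⟨_, full_degeneracy_le hMN h⟩, rfl⟩

private theorem four_identity {R : Type*} [CommRing R] (j u s y : R) (h : s * y = 1) :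
    s * j * ((s * u) ^ 4 * (s * u + 16)) - ((s * u) ^ 2 + 256 * (s * u) + 4096) ^ 3 =
      s ^ 6 * (j * u ^ 4 * (u + 16 * y) -
        (u ^ 2 + 256 * (y * u) + 4096 * (y * y)) ^ 3) := by
  calc s * j * ((s * u) ^ 4 * (s * u + 16)) - ((s * u) ^ 2 + 256 * (s * u) + 4096) ^ 3
      = s * j * ((s * u) ^ 4 * (s * u + 16 * (s * y))) -
        ((s * u) ^ 2 + 256 * (s * u * (s * y)) + 4096 * (s * y) ^ 2) ^ 3 := by
        rw [h, mul_one, mul_one, one_pow, mul_one]
    _ = _ := by ring

private theorem nine_identity {R : Type*} [CommRing R] (j u s y : R) (h : s * y = 1) :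
    s * j * ((s * u) ^ 9 * ((s * u) ^ 2 + 9 * (s * u) + 27)) -
        ((s * u + 9) * ((s * u) ^ 3 + 243 * (s * u) ^ 2 + 2187 * (s * u) + 6561)) ^ 3 =
      s ^ 12 * (j * u ^ 9 * (u ^ 2 + 9 * (y * u) + 27 * (y * y)) -
        ((u + 9 * y) * (u ^ 3 + 243 * (y * u ^ 2) + 2187 * (y * y * u) +
          6561 * (y * y * y))) ^ 3) := by
  calc _ = s * j * ((s * u) ^ 9 *
          ((s * u) ^ 2 + 9 * (s * u * (s * y)) + 27 * (s * y) ^ 2)) -
        ((s * u + 9 * (s * y)) * ((s * u) ^ 3 + 243 * ((s * u) ^ 2 * (s * y)) +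
          2187 * (s * u * (s * y) ^ 2) + 6561 * (s * y) ^ 3)) ^ 3 := by
        rw [h]; ring
    _ = _ := by ring

private theorem coeff_eq_zero_of_dvd {m : ℕ} {P : PowerSeries ℤ}
    (h : (PowerSeries.X : PowerSeries ℤ) ^ (m + 1) ∣ P) {n : ℤ} (hn : n ≤ 0) :
    (HahnSeries.single (-1 : ℤ) 1 ^ m * HahnSeries.ofPowerSeries ℤ ℤ P).coeff n = 0 := by
  rw [HahnSeries.single_pow, one_pow, HahnSeries.coeff_single_mul, one_mul]
  rcases lt_or_ge (n - m • (-1 : ℤ)) 0 with hneg | hpos
  · exact ofPowerSeries_coeff_of_neg _ hneg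
  · obtain ⟨k, hk⟩ := Int.eq_ofNat_of_zero_le hpos
    rw [hk, HahnSeries.ofPowerSeries_apply_coeff]
    exact PowerSeries.X_pow_dvd_iff.mp h k (by simp at hk; omega)

theorem single_mul_ofPowerSeries_X :
    (HahnSeries.single (-1 : ℤ) (1 : ℤ)) * HahnSeries.ofPowerSeries ℤ ℤ PowerSeries.X = 1 := by
  rw [HahnSeries.ofPowerSeries_X, HahnSeries.single_mul_single]
  simp

theorem jInt_mul_jDen {M : ℕ} [NeZero M] (hM : Haupt.IsHauptLevel M) :
    jInt * aeval (Haupt.tSeries M) (jDen M) = aeval (Haupt.tSeries M) (jNum M) := by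
  refine jInt_mul_aeval_eq M hM ?_ ?_ ?_
  · rcases hM with rfl | rfl <;> simp [jDen]
  · intro ℓ i hℓ hi
    obtain ⟨h, hne⟩ := Haupt.eval_cuspPoly_midConst M hM hℓ hi
    rcases hM with rfl | rfl
    · simp only [Haupt.cuspPoly] at h
      simp at h
      simp [jDen]
      refine Or.inr (mul_left_cancel₀ hne ?_)
      linear_combination h
    · simp only [Haupt.cuspPoly, show ¬ (9 : ℕ) = 4 by norm_num, if_false] at h
      simp at h
      simp [jDen]
      refine Or.inr (mul_left_cancel₀ hne ?_)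
      linear_combination h
  · intro n hn
    have hy := single_mul_ofPowerSeries_X
    rcases hM with rfl | rfl
    · have h := coeff_eq_zero_of_dvd (m := 6) JSeries.dvd_level_four hn
      refine (congrArg (fun x : LaurentSeries ℤ => x.coeff n) ?_).trans h
      simp only [jDen, jNum, if_true, map_mul, map_pow, map_add, aeval_X, map_sub, map_ofNat,
        jInt, Haupt.tSeries_eq]
      exact four_identity _ _ _ _ hy
    · have h := coeff_eq_zero_of_dvd (m := 12) JSeries.dvd_level_nine hn
      refine (congrArg (fun x : LaurentSeries ℤ => x.coeff n) ?_).trans h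
      simp only [jDen, jNum, show ¬ (9 : ℕ) = 4 by norm_num, if_false, map_mul, map_pow, map_add,
        aeval_X, map_sub, map_ofNat, jInt, Haupt.tSeries_eq]
      exact nine_identity _ _ _ _ hy

theorem IsTFull.j_mul_den {M N : ℕ} [NeZero M] [NeZero N] (hM : Haupt.IsHauptLevel M)
    {t : ↥(modularFunctionFieldFull N)} (ht : IsTFull M N t) :
    jFull N * aeval t (jDen M) = aeval t (jNum M) := by
  have hc : ∀ P : ℤ[X], ((aeval t P : ↥(modularFunctionFieldFull N)) : LaurentSeries ℚ) =
      coeffMap (Int.castRingHom ℚ) (aeval (Haupt.tSeries M) P) := fun P => by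
    rw [Haupt.coeffMap_aeval_tSeries, Haupt.tOf, ← ht]
    exact map_aeval_int (modularFunctionFieldFull N).toSubfield.subtype t P
  apply Subtype.ext
  rw [MulMemClass.coe_mul, coe_jFull, hc, hc, ← jInt_mul_jDen hM, map_mul, coeffMap_jInt,
    coeffEmb, Subsingleton.elim (algebraMap ℚ ℚ) (RingHom.id ℚ), coeffMap_id]

theorem IsTFull.finiteDimensional {M N : ℕ} [NeZero M] [NeZero N] (hM : Haupt.IsHauptLevel M)
    {t : ↥(modularFunctionFieldFull N)} (ht : IsTFull M N t) :
    FiniteDimensional (IntermediateField.adjoin ℚ ({t} : Set ↥(modularFunctionFieldFull N)))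
      ↥(modularFunctionFieldFull N) := by
  have hj : jFull N ∈ IntermediateField.adjoin ℚ ({t} : Set ↥(modularFunctionFieldFull N)) := by
    have hd : aeval t (jDen M) ≠ 0 := by
      intro h0
      have h1 : aeval (Haupt.tOf M ℚ) (jDen M) = 0 := by
        have h2 := congrArg (modularFunctionFieldFull N).toSubfield.subtype h0
        rw [map_zero] at h2
        rw [Haupt.tOf, ← ht, ← h2]
        exact (map_aeval_int (modularFunctionFieldFull N).toSubfield.subtype t _).symm
      rw [← Haupt.aeval_intMap, ← map_zero (aeval (R := ℚ) (Haupt.tOf M ℚ))] at h1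
      have h3 := Polynomial.map_injective _ (Int.castRingHom ℚ).injective_int
        ((Haupt.aeval_tOf_injective M h1).trans (Polynomial.map_zero _).symm)
      have h4 : (jDen M).Monic := by
        unfold jDen; split <;> monicity!
      exact h4.ne_zero h3
    rw [eq_div_iff hd |>.mpr (ht.j_mul_den hM)]
    have hmem : ∀ P : ℤ[X], aeval t P ∈
        IntermediateField.adjoin ℚ ({t} : Set ↥(modularFunctionFieldFull N)) := fun P => by
      rw [Polynomial.aeval_eq_sum_range]
      refine sum_mem fun i _ => zsmul_mem (pow_mem ?_ _) _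
      exact IntermediateField.subset_adjoin _ _ rfl
    exact div_mem (hmem _) (hmem _)
  have hle : IntermediateField.adjoin ℚ ({jFull N} : Set ↥(modularFunctionFieldFull N)) ≤
      IntermediateField.adjoin ℚ {t} := by
    rw [IntermediateField.adjoin_le_iff, Set.singleton_subset_iff]
    exact hj
  have transport : ∀ (G : IntermediateField ℚ (LaurentSeries ℚ)) (_ : G = modularFunctionFieldFull N)
      (g : G), (g : LaurentSeries ℚ) = jq →
      Module.Finite (IntermediateField.adjoin ℚ ({g} : Set G)) G →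
      Module.Finite (IntermediateField.adjoin ℚ ({jFull N} : Set ↥(modularFunctionFieldFull N)))
        ↥(modularFunctionFieldFull N) := by
    rintro G rfl g hg hfin
    obtain rfl : g = jFull N := Subtype.ext hg
    exact hfin
  have hfin := transport _ (laurentBaseChange_rat N) (FLTA.Bridge.jF N ℚ) (by
      show coeffEmb ℚ (qExpand ℚ 1 jq) = jq
      rw [qExpand_one_apply, coeffEmb, Subsingleton.elim (algebraMap ℚ ℚ) (RingHom.id ℚ),
        coeffMap_id])
    (finite_adjoin_congr _ (FLTA.Bridge.finite_adjoin_jF N ℚ (algebraMap ℚ ℂ)))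
  obtain ⟨S, hS⟩ := hfin.fg_top
  refine ⟨⟨S, eq_top_iff.mpr fun x _ => ?_⟩⟩
  have hx : x ∈ Submodule.span (IntermediateField.adjoin ℚ
      ({jFull N} : Set ↥(modularFunctionFieldFull N))) (S : Set ↥(modularFunctionFieldFull N)) := by
    rw [hS]; trivial
  induction hx using Submodule.span_induction with
  | mem y hy => exact Submodule.subset_span hy
  | zero => exact zero_mem _
  | add y z _ _ hy hz => exact add_mem (hy trivial) (hz trivial)
  | smul c y _ hy => exact Submodule.smul_mem _ (⟨c.1, hle c.2⟩ : IntermediateField.adjoin ℚ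
      ({t} : Set ↥(modularFunctionFieldFull N))) (hy trivial)

end FLTA.Carayol.Chart
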