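import Fermat.Agent.Carayol.Chart.JLine
import Mathlib.RingTheory.Polynomial.RationalRoot
import Mathlib.Tactic.ComputeDegree
import Mathlib.Tactic.LinearCombination

/-!
# Properties of the rational function `j(t)`
-/

set_option autoImplicit false

noncomputable section

open Polynomial

namespace FLTA.Carayol.Chart

variable {M : ℕ}

theorem isHauptLevel_cases (hM : Haupt.IsHauptLevel M) :
    (jNum M = (X ^ 2 + C 256 * X + C 4096) ^ 3 ∧ jDen M = X ^ 4 * (X + C 16) ∧
      Haupt.cuspPoly M = X ^ 2 + C 16 * X ∧ M = 4) ∨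
    (jNum M = ((X + C 9) * (X ^ 3 + C 243 * X ^ 2 + C 2187 * X + C 6561)) ^ 3 ∧
      jDen M = X ^ 9 * (X ^ 2 + C 9 * X + C 27) ∧
      Haupt.cuspPoly M = X ^ 3 + C 9 * X ^ 2 + C 27 * X ∧ M = 9) := by
  rcases hM with rfl | rfl
  · left; simp [jNum, jDen, Haupt.cuspPoly]
  · right; simp [jNum, jDen, Haupt.cuspPoly]

theorem monic_jNum (hM : Haupt.IsHauptLevel M) : (jNum M).Monic := by
  rcases isHauptLevel_cases hM with ⟨h, -, -, -⟩ | ⟨h, -, -, -⟩ <;> rw [h] <;>
    refine Monic.pow ?_ 3 <;> monicity!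

theorem monic_jDen (hM : Haupt.IsHauptLevel M) : (jDen M).Monic := by
  rcases isHauptLevel_cases hM with ⟨-, h, -, -⟩ | ⟨-, h, -, -⟩ <;> rw [h] <;> monicity!

theorem natDegree_jNum_eq (hM : Haupt.IsHauptLevel M) :
    (jNum M).natDegree = (jDen M).natDegree + 1 := by
  rcases isHauptLevel_cases hM with ⟨h, h', -, -⟩ | ⟨h, h', -, -⟩ <;> rw [h, h']
  · rw [show (X ^ 4 * (X + C 16) : ℤ[X]).natDegree = 5 by compute_degree!]
    compute_degree!
  · rw [show (X ^ 9 * (X ^ 2 + C 9 * X + C 27) : ℤ[X]).natDegree = 11 by compute_degree!]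
    compute_degree!

theorem exists_jNum_eq_cube (hM : Haupt.IsHauptLevel M) : ∃ a : ℤ[X], jNum M = a ^ 3 := by
  rcases isHauptLevel_cases hM with ⟨h, -, -, -⟩ | ⟨h, -, -, -⟩ <;> exact ⟨_, h⟩

theorem exists_jNum_sub_eq_sq (hM : Haupt.IsHauptLevel M) :
    ∃ a : ℤ[X], jNum M - C 1728 * jDen M = a ^ 2 := by
  rcases isHauptLevel_cases hM with ⟨h, h', -, -⟩ | ⟨h, h', -, -⟩ <;> rw [h, h']
  · refine ⟨(X + C 32) * (X ^ 2 - C 512 * X - C 8192), ?_⟩
    simp only [map_ofNat]
    ring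
  · refine ⟨X ^ 6 - C 486 * X ^ 5 - C 24057 * X ^ 4 - C 367416 * X ^ 3 - C 2657205 * X ^ 2
      - C 9565938 * X - C 14348907, ?_⟩
    simp only [map_ofNat]
    ring

/-- The denominator divides a power of the cusp polynomial, and conversely. -/
theorem jDen_cusp (hM : Haupt.IsHauptLevel M) :
    jDen M ∣ Haupt.cuspPoly M ^ 9 ∧ Haupt.cuspPoly M ∣ jDen M := by
  rcases isHauptLevel_cases hM with ⟨-, h, h', -⟩ | ⟨-, h, h', -⟩ <;> rw [h, h']
  · exact ⟨⟨X ^ 5 * (X + C 16) ^ 8, by ring⟩, ⟨X ^ 3, by ring⟩⟩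
  · exact ⟨⟨(X ^ 2 + C 9 * X + C 27) ^ 8, by ring⟩, ⟨X ^ 8, by ring⟩⟩

theorem isUnit_aeval_jDen (hM : Haupt.IsHauptLevel M) {S : Type} [CommRing S] {t : S}
    (h : IsUnit (aeval t (Haupt.cuspPoly M))) : IsUnit (aeval t (jDen M)) :=
  isUnit_of_dvd_unit (map_dvd (aeval t) (jDen_cusp hM).1) (by rw [map_pow]; exact h.pow 9)

theorem aeval_jNum_ne_zero_of_jDen_eq_zero (hM : Haupt.IsHauptLevel M) {K : Type} [Field K]
    [CharZero K] {t : K} (h : aeval t (jDen M) = 0) : aeval t (jNum M) ≠ 0 := by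
  rcases isHauptLevel_cases hM with ⟨h1, h2, -, -⟩ | ⟨h1, h2, -, -⟩ <;> rw [h2] at h <;> rw [h1] <;>
    simp only [map_mul, map_pow, map_add, aeval_X, aeval_C, map_ofNat, mul_eq_zero,
      pow_eq_zero_iff, ne_eq, OfNat.ofNat_ne_zero, not_false_eq_true] at h ⊢
  · rcases h with rfl | h
    · norm_num
    · rw [eq_neg_of_add_eq_zero_left h]; norm_num
  · rcases h with rfl | h
    · norm_num
    · intro h0
      rcases h0 with h0 | h0
      · obtain rfl : t = -9 := eq_neg_of_add_eq_zero_left h0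
        norm_num at h
      · obtain rfl : t = -(9 / 2) := by linear_combination (h0 - (t + 234) * h) / 54
        norm_num at h

/-- `j` is not a constant. -/
theorem jNum_ne_C_mul_jDen (hM : Haupt.IsHauptLevel M) {K : Type} [CommRing K] [Nontrivial K]
    (c : K) : (jNum M).map (algebraMap ℤ K) - C c * (jDen M).map (algebraMap ℤ K) ≠ 0 := by
  intro h
  have h1 := congrArg (fun p : K[X] => p.coeff (jNum M).natDegree) h
  simp only [coeff_sub, coeff_map, coeff_C_mul, coeff_zero] at h1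
  rw [coeff_natDegree, (monic_jNum hM).leadingCoeff, map_one,
    coeff_eq_zero_of_natDegree_lt (by rw [natDegree_jNum_eq hM]; exact Nat.lt_succ_self _),
    map_zero, mul_zero, sub_zero] at h1
  exact one_ne_zero h1

theorem monic_jNum_sub (hM : Haupt.IsHauptLevel M) {K : Type} [CommRing K] [Nontrivial K]
    (c : K) : ((jNum M).map (algebraMap ℤ K) - C c * (jDen M).map (algebraMap ℤ K)).Monic := by
  refine ((monic_jNum hM).map _).sub_of_left (lt_of_le_of_lt ((degree_mul_le _ _).trans (add_le_add degree_C_le le_rfl)) ?_)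
  rw [zero_add]
  rw [degree_eq_natDegree ((monic_jDen hM).map _).ne_zero,
    degree_eq_natDegree ((monic_jNum hM).map _).ne_zero,
    (monic_jNum hM).natDegree_map, (monic_jDen hM).natDegree_map, natDegree_jNum_eq hM]
  exact_mod_cast Nat.lt_succ_self _

/-- `j(t)` stays a rational function of full degree away from the primes of the level. -/
theorem isCoprime_jNum_jDen_eval (hM : Haupt.IsHauptLevel M) {K : Type} [Field K] {q : ℕ}
    [CharP K q] (hq : ¬ q ∣ M) {c : K} (h1 : (jNum M).eval₂ (algebraMap ℤ K) c = 0)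
    (h2 : (jDen M).eval₂ (algebraMap ℤ K) c = 0) : False := by
  rcases isHauptLevel_cases hM with ⟨e1, e2, -, rfl⟩ | ⟨e1, e2, -, rfl⟩ <;>
    simp only [e1, e2, eval₂_mul, eval₂_pow, eval₂_add, eval₂_X, eval₂_C, eval₂_ofNat, map_ofNat, mul_eq_zero,
      pow_eq_zero_iff, ne_eq, OfNat.ofNat_ne_zero, not_false_eq_true] at h1 h2
  · have h : (2 : K) ≠ 0 := fun h0 => hq ((show q ∣ 2 by
      rwa [← CharP.cast_eq_zero_iff K q, Nat.cast_ofNat]).trans (by norm_num))
    rcases h2 with rfl | h2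
    · exact pow_ne_zero 12 h (by linear_combination h1)
    · refine pow_ne_zero 8 h ?_
      linear_combination h1 - (c + 240) * h2
  · have h : (3 : K) ≠ 0 := fun h0 => hq ((show q ∣ 3 by
      rwa [← CharP.cast_eq_zero_iff K q, Nat.cast_ofNat]).trans (by norm_num))
    rcases h2 with rfl | h2
    · rcases h1 with h1 | h1
      · exact pow_ne_zero 2 h (by linear_combination h1)
      · exact pow_ne_zero 8 h (by linear_combination h1)
    · rcases h1 with h1 | h1
      · exact pow_ne_zero 3 h (by linear_combination h2 - c * h1)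
      · refine pow_ne_zero 6 h ?_
        linear_combination (108 + (2 * c + 9) * (c + 234)) * h2 - (2 * c + 9) * h1

end FLTA.Carayol.Chart
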