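import Fermat.Agent.Carayol.Chart.JLine
import Fermat.Agent.Carayol.Haupt.Poly
import Fermat.Agent.Igusa.Chart
import Mathlib.Algebra.Polynomial.Bivariate
import Mathlib.FieldTheory.RatFunc.IntermediateField
import Mathlib.FieldTheory.Minpoly.IsIntegrallyClosed

/-!
# The degree of the level-`N` field over the field of the Hauptmodul, in every characteristic
prime to the level

`j = jNum(t) / jDen(t)` has degree `deg jNum` over `ℚ`, and at most that in characteristic `q`, so
the degree over `K(t)` in characteristic `q` is at least the one in characteristic zero.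
-/

set_option autoImplicit false

noncomputable section

open Polynomial ModularCurve ModularCurve.IgusaScheme IntermediateField
open scoped IntermediateField.algebraAdjoinAdjoin

namespace FLTA.Carayol.Chart

theorem jNum_monic (M : ℕ) : (jNum M).Monic := by
  unfold jNum
  split_ifs <;> refine Monic.pow ?_ _
  · monicity!
  · monicity!

theorem natDegree_jDen_lt (M : ℕ) : (jDen M).natDegree < (jNum M).natDegree := by
  unfold jDen jNum
  split_ifs
  · rw [show (X ^ 4 * (X + C 16) : ℤ[X]).natDegree = 5 by compute_degree!,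
      show ((X ^ 2 + C 256 * X + C 4096) ^ 3 : ℤ[X]).natDegree = 6 by compute_degree!]
    norm_num
  · rw [show (X ^ 9 * (X ^ 2 + C 9 * X + C 27) : ℤ[X]).natDegree = 11 by compute_degree!,
      show (((X + C 9) * (X ^ 3 + C 243 * X ^ 2 + C 2187 * X + C 6561)) ^ 3 : ℤ[X]).natDegree = 12
        by compute_degree!]
    norm_num

theorem jDen_monic (M : ℕ) : (jDen M).Monic := by
  unfold jDen
  split_ifs <;> monicity!

theorem natDegree_jNum_pos (M : ℕ) : 0 < (jNum M).natDegree :=
  (Nat.zero_le _).trans_lt (natDegree_jDen_lt M)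

theorem isCoprime_jNum_jDen (M : ℕ) :
    IsCoprime ((jNum M).map (Int.castRingHom ℚ)) ((jDen M).map (Int.castRingHom ℚ)) := by
  unfold jNum jDen
  split_ifs
  · simp only [Polynomial.map_mul, Polynomial.map_pow, Polynomial.map_add, map_X, map_C,
      eq_intCast, Int.cast_ofNat]
    refine (IsCoprime.mul_right ?_ ?_).pow_left
    · refine IsCoprime.pow_right ⟨C (1 / 4096), -C (1 / 4096) * (X + C 256), ?_⟩
      refine funext fun x => ?_
      simp
      ring
    · refine ⟨C (1 / 256), -C (1 / 256) * (X + C 240), ?_⟩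
      refine funext fun x => ?_
      simp
      ring
  · simp only [Polynomial.map_mul, Polynomial.map_pow, Polynomial.map_add, map_X, map_C,
      eq_intCast, Int.cast_ofNat]
    refine (IsCoprime.mul_right (IsCoprime.pow_right (IsCoprime.mul_left ?_ ?_))
      (IsCoprime.mul_left ?_ ?_)).pow_left
    · refine ⟨C (1 / 9), -C (1 / 9), ?_⟩
      refine funext fun x => ?_
      simp
      ring
    · refine ⟨C (1 / 6561), -C (1 / 6561) * (X ^ 2 + C 243 * X + C 2187), ?_⟩
      refine funext fun x => ?_
      simp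
      ring
    · refine ⟨-C (1 / 27) * X, C (1 / 27), ?_⟩
      refine funext fun x => ?_
      simp
      ring
    · refine ⟨-C (4 / 27) * (C (1 / 54) * X + C (1 / 12)),
        C (4 / 27) * (1 + (X + C 234) * (C (1 / 54) * X + C (1 / 12))), ?_⟩
      refine funext fun x => ?_
      simp
      ring

variable {K : Type} [Field K]

/-- `n(X) - T d(X)` with coprime `n, d` is irreducible over `K[T]`. -/
theorem irreducible_map_C_sub {n d : K[X]} (hd : d ≠ 0) (h : IsCoprime n d) :
    Irreducible (n.map (C : K →+* K[X]) - C (X : K[X]) * d.map (C : K →+* K[X])) := by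
  have e : n.map (C : K →+* K[X]) - C (X : K[X]) * d.map (C : K →+* K[X]) =
      Bivariate.swap (C n - X * C d) := by
    rw [map_sub, map_mul, Bivariate.swap_C, Bivariate.swap_Y, Bivariate.swap_C]
  rw [e, MulEquiv.irreducible_iff]
  convert!
    irreducible_C_mul_X_add_C (neg_ne_zero.mpr hd)
      ((IsCoprime.neg_right_iff _ _).mpr h).symm.isRelPrime using 1
  rw [add_comm, X_mul_C, map_neg, neg_mul]
  exact sub_eq_add_neg (C n) (C d * X)

/-- A transcendental `j = n(t)/d(t)` in lowest terms has degree `deg n` when `deg d < deg n`. -/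
theorem natDegree_minpoly_eq_of_mul_eq {Ω : Type} [Field Ω] [Algebra K Ω] {j t : Ω} {n d : K[X]}
    (hn : n.Monic) (hd : d ≠ 0) (hdn : d.natDegree < n.natDegree) (h : IsCoprime n d)
    (hj : Transcendental K j) (hrel : j * aeval t d = aeval t n) :
    (minpoly K⟮j⟯ t).natDegree = n.natDegree := by
  let R := Algebra.adjoin K ({j} : Set Ω)
  let e : K[X] ≃ₐ[K] R := Polynomial.algEquivOfTranscendental K j hj
  haveI : IsIntegrallyClosed R := IsIntegrallyClosed.of_equiv e.toRingEquiv
  let φ : K[X][X] := n.map (C : K →+* K[X]) - C (X : K[X]) * d.map (C : K →+* K[X])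
  have hmul : (C (X : K[X]) * d.map (C : K →+* K[X])).natDegree < (n.map (C : K →+* K[X])).natDegree
      := by
    rw [natDegree_C_mul X_ne_zero, natDegree_map_eq_of_injective C_injective,
      natDegree_map_eq_of_injective C_injective]
    exact hdn
  have hφm : φ.Monic := (hn.map _).sub_of_left (degree_lt_degree hmul)
  have hφdeg : φ.natDegree = n.natDegree := by
    rw [natDegree_sub_eq_left_of_natDegree_lt hmul, natDegree_map_eq_of_injective C_injective]
  let φR : R[X] := φ.map e.toRingEquiv.toRingHom
  have hirr : Irreducible φR :=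
    (MulEquiv.irreducible_iff (f := (mapEquiv e.toRingEquiv))).mpr (irreducible_map_C_sub hd h)
  have hroot : aeval t φR = 0 := by
    rw [aeval_def, eval₂_map]
    have hC : ((algebraMap R Ω).comp e.toRingEquiv.toRingHom).comp (C : K →+* K[X]) =
        algebraMap K Ω := RingHom.ext fun c => by
      show ((e (C c) : R) : Ω) = _
      rw [algEquivOfTranscendental_apply, aeval_C]
      rfl
    have hX : ((algebraMap R Ω).comp e.toRingEquiv.toRingHom) X = j := by
      show ((e X : R) : Ω) = j
      rw [algEquivOfTranscendental_apply, aeval_X]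
    simp only [φ, eval₂_sub, eval₂_mul, eval₂_C, eval₂_map, hC, hX, ← aeval_def]
    rw [hrel, sub_self]
  have hint : IsIntegral R t := ⟨φR, hφm.map _, hroot⟩
  have hminR : minpoly R t = φR := by
    refine eq_of_monic_of_associated (minpoly.monic hint) (hφm.map _) ?_
    exact associated_of_dvd_dvd (minpoly.isIntegrallyClosed_dvd hint hroot)
      ((hirr.dvd_iff.mp (minpoly.isIntegrallyClosed_dvd hint hroot)).resolve_left
        (minpoly.not_isUnit R t)).dvd
  rw [minpoly.isIntegrallyClosed_eq_field_fractions' K⟮j⟯ hint, hminR,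
    (hφm.map _).natDegree_map, hφm.natDegree_map, hφdeg]

theorem transcendental_jqModC (K : Type) [Field K] : Transcendental K (jqModC K) :=
  FLTA.Smooth.transcendental_jqModC_self K

variable {M N : ℕ} [NeZero M] [NeZero N] {t : ↥(modularFunctionFieldFull N)}

theorem aeval_map_int (x : LaurentSeries K) (P : ℤ[X]) :
    aeval x (P.map (Int.castRingHom K)) = P.eval₂ (Int.castRingHom (LaurentSeries K)) x := by
  rw [aeval_def, eval₂_map]
  congr 1
  exact RingHom.ext_int _ _

theorem coeffMap_eval₂_int {R S : Type*} [CommRing R] [CommRing S] (f : R →+* S)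
    (x : LaurentSeries R) (P : ℤ[X]) :
    coeffMap f (P.eval₂ (Int.castRingHom (LaurentSeries R)) x) =
      P.eval₂ (Int.castRingHom (LaurentSeries S)) (coeffMap f x) := by
  rw [hom_eval₂]
  congr 1
  exact RingHom.ext_int _ _

/-- `j · den(t) = num(t)` as series over every ring. -/
theorem IsTFull.jqModC_mul_den (hM : Haupt.IsHauptLevel M) (ht : IsTFull M N t)
    (R : Type*) [CommRing R] :
    jqModC R * (jDen M).eval₂ (Int.castRingHom (LaurentSeries R)) (Haupt.tOf M R) =
      (jNum M).eval₂ (Int.castRingHom (LaurentSeries R)) (Haupt.tOf M R) := by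
  have hZ : jqModC ℤ * (jDen M).eval₂ (Int.castRingHom (LaurentSeries ℤ)) (Haupt.tOf M ℤ) =
      (jNum M).eval₂ (Int.castRingHom (LaurentSeries ℤ)) (Haupt.tOf M ℤ) := by
    apply FLTA.Smooth.coeffMap_injective (ι := Int.castRingHom ℚ) Int.cast_injective
    rw [map_mul, coeffMap_eval₂_int, coeffMap_eval₂_int, coeffMap_jqModC, Haupt.coeffMap_tOf]
    have h := congrArg (algebraMap ↥(modularFunctionFieldFull N) (LaurentSeries ℚ))
      (ht.j_mul_den hM)
    rw [map_mul] at h
    simp only [aeval_def, hom_eval₂] at h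
    have hc : (algebraMap ↥(modularFunctionFieldFull N) (LaurentSeries ℚ)).comp
        (algebraMap ℤ ↥(modularFunctionFieldFull N)) = Int.castRingHom (LaurentSeries ℚ) :=
      RingHom.ext_int _ _
    rw [hc] at h
    rw [jqModC_rat, show Haupt.tOf M ℚ = (t : LaurentSeries ℚ) from ht.symm]
    exact h
  have := congrArg (coeffMap (Int.castRingHom R)) hZ
  rwa [map_mul, coeffMap_eval₂_int, coeffMap_eval₂_int, coeffMap_jqModC, Haupt.coeffMap_tOf] at this

/-- `K(t)` inside `K((e))`. -/
abbrev tField (M : ℕ) [NeZero M] (K : Type) [Field K] : IntermediateField K (LaurentSeries K) :=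
  IntermediateField.adjoin K {Haupt.tOf M K}

theorem eval₂_tOf_ne_zero {P : ℤ[X]} (hP : P.Monic) :
    P.eval₂ (Int.castRingHom (LaurentSeries K)) (Haupt.tOf M K) ≠ 0 := by
  rw [← aeval_map_int]
  exact fun h => (hP.map _).ne_zero (Haupt.aeval_tOf_injective M (h.trans (map_zero _).symm))

theorem IsTFull.jqModC_mem_tField (hM : Haupt.IsHauptLevel M) (ht : IsTFull M N t) :
    jqModC K ∈ tField M K := by
  have h := ht.jqModC_mul_den hM K
  rw [(eq_div_iff (eval₂_tOf_ne_zero (jDen_monic M))).mpr h, ← aeval_map_int, ← aeval_map_int]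
  exact div_mem (algebra_adjoin_le_adjoin K _ (aeval_mem_adjoin_singleton K _))
    (algebra_adjoin_le_adjoin K _ (aeval_mem_adjoin_singleton K _))

/-- The monic equation of `t` over `K[j]`. -/
theorem IsTFull.aeval_equation (hM : Haupt.IsHauptLevel M) (ht : IsTFull M N t)
    (R : Type*) [CommRing R] :
    ((jNum M).map (Int.castRingHom (LaurentSeries R)) -
      C (jqModC R) * (jDen M).map (Int.castRingHom (LaurentSeries R))).eval (Haupt.tOf M R) = 0 := by
  rw [eval_sub, eval_mul, eval_C, eval_map, eval_map, ht.jqModC_mul_den hM R, sub_self]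

/-- The equation of `t` over `K(j)`. -/
def jEquation (M : ℕ) (K : Type) [Field K] : (Igusa.jField K)[X] :=
  (jNum M).map (Int.castRingHom _) -
    C (⟨jqModC K, Igusa.jqModC_mem_jField K⟩ : Igusa.jField K) * (jDen M).map (Int.castRingHom _)

theorem jEquation_monic_natDegree (M : ℕ) (K : Type) [Field K] :
    (jEquation M K).Monic ∧ (jEquation M K).natDegree = (jNum M).natDegree := by
  have hdeg : ((jNum M).map (Int.castRingHom (Igusa.jField K))).natDegree = (jNum M).natDegree :=
    (jNum_monic M).natDegree_map _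
  have hlt : (C (⟨jqModC K, Igusa.jqModC_mem_jField K⟩ : Igusa.jField K) *
      (jDen M).map (Int.castRingHom _)).natDegree <
        ((jNum M).map (Int.castRingHom (Igusa.jField K))).natDegree := by
    rw [hdeg]
    exact (natDegree_C_mul_le _ _).trans_lt (natDegree_map_le.trans_lt (natDegree_jDen_lt M))
  exact ⟨((jNum_monic M).map _).sub_of_left (degree_lt_degree hlt),
    by rw [jEquation, natDegree_sub_eq_left_of_natDegree_lt hlt, hdeg]⟩

theorem IsTFull.aeval_jEquation (hM : Haupt.IsHauptLevel M) (ht : IsTFull M N t) :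
    aeval (Haupt.tOf M K) (jEquation M K) = 0 := by
  have h := ht.aeval_equation hM K
  rw [aeval_def, jEquation, eval₂_sub, eval₂_mul, eval₂_C, eval₂_map, eval₂_map]
  rw [eval_sub, eval_mul, eval_C, eval_map, eval_map] at h
  refine Eq.trans ?_ h
  congr 1
  all_goals first
    | (congr 1; exact RingHom.ext_int _ _)
    | (congr 1; congr 1; exact RingHom.ext_int _ _)
    | rfl

theorem IsTFull.restrictScalars_adjoin (hM : Haupt.IsHauptLevel M) (ht : IsTFull M N t) :
    (IntermediateField.adjoin (Igusa.jField K) {Haupt.tOf M K}).restrictScalars K = tField M K := by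
  refine le_antisymm (fun x hx => ?_) (adjoin_le_iff.mpr ?_)
  · rw [mem_restrictScalars] at hx
    induction hx using IntermediateField.adjoin_induction with
    | mem y hy => exact subset_adjoin K _ hy
    | algebraMap c =>
      exact adjoin_le_iff.mpr (Set.singleton_subset_iff.mpr (ht.jqModC_mem_tField hM)) c.2
    | add a b _ _ ha hb => exact add_mem ha hb
    | inv a _ ha => exact inv_mem ha
    | mul a b _ _ ha hb => exact mul_mem ha hb
  · exact subset_adjoin (Igusa.jField K) {Haupt.tOf M K}

theorem IsTFull.relfinrank_jField_tField (hM : Haupt.IsHauptLevel M) (ht : IsTFull M N t) :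
    relfinrank (Igusa.jField K) (tField M K) =
      (minpoly (Igusa.jField K) (Haupt.tOf M K)).natDegree := by
  have hle : Igusa.jField K ≤ tField M K :=
    adjoin_le_iff.mpr (Set.singleton_subset_iff.mpr (ht.jqModC_mem_tField hM))
  rw [relfinrank_eq_finrank_of_le hle]
  have h : extendScalars hle = IntermediateField.adjoin (Igusa.jField K) {Haupt.tOf M K} :=
    SetLike.ext fun y => by
      rw [mem_extendScalars, ← ht.restrictScalars_adjoin hM, mem_restrictScalars]
  rw [h]
  exact adjoin.finrank ⟨_, (jEquation_monic_natDegree M K).1, ht.aeval_jEquation hM⟩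

/-- `t` belongs to the level-`N` field in every characteristic not dividing `N`. -/
theorem IsTFull.tOf_mem_full (hM : Haupt.IsHauptLevel M) (ht : IsTFull M N t) {q : ℕ}
    [Fact q.Prime] (hqN : ¬ q ∣ N) [CharP K q] [Algebra ↥(GaloisRep.ratLocalizedAt q) K] :
    Haupt.tOf M K ∈ modularFunctionFieldFullC K N := by
  have hmem : t ∈ chartAlg N q {jFull N} := by
    rw [mem_chartAlg_iff]
    let j' : ↥(Algebra.adjoin ↥(GaloisRep.ratLocalizedAt q) ({jFull N} : Set _)) :=
      ⟨jFull N, Algebra.subset_adjoin rfl⟩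
    have hlt : (C j' * (jDen M).map (Int.castRingHom _)).natDegree <
        ((jNum M).map (Int.castRingHom _) : (↥(Algebra.adjoin ↥(GaloisRep.ratLocalizedAt q)
          ({jFull N} : Set _)))[X]).natDegree := by
      rw [(jNum_monic M).natDegree_map]
      exact (natDegree_C_mul_le _ _).trans_lt (natDegree_map_le.trans_lt (natDegree_jDen_lt M))
    refine ⟨_, ((jNum_monic M).map _).sub_of_left (degree_lt_degree hlt), ?_⟩
    rw [eval₂_sub, eval₂_mul, eval₂_C, eval₂_map, eval₂_map]
    have hc : ∀ f : ℤ →+* ↥(modularFunctionFieldFull N),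
        f = algebraMap ℤ ↥(modularFunctionFieldFull N) := fun f => RingHom.ext_int _ _
    rw [hc (RingHom.comp _ _), ← aeval_def, ← aeval_def, show algebraMap _ ↥(modularFunctionFieldFull N) j' = jFull N
      from rfl, ht.j_mul_den hM, sub_self]
  have h := Igusa.chartRed_mem_full q (Igusa.isChartSet_fin N) K hqN ⟨t, hmem⟩
  have hexp : Igusa.chartExp q (Igusa.isChartSet_fin N) ⟨t, hmem⟩ =
      Haupt.tOf M ↥(GaloisRep.ratLocalizedAt q) :=
    FLTA.Smooth.seriesIncl_injective q (by
      rw [FLTA.Smooth.seriesIncl, Haupt.coeffMap_tOf, show Haupt.tOf M ℚ = (t : LaurentSeries ℚ)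
        from ht.symm]
      exact HahnSeries.ext (_root_.funext fun n => rfl))
  rwa [Igusa.chartRed, RingHom.comp_apply, hexp, Haupt.coeffMap_tOf] at h

theorem IsTFull.tOf_rat_mem_full (ht : IsTFull M N t) :
    Haupt.tOf M ℚ ∈ modularFunctionFieldFullC ℚ N := by
  rw [show Haupt.tOf M ℚ = (t : LaurentSeries ℚ) from ht.symm]
  exact t.2

/-- Over `ℚ`, `j` has degree `deg jNum` in `t`. -/
theorem IsTFull.relfinrank_jField_tField_rat (hM : Haupt.IsHauptLevel M) (ht : IsTFull M N t) :
    relfinrank (Igusa.jField ℚ) (tField M ℚ) = (jNum M).natDegree := by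
  rw [ht.relfinrank_jField_tField hM]
  have h := natDegree_minpoly_eq_of_mul_eq (K := ℚ) (j := jqModC ℚ) (t := Haupt.tOf M ℚ)
    ((jNum_monic M).map (Int.castRingHom ℚ)) ((jDen_monic M).map _).ne_zero
    (by rw [(jNum_monic M).natDegree_map]; exact natDegree_map_le.trans_lt (natDegree_jDen_lt M))
    (isCoprime_jNum_jDen M) (transcendental_jqModC ℚ)
    (by rw [aeval_map_int, aeval_map_int]; exact ht.jqModC_mul_den hM ℚ)
  rwa [(jNum_monic M).natDegree_map] at h

theorem IsTFull.relfinrank_mul (hM : Haupt.IsHauptLevel M) (ht : IsTFull M N t)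
    (hN : (N : K) ≠ 0) (hmem : Haupt.tOf M K ∈ modularFunctionFieldFullC K N) :
    relfinrank (Igusa.jField K) (tField M K) *
      relfinrank (tField M K) (modularFunctionFieldFullC K N) = dedekindPsi N := by
  rw [relfinrank_mul_relfinrank
    (adjoin_le_iff.mpr (Set.singleton_subset_iff.mpr (ht.jqModC_mem_tField hM)))
    (adjoin_le_iff.mpr (Set.singleton_subset_iff.mpr hmem))]
  exact (Igusa.relfinrank_and_fricke K N hN).1

/-- Reduction does not lower the degree over the line of `t`. -/
theorem IsTFull.relfinrank_le (hM : Haupt.IsHauptLevel M) (ht : IsTFull M N t) {q : ℕ}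
    [Fact q.Prime] (hqN : ¬ q ∣ N) [CharP K q] [Algebra ↥(GaloisRep.ratLocalizedAt q) K] :
    relfinrank (tField M ℚ) (modularFunctionFieldFullC ℚ N) ≤
      relfinrank (tField M K) (modularFunctionFieldFullC K N) := by
  have hNK : (N : K) ≠ 0 := FLTA.Smooth.natCast_ne_zero_of_not_dvd (ℓ := q) hqN
  have h0 := ht.relfinrank_mul hM (Nat.cast_ne_zero.mpr (NeZero.ne N)) ht.tOf_rat_mem_full
  have hp := ht.relfinrank_mul hM hNK (ht.tOf_mem_full (K := K) hM hqN)
  rw [ht.relfinrank_jField_tField_rat hM] at h0
  have hle : relfinrank (Igusa.jField K) (tField M K) ≤ (jNum M).natDegree := by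
    rw [ht.relfinrank_jField_tField hM, ← (jEquation_monic_natDegree M K).2]
    exact natDegree_le_of_dvd (minpoly.dvd _ _ (ht.aeval_jEquation hM))
      (jEquation_monic_natDegree M K).1.ne_zero
  refine Nat.le_of_mul_le_mul_left ?_ (natDegree_jNum_pos M)
  rw [h0, ← hp]
  exact Nat.mul_le_mul_right _ hle

end FLTA.Carayol.Chart
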